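/-
Potentials on the projective line over `ℚ`.

A potential is a function `h` on pairs of rationals, constant on lines; `IsInv h g` says that
`h ∘ g - h` is constant.  These `g` are closed under products and inverses.  If they contain
`Γ₀(N)` and its conjugate by `diag(q, 1)` then they contain `Γ₀(N)` over `ℤ[1/q]`.
-/
import Mathlib

set_option autoImplicit false

noncomputable section

namespace FLTA.LevelRaising

/-- A two by two rational matrix. -/
@[ext] structure QMat where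
  a : ℚ
  b : ℚ
  c : ℚ
  d : ℚ

namespace QMat

/-- Product of matrices. -/
def mul (g g' : QMat) : QMat :=
  ⟨g.a * g'.a + g.b * g'.c, g.a * g'.b + g.b * g'.d,
    g.c * g'.a + g.d * g'.c, g.c * g'.b + g.d * g'.d⟩

instance : Mul QMat := ⟨mul⟩

instance : One QMat := ⟨⟨1, 0, 0, 1⟩⟩

theorem mul_def (g g' : QMat) : g * g' =
    ⟨g.a * g'.a + g.b * g'.c, g.a * g'.b + g.b * g'.d,
      g.c * g'.a + g.d * g'.c, g.c * g'.b + g.d * g'.d⟩ := rfl

theorem one_def : (1 : QMat) = ⟨1, 0, 0, 1⟩ := rfl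

/-- The determinant. -/
def det (g : QMat) : ℚ := g.a * g.d - g.b * g.c

@[simp] theorem det_mul (g g' : QMat) : (g * g').det = g.det * g'.det := by
  simp only [mul_def, det]; ring

/-- The adjugate. -/
def adj (g : QMat) : QMat := ⟨g.d, -g.b, -g.c, g.a⟩

@[simp] theorem det_adj (g : QMat) : g.adj.det = g.det := by
  simp only [adj, det]; ring

/-- The linear action on column vectors. -/
def app (g : QMat) (P : ℚ × ℚ) : ℚ × ℚ := (g.a * P.1 + g.b * P.2, g.c * P.1 + g.d * P.2)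

theorem app_mul (g g' : QMat) (P : ℚ × ℚ) : (g * g').app P = g.app (g'.app P) := by
  simp only [mul_def, app, Prod.mk.injEq]
  constructor <;> ring

@[simp] theorem app_one (P : ℚ × ℚ) : (1 : QMat).app P = P := by
  simp [one_def, app]

theorem adj_mul (g : QMat) : g.adj * g = ⟨g.det, 0, 0, g.det⟩ := by
  simp only [mul_def, adj, det, QMat.mk.injEq]
  refine ⟨?_, ?_, ?_, ?_⟩ <;> ring

theorem mul_adj (g : QMat) : g * g.adj = ⟨g.det, 0, 0, g.det⟩ := by
  simp only [mul_def, adj, det, QMat.mk.injEq]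
  refine ⟨?_, ?_, ?_, ?_⟩ <;> ring

theorem app_smul (g : QMat) (t : ℚ) (P : ℚ × ℚ) : g.app (t • P) = t • g.app P := by
  simp only [app, Prod.smul_fst, Prod.smul_snd, Prod.smul_mk, smul_eq_mul, Prod.mk.injEq]
  constructor <;> ring

theorem app_ne_zero {g : QMat} (hg : g.det ≠ 0) {P : ℚ × ℚ} (hP : P ≠ 0) : g.app P ≠ 0 := by
  intro h
  have h' : g.adj.app (g.app P) = 0 := by rw [h]; simp [app]
  rw [← app_mul, adj_mul] at h'
  apply hP
  simp only [app, Prod.ext_iff, Prod.fst_zero, Prod.snd_zero, zero_mul, add_zero, zero_add,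
    mul_eq_zero] at h'
  exact Prod.ext (h'.1.resolve_left hg) (h'.2.resolve_left hg)

/-- Translation. -/
def transl (t : ℚ) : QMat := ⟨1, t, 0, 1⟩

/-- Lower unipotent. -/
def lower (t : ℚ) : QMat := ⟨1, 0, t, 1⟩

/-- Diagonal matrix. -/
def diag (u v : ℚ) : QMat := ⟨u, 0, 0, v⟩

/-- An integral matrix as a rational one. -/
def ofSL (g : Matrix.SpecialLinearGroup (Fin 2) ℤ) : QMat :=
  ⟨(g 0 0 : ℤ), (g 0 1 : ℤ), (g 1 0 : ℤ), (g 1 1 : ℤ)⟩

@[simp] theorem det_ofSL (g : Matrix.SpecialLinearGroup (Fin 2) ℤ) : (ofSL g).det = 1 := by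
  have h := Matrix.SpecialLinearGroup.det_coe g
  rw [Matrix.det_fin_two] at h
  simp only [ofSL, det]
  exact_mod_cast h

theorem ofSL_mul (g g' : Matrix.SpecialLinearGroup (Fin 2) ℤ) :
    ofSL (g * g') = ofSL g * ofSL g' := by
  simp [ofSL, mul_def, Matrix.mul_apply, Fin.sum_univ_two]

end QMat

/-- The base point `∞`. -/
def infPt : ℚ × ℚ := (1, 0)

theorem infPt_ne_zero : infPt ≠ 0 := by simp [infPt, Prod.ext_iff]

variable {k : Type*} [AddCommGroup k]

/-- `h` is constant on lines. -/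
def IsHomog (h : ℚ × ℚ → k) : Prop :=
  ∀ (t : ℚ) (P : ℚ × ℚ), t ≠ 0 → P ≠ 0 → h (t • P) = h P

/-- The period of `h` at `g`. -/
def per (h : ℚ × ℚ → k) (g : QMat) : k := h (g.app infPt) - h infPt

theorem per_eq (h : ℚ × ℚ → k) (g : QMat) : per h g = h (g.a, g.c) - h infPt := by
  simp [per, QMat.app, infPt]

/-- `h ∘ g - h` is constant. -/
def IsInv (h : ℚ × ℚ → k) (g : QMat) : Prop :=
  g.det ≠ 0 ∧ ∀ P : ℚ × ℚ, P ≠ 0 → h (g.app P) = h P + per h g

namespace IsInv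

variable {h : ℚ × ℚ → k}

theorem of_const {g : QMat} (hg : g.det ≠ 0) (c : k)
    (H : ∀ P : ℚ × ℚ, P ≠ 0 → h (g.app P) = h P + c) : IsInv h g := by
  refine ⟨hg, fun P hP => ?_⟩
  rw [H P hP, per, H infPt infPt_ne_zero]
  abel

theorem apply {g : QMat} (hg : IsInv h g) {P : ℚ × ℚ} (hP : P ≠ 0) :
    h (g.app P) = h P + per h g := hg.2 P hP

theorem mul {g g' : QMat} (hg : IsInv h g) (hg' : IsInv h g') : IsInv h (g * g') := by
  refine of_const (by rw [QMat.det_mul]; exact mul_ne_zero hg.1 hg'.1) (per h g' + per h g)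
    fun P hP => ?_
  rw [QMat.app_mul, hg.2 _ (QMat.app_ne_zero hg'.1 hP), hg'.2 P hP, add_assoc]

theorem per_mul {g g' : QMat} (hg : IsInv h g) (hg' : IsInv h g') :
    per h (g * g') = per h g + per h g' := by
  rw [per, QMat.app_mul, hg.2 _ (QMat.app_ne_zero hg'.1 infPt_ne_zero)]
  simp only [per]
  abel

theorem one : IsInv h 1 := of_const (by simp [QMat.one_def, QMat.det]) 0 fun P _ => by simp

theorem per_one : per h 1 = 0 := by simp [per]

theorem adj {g : QMat} (hh : IsHomog h) (hg : IsInv h g) : IsInv h g.adj := by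
  refine of_const (by rw [QMat.det_adj]; exact hg.1) (-per h g) fun P hP => ?_
  have hne : g.adj.app P ≠ 0 := QMat.app_ne_zero (by rw [QMat.det_adj]; exact hg.1) hP
  have h1 := hg.2 _ hne
  rw [← QMat.app_mul, QMat.mul_adj,
    show (⟨g.det, 0, 0, g.det⟩ : QMat).app P = g.det • P by
      simp [QMat.app, Prod.smul_def],
    hh _ _ hg.1 hP] at h1
  rw [h1]
  abel

theorem per_adj {g : QMat} (hh : IsHomog h) (hg : IsInv h g) : per h g.adj = -per h g := by
  have hne : g.adj.app infPt ≠ 0 :=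
    QMat.app_ne_zero (by rw [QMat.det_adj]; exact hg.1) infPt_ne_zero
  have h1 := hg.2 _ hne
  rw [← QMat.app_mul, QMat.mul_adj,
    show (⟨g.det, 0, 0, g.det⟩ : QMat).app infPt = g.det • infPt by
      simp [QMat.app, Prod.smul_def],
    hh _ _ hg.1 infPt_ne_zero] at h1
  rw [per, h1]
  abel

/-- An invariance element fixing a line has period zero. -/
theorem per_eq_zero_of_fix {g : QMat} (hh : IsHomog h) (hg : IsInv h g) {P : ℚ × ℚ} (hP : P ≠ 0)
    {t : ℚ} (hfix : g.app P = t • P) : per h g = 0 := by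
  have ht : t ≠ 0 := by
    rintro rfl
    exact QMat.app_ne_zero hg.1 hP (by simpa using hfix)
  have h1 := hg.2 P hP
  rw [hfix, hh t P ht hP] at h1
  simpa using h1

/-- An invariance element fixing a line preserves `h`. -/
theorem apply_of_fix {g : QMat} (hh : IsHomog h) (hg : IsInv h g) {P : ℚ × ℚ} (hP : P ≠ 0)
    {t : ℚ} (hfix : g.app P = t • P) {Q : ℚ × ℚ} (hQ : Q ≠ 0) : h (g.app Q) = h Q := by
  rw [hg.2 Q hQ, hg.per_eq_zero_of_fix hh hP hfix, add_zero]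

end IsInv

/-! ### The ring `ℤ[1/q]` and the group `Γ₀(N)` over it -/

/-- Membership in `ℤ[1/q]`. -/
def IsQInt (q : ℕ) (x : ℚ) : Prop := ∃ (e : ℕ) (m : ℤ), x * (q : ℚ) ^ e = m

namespace IsQInt

variable {q : ℕ} {x y : ℚ}

theorem intCast (m : ℤ) : IsQInt q (m : ℚ) := ⟨0, m, by simp⟩

theorem natCast (m : ℕ) : IsQInt q (m : ℚ) := ⟨0, m, by simp⟩

theorem zero : IsQInt q 0 := ⟨0, 0, by simp⟩

theorem one : IsQInt q 1 := ⟨0, 1, by simp⟩

theorem add (hx : IsQInt q x) (hy : IsQInt q y) : IsQInt q (x + y) := by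
  obtain ⟨e, m, he⟩ := hx
  obtain ⟨f, n, hf⟩ := hy
  refine ⟨e + f, m * (q : ℤ) ^ f + n * (q : ℤ) ^ e, ?_⟩
  push_cast
  rw [← he, ← hf, pow_add]
  ring

theorem neg (hx : IsQInt q x) : IsQInt q (-x) := by
  obtain ⟨e, m, he⟩ := hx
  exact ⟨e, -m, by push_cast; rw [← he]; ring⟩

theorem sub (hx : IsQInt q x) (hy : IsQInt q y) : IsQInt q (x - y) := by
  rw [sub_eq_add_neg]; exact hx.add hy.neg

theorem mul (hx : IsQInt q x) (hy : IsQInt q y) : IsQInt q (x * y) := by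
  obtain ⟨e, m, he⟩ := hx
  obtain ⟨f, n, hf⟩ := hy
  refine ⟨e + f, m * n, ?_⟩
  push_cast
  rw [← he, ← hf, pow_add]
  ring

theorem inv_pow [NeZero q] (e : ℕ) : IsQInt q (((q : ℚ) ^ e)⁻¹) := by
  refine ⟨e, 1, ?_⟩
  have : (q : ℚ) ≠ 0 := by exact_mod_cast NeZero.ne q
  rw [inv_mul_cancel₀ (pow_ne_zero _ this)]
  simp

theorem div_pow [NeZero q] (hx : IsQInt q x) (e : ℕ) : IsQInt q (x / (q : ℚ) ^ e) := by
  rw [div_eq_mul_inv]; exact hx.mul (inv_pow e)

end IsQInt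

/-- Membership in `Γ₀(N)` over `ℤ[1/q]`. -/
def InGamma0Q (N q : ℕ) (g : QMat) : Prop :=
  g.det = 1 ∧ IsQInt q g.a ∧ IsQInt q g.b ∧ IsQInt q g.d ∧ ∃ c, IsQInt q c ∧ g.c = N * c

theorem InGamma0Q.isQInt_c {N q : ℕ} {g : QMat} (hg : InGamma0Q N q g) : IsQInt q g.c := by
  obtain ⟨-, -, -, -, c, hc, he⟩ := hg
  rw [he]
  exact (IsQInt.natCast N).mul hc

theorem inGamma0Q_ofSL {N q : ℕ} {g : Matrix.SpecialLinearGroup (Fin 2) ℤ}
    (hg : (N : ℤ) ∣ g 1 0) : InGamma0Q N q (QMat.ofSL g) := by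
  obtain ⟨c, hc⟩ := hg
  exact ⟨QMat.det_ofSL g, IsQInt.intCast _, IsQInt.intCast _, IsQInt.intCast _, c,
    IsQInt.intCast c, by simp [QMat.ofSL, hc]⟩

/-- A potential for `Γ₀(N)` over `ℤ[1/q]`. -/
structure IsPot (N q : ℕ) (h : ℚ × ℚ → k) : Prop where
  homog : IsHomog h
  inv : ∀ g, InGamma0Q N q g → IsInv h g

namespace IsPot

variable {N q : ℕ} {h : ℚ × ℚ → k}

theorem transl_inv (H : IsPot N q h) {t : ℚ} (ht : IsQInt q t) : IsInv h (QMat.transl t) :=
  H.inv _ ⟨by simp [QMat.transl, QMat.det], IsQInt.one, ht, IsQInt.one, 0, IsQInt.zero,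
    by simp [QMat.transl]⟩

/-- Invariance under translations. -/
theorem apply_transl (H : IsPot N q h) {t u v : ℚ} (ht : IsQInt q t) (hne : (u, v) ≠ (0 : ℚ × ℚ)) :
    h (u + t * v, v) = h (u, v) := by
  have h1 := (H.transl_inv ht).apply_of_fix H.homog (P := infPt) infPt_ne_zero (t := 1)
    (by simp [QMat.app, QMat.transl, infPt]) hne
  simpa [QMat.app, QMat.transl] using h1

theorem lower_inv (H : IsPot N q h) {s : ℚ} (hs : IsQInt q s) :
    IsInv h (QMat.lower (N * s)) :=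
  H.inv _ ⟨by simp [QMat.lower, QMat.det], IsQInt.one, IsQInt.zero, IsQInt.one, s, hs,
    by simp [QMat.lower]⟩

/-- Invariance under lower unipotents. -/
theorem apply_lower (H : IsPot N q h) {s u v : ℚ} (hs : IsQInt q s)
    (hne : (u, v) ≠ (0 : ℚ × ℚ)) : h (u, v + N * s * u) = h (u, v) := by
  have h1 := (H.lower_inv hs).apply_of_fix H.homog (P := (0, 1)) (by simp [Prod.ext_iff]) (t := 1)
    (by simp [QMat.app, QMat.lower]) hne
  simpa [QMat.app, QMat.lower, add_comm] using h1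

theorem apply_smul (H : IsPot N q h) {t u v : ℚ} (ht : t ≠ 0) (hne : (u, v) ≠ (0 : ℚ × ℚ)) :
    h (t * u, t * v) = h (u, v) := by
  simpa using H.homog t (u, v) ht hne

theorem apply_neg (H : IsPot N q h) {u v : ℚ} (hne : (u, v) ≠ (0 : ℚ × ℚ)) :
    h (-u, -v) = h (u, v) := by
  simpa using H.apply_smul (t := -1) (by norm_num) hne

end IsPot

/-! ### Generation -/

section generation

variable {N q : ℕ} [NeZero q] {h : ℚ × ℚ → k}

/-- `diag(q⁻¹,1) γ diag(q, 1)` for an integral `γ`. -/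
def conjUp (q : ℕ) (g : Matrix.SpecialLinearGroup (Fin 2) ℤ) : QMat :=
  ⟨(g 0 0 : ℤ), (g 0 1 : ℤ) / (q : ℚ), (q : ℚ) * (g 1 0 : ℤ), (g 1 1 : ℤ)⟩

theorem exists_sl2 {u v : ℤ} (huv : IsCoprime u v) :
    ∃ g : Matrix.SpecialLinearGroup (Fin 2) ℤ, g 0 0 = u ∧ g 1 0 = v := by
  obtain ⟨x, y, hxy⟩ := huv
  exact ⟨⟨!![u, -y; v, x], by rw [Matrix.det_fin_two_of]; linear_combination hxy⟩, rfl, rfl⟩

omit [NeZero q] in
theorem isPot_aux_pow (hh : IsHomog h) {D : QMat} (hD : IsInv h D) (n : ℕ) :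
    IsInv h ((fun g => D * g)^[n] 1) := by
  induction n with
  | zero => exact IsInv.one
  | succ n ih => rw [Function.iterate_succ_apply']; exact hD.mul ih

/-- If `h` is invariant under `Γ₀(N)` and `diag(q,1)⁻¹ Γ₀(N) diag(q,1)`, it is invariant under
`Γ₀(N)` over `ℤ[1/q]`. -/
theorem isPot_of_generators (hh : IsHomog h) (hq : q.Prime) (hqN : ¬ q ∣ N)
    (h1 : ∀ g : Matrix.SpecialLinearGroup (Fin 2) ℤ, (N : ℤ) ∣ g 1 0 → IsInv h (QMat.ofSL g))
    (h2 : ∀ g : Matrix.SpecialLinearGroup (Fin 2) ℤ, (N : ℤ) ∣ g 1 0 → IsInv h (conjUp q g)) :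
    IsPot N q h := by
  have hq0 : (q : ℚ) ≠ 0 := by exact_mod_cast hq.ne_zero
  have hcop : IsCoprime (q : ℤ) (N : ℤ) :=
    Int.isCoprime_iff_nat_coprime.mpr (by simpa using hq.coprime_iff_not_dvd.mpr hqN)
  -- diag(q, 1/q)
  obtain ⟨x, z, hxz⟩ := hcop
  have hD : IsInv h (QMat.diag q (q : ℚ)⁻¹) := by
    have g1 : IsInv h (QMat.ofSL ⟨!![(q : ℤ), 1; -(N : ℤ) * z * -1 * -1, x],
        by rw [Matrix.det_fin_two_of]; linear_combination hxz⟩) :=
      h1 _ ⟨-z, by simp⟩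
    have g2 : IsInv h (conjUp q ⟨!![x * q, -1; (N : ℤ) * z, 1],
        by rw [Matrix.det_fin_two_of]; linear_combination hxz⟩) :=
      h2 _ ⟨z, by simp⟩
    have he := g1.mul g2
    refine (show QMat.diag (q : ℚ) (q : ℚ)⁻¹ = _ from ?_) ▸ he
    have hxz' : (x : ℚ) * q + z * N = 1 := by exact_mod_cast hxz
    simp only [QMat.diag, QMat.ofSL, conjUp, QMat.mul_def, QMat.mk.injEq]
    simp
    refine ⟨?_, ?_, ?_, ?_⟩
    · linear_combination (-(q : ℚ)) * hxz'
    · field_simp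
      ring
    · ring
    · field_simp
      linear_combination (-1 : ℚ) * hxz'
  -- powers of diag(q, 1/q)
  have hDpow : ∀ e : ℕ, IsInv h (QMat.diag ((q : ℚ) ^ e) ((q : ℚ) ^ e)⁻¹) := by
    intro e
    induction e with
    | zero => simpa [QMat.diag, ← QMat.one_def] using IsInv.one (h := h)
    | succ e ih =>
      refine (show QMat.diag _ _ = _ from ?_) ▸ hD.mul ih
      simp only [QMat.diag, QMat.mul_def, QMat.mk.injEq]
      refine ⟨by ring, by ring, by ring, by field_simp; ring⟩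
  have hDneg : ∀ e : ℕ, IsInv h (QMat.diag ((q : ℚ) ^ e)⁻¹ ((q : ℚ) ^ e)) := by
    intro e
    simpa [QMat.adj, QMat.diag] using (hDpow e).adj hh
  -- translations
  have hU : ∀ t : ℚ, IsQInt q t → IsInv h (QMat.transl t) := by
    rintro t ⟨e, m, hm⟩
    have hm' : IsInv h (QMat.transl ((m * (q : ℤ) ^ e : ℤ) : ℚ)) := by
      have := h1 ⟨!![1, m * (q : ℤ) ^ e; 0, 1], by simp [Matrix.det_fin_two_of]⟩ (dvd_zero _)
      simpa [QMat.ofSL, QMat.transl] using this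
    refine (show QMat.transl t = _ from ?_) ▸ ((hDneg e).mul hm').mul (hDpow e)
    simp only [QMat.transl, QMat.diag, QMat.mul_def, QMat.mk.injEq]
    refine ⟨by field_simp; ring, ?_, by ring, by field_simp; ring⟩
    have : t = (m : ℚ) / (q : ℚ) ^ e := by field_simp; linear_combination hm
    rw [this]
    push_cast
    field_simp
    ring
  refine ⟨hh, ?_⟩
  rintro g ⟨hdet, ⟨ea, ma, hma⟩, ⟨eb, mb, hmb⟩, ⟨ed, md, hmd⟩, c, ⟨ec, mc, hmc⟩, hgc⟩
  set e := ea + ec with he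
  set A : ℤ := ma * (q : ℤ) ^ ec with hA
  set C : ℤ := (N : ℤ) * (mc * (q : ℤ) ^ ea) with hC
  have hA' : g.a * (q : ℚ) ^ e = A := by
    rw [hA]; push_cast; rw [← hma, he, pow_add]; ring
  have hC' : g.c * (q : ℚ) ^ e = C := by
    rw [hC]; push_cast; rw [← hmc, hgc, he, pow_add]; ring
  have hrel : A * (md * (q : ℤ) ^ eb) - (mb * (q : ℤ) ^ ed) * C = (q : ℤ) ^ (e + (eb + ed)) := by
    have hd' : g.a * g.d - g.b * g.c = 1 := hdet
    have : ((A * (md * (q : ℤ) ^ eb) - (mb * (q : ℤ) ^ ed) * C : ℤ) : ℚ)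
        = (((q : ℤ) ^ (e + (eb + ed)) : ℤ) : ℚ) := by
      push_cast
      rw [← hA', ← hC', ← hmd, ← hmb, pow_add, pow_add]
      linear_combination ((q : ℚ) ^ e * ((q : ℚ) ^ eb * (q : ℚ) ^ ed)) * hd'
    exact_mod_cast this
  obtain ⟨i, -, hi⟩ : ∃ i ≤ e + (eb + ed), Int.gcd A C = q ^ i := by
    refine (Nat.dvd_prime_pow hq).mp (Int.natCast_dvd_natCast.mp ?_)
    push_cast
    rw [← hrel]
    exact dvd_sub (dvd_mul_of_dvd_left (Int.gcd_dvd_left _ _) _)
      (dvd_mul_of_dvd_right (Int.gcd_dvd_right _ _) _)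
  have hG : 0 < Int.gcd A C := by rw [hi]; exact pow_pos hq.pos _
  obtain ⟨G, A', C', hG0, hcopAC, hA1, hC1⟩ := Int.exists_gcd_one' hG
  have hGi : G = q ^ i := by
    rw [← hi, hA1, hC1, Int.gcd_mul_right, hcopAC]
    simp
  have hNC' : (N : ℤ) ∣ C' := by
    refine IsCoprime.dvd_of_dvd_mul_right (z := (G : ℤ)) ?_ ?_
    · rw [hGi]; push_cast
      exact (IsCoprime.pow_left ⟨x, z, hxz⟩).symm
    · rw [← hC1, hC]; exact dvd_mul_right _ _
  obtain ⟨γ, hγa, hγc⟩ := exists_sl2 (Int.isCoprime_iff_gcd_eq_one.mpr hcopAC)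
  have hγ : IsInv h (QMat.ofSL γ) := h1 γ (hγc ▸ hNC')
  -- the matrix `g * diag(q^e, q^-e) * diag(q^-i, q^i)`
  set g' := g * (QMat.diag ((q : ℚ) ^ e) ((q : ℚ) ^ e)⁻¹ * QMat.diag ((q : ℚ) ^ i)⁻¹ ((q : ℚ) ^ i))
    with hg'
  have hqi : (q : ℚ) ^ i ≠ 0 := pow_ne_zero _ hq0
  have hg'a : g'.a = (A' : ℚ) := by
    have : (A : ℚ) = (A' : ℚ) * (q : ℚ) ^ i := by rw [hA1, hGi]; push_cast; ring
    have he2 : g'.a = g.a * (q : ℚ) ^ e / (q : ℚ) ^ i := by
      simp only [hg', QMat.mul_def, QMat.diag]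
      ring
    rw [he2, hA', this, mul_div_assoc, div_self hqi, mul_one]
  have hg'c : g'.c = (C' : ℚ) := by
    have : (C : ℚ) = (C' : ℚ) * (q : ℚ) ^ i := by rw [hC1, hGi]; push_cast; ring
    have he2 : g'.c = g.c * (q : ℚ) ^ e / (q : ℚ) ^ i := by
      simp only [hg', QMat.mul_def, QMat.diag]
      ring
    rw [he2, hC', this, mul_div_assoc, div_self hqi, mul_one]
  have hg'det : g'.det = 1 := by
    simp only [hg', QMat.det_mul, hdet, one_mul]
    simp only [QMat.det, QMat.diag]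
    field_simp
    ring
  have hg'b : IsQInt q g'.b := by
    have hgb : IsQInt q g.b := ⟨eb, mb, hmb⟩
    simp only [hg', QMat.mul_def, QMat.diag, mul_zero, zero_mul, add_zero, zero_add]
    exact hgb.mul ((IsQInt.inv_pow e).mul (by exact_mod_cast IsQInt.natCast (q := q) (q ^ i)))
  have hg'd : IsQInt q g'.d := by
    have hgd : IsQInt q g.d := ⟨ed, md, hmd⟩
    simp only [hg', QMat.mul_def, QMat.diag, mul_zero, zero_mul, add_zero, zero_add]
    exact hgd.mul ((IsQInt.inv_pow e).mul (by exact_mod_cast IsQInt.natCast (q := q) (q ^ i)))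
  set t : ℚ := (γ 1 1 : ℤ) * g'.b - (γ 0 1 : ℤ) * g'.d with ht
  have hdecomp : QMat.ofSL γ * QMat.transl t = g' := by
    have hdetγ : ((γ 0 0 : ℤ) : ℚ) * (γ 1 1 : ℤ) - (γ 0 1 : ℤ) * (γ 1 0 : ℤ) = 1 := by
      simpa [QMat.det, QMat.ofSL] using QMat.det_ofSL γ
    have hd' : g'.a * g'.d - g'.b * g'.c = 1 := hg'det
    rw [hg'a, hg'c] at hd'
    rw [hγa, hγc] at hdetγ
    simp only [QMat.ofSL, QMat.transl, QMat.mul_def, hγa, hγc, ht]
    ext <;> simp only
    · rw [hg'a]; ring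
    · linear_combination g'.b * hdetγ + (-((γ 0 1 : ℤ) : ℚ)) * hd'
    · rw [hg'c]; ring
    · linear_combination g'.d * hdetγ + (-((γ 1 1 : ℤ) : ℚ)) * hd'
  have htQ : IsQInt q t := ((IsQInt.intCast _).mul hg'b).sub ((IsQInt.intCast _).mul hg'd)
  have hinv : IsInv h g' := hdecomp ▸ hγ.mul (hU t htQ)
  refine (show g = _ from ?_) ▸ (hinv.mul (hDpow i)).mul (hDneg e)
  simp only [hg', QMat.mul_def, QMat.diag]
  ext <;> simp only <;> field_simp <;> ring

end generation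

end FLTA.LevelRaising
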