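/-
The odd part of a potential for `Γ₀(N)` over `ℤ[1/q]` is trivial.

For `γ` with lower right entry a prime `d` modulo which `v = q^((d-1)/4)` is a square root of `-1`,
the element `γ (ε γ⁻¹ ε)` agrees, up to translations and scaling, with an element fixing a
rational line.
-/
import Fermat.Agent.LevelRaising.IharaPotential

set_option autoImplicit false

noncomputable section

namespace FLTA.LevelRaising

theorem isCoprime_of_dvd_sub {x y m : ℤ} (h : IsCoprime y m) (hd : m ∣ x - y) :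
    IsCoprime x m := by
  obtain ⟨t, ht⟩ := hd
  obtain rfl : x = y + m * t := by linear_combination ht
  exact h.add_mul_left_left t

/-- Simultaneous congruences. -/
theorem exists_crt {m n : ℤ} (h : IsCoprime m n) (x y : ℤ) : ∃ z, m ∣ z - x ∧ n ∣ z - y := by
  obtain ⟨u, w, huw⟩ := h
  refine ⟨x * w * n + y * u * m, ⟨u * (y - x), ?_⟩, ⟨w * (x - y), ?_⟩⟩
  · linear_combination x * huw
  · linear_combination y * huw

/-- Up to sign, a class mod `C` lifts to a class mod a multiple of `4` congruent to `τ` mod `4`. -/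
theorem exists_sign_lift {C x : ℤ} (hC : C ≠ 0) (hx : IsCoprime x C) {τ : ℤ}
    (hτ : τ = 1 ∨ τ = 3) :
    ∃ (s M y : ℤ), (s = 1 ∨ s = -1) ∧ M ≠ 0 ∧ C ∣ M ∧ 4 ∣ M ∧ M ∣ 4 * C ∧ C ∣ y - s * x ∧
      4 ∣ y - τ ∧ IsCoprime y M := by
  have hx' : ∀ {m : ℤ}, m ∣ C → IsCoprime x m := fun hm => hx.of_isCoprime_of_dvd_right hm
  by_cases h4 : (4 : ℤ) ∣ C
  · have hodd : ¬ (2 : ℤ) ∣ x := by
      intro h2
      have := (hx' ((show (2 : ℤ) ∣ 4 from ⟨2, rfl⟩).trans h4)).isUnit_of_dvd' h2 dvd_rfl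
      simp [Int.isUnit_iff] at this
    obtain ⟨s, hs, hsx⟩ : ∃ s : ℤ, (s = 1 ∨ s = -1) ∧ 4 ∣ s * x - τ := by
      rcases hτ with rfl | rfl
      · by_cases h : (4 : ℤ) ∣ x - 1
        · exact ⟨1, Or.inl rfl, by simpa using h⟩
        · exact ⟨-1, Or.inr rfl, by omega⟩
      · by_cases h : (4 : ℤ) ∣ x - 3
        · exact ⟨1, Or.inl rfl, by simpa using h⟩
        · exact ⟨-1, Or.inr rfl, by omega⟩
    refine ⟨s, C, s * x, hs, hC, dvd_rfl, h4, dvd_mul_left _ _, by simp, hsx, ?_⟩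
    rcases hs with rfl | rfl
    · simpa using hx
    · simpa using hx.neg_left
  · obtain ⟨C', hC'C, hodd, hC'4⟩ : ∃ C', C' ∣ C ∧ ¬ (2 : ℤ) ∣ C' ∧ (C = C' ∨ C = 2 * C') := by
      by_cases h2 : (2 : ℤ) ∣ C
      · obtain ⟨C', rfl⟩ := h2
        exact ⟨C', dvd_mul_left _ _, fun h => h4 (mul_dvd_mul (dvd_refl 2) h), Or.inr rfl⟩
      · exact ⟨C, dvd_rfl, h2, Or.inl rfl⟩
    have hc4 : IsCoprime C' (4 : ℤ) := by
      have : IsCoprime C' (2 : ℤ) :=
        ((Int.prime_two.coprime_iff_not_dvd).mpr hodd).symm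
      exact this.mul_right this
    obtain ⟨y, hy1, hy2⟩ := exists_crt hc4 x τ
    refine ⟨1, 4 * C', y, Or.inl rfl, ?_, ?_, dvd_mul_right _ _, mul_dvd_mul_left _ hC'C, ?_,
      hy2, ?_⟩
    · rcases hC'4 with rfl | rfl
      · exact mul_ne_zero (by norm_num) hC
      · exact mul_ne_zero (by norm_num) (fun h => hC (by simp [h]))
    · rcases hC'4 with rfl | rfl
      · exact dvd_mul_left _ _
      · exact ⟨2, by ring⟩
    · rw [one_mul]
      rcases hC'4 with rfl | rfl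
      · exact hy1
      · have hxodd : ¬ (2 : ℤ) ∣ x := by
          intro h2
          have := (hx' (dvd_mul_right 2 C')).isUnit_of_dvd' h2 dvd_rfl
          simp [Int.isUnit_iff] at this
        have h2 : (2 : ℤ) ∣ y - x := by rcases hτ with rfl | rfl <;> omega
        exact ((Int.prime_two.coprime_iff_not_dvd).mpr hodd).mul_dvd h2 hy1
    · refine IsCoprime.mul_right ?_ (isCoprime_of_dvd_sub (hx' hC'C) hy1)
      refine isCoprime_of_dvd_sub ?_ hy2
      rcases hτ with rfl | rfl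
      · exact isCoprime_one_left
      · exact ⟨-1, 1, by norm_num⟩

/-- Primes in a class. -/
theorem exists_prime_class {M y : ℤ} (hM : M ≠ 0) (hy : IsCoprime y M) (B : ℕ) :
    ∃ P : ℕ, B < P ∧ P.Prime ∧ M ∣ (P : ℤ) - y := by
  obtain ⟨P, hBP, hP, hPy⟩ := Nat.forall_exists_prime_gt_and_zmodEq B (q := M.natAbs) (a := y)
    (by simpa using hM) (Int.isCoprime_iff_gcd_eq_one.mpr (by
      have := Int.isCoprime_iff_gcd_eq_one.mp hy
      simpa [Int.gcd, Int.natAbs_abs] using this))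
  refine ⟨P, hBP, hP, ?_⟩
  have := Int.ModEq.dvd hPy.symm
  exact Int.natAbs_dvd.mp this

/-- The prime needed for the odd part. -/
theorem exists_prime_aux {C d₀ : ℤ} {q : ℕ} (hq : q.Prime) (hC : ¬ (q : ℤ) ∣ C)
    (hd : IsCoprime d₀ C) (B : ℕ) :
    ∃ (s : ℤ) (d : ℕ), (s = 1 ∨ s = -1) ∧ d.Prime ∧ B < d ∧ C ∣ (d : ℤ) - s * d₀ ∧
      d % 4 = 1 ∧ ¬ IsSquare (q : ZMod d) := by
  have hC0 : C ≠ 0 := fun h => hC (h ▸ dvd_zero _)
  have hqZ : Prime (q : ℤ) := Nat.prime_iff_prime_int.mp hq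
  by_cases hq2 : q = 2
  · subst hq2
    have h8 : IsCoprime C (8 : ℤ) := by
      have h : IsCoprime C (2 : ℤ) := ((Int.prime_two.coprime_iff_not_dvd).mpr hC).symm
      exact (h.mul_right h).mul_right h
    obtain ⟨x, hx1, hx2⟩ := exists_crt h8 d₀ 5
    obtain ⟨d, hBd, hd', hdx⟩ := exists_prime_class (M := C * 8) (mul_ne_zero hC0 (by norm_num))
      ((isCoprime_of_dvd_sub hd hx1).mul_right
        (isCoprime_of_dvd_sub (y := 5) ⟨-3, 2, by norm_num⟩ hx2)) B
    have h1 : C ∣ (d : ℤ) - 1 * d₀ := by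
      have := dvd_add ((dvd_mul_right C 8).trans hdx) hx1
      simpa using this
    have h5 : (8 : ℤ) ∣ (d : ℤ) - 5 := by
      have := dvd_add ((dvd_mul_left 8 C).trans hdx) hx2
      simpa using this
    haveI := Fact.mk hd'
    refine ⟨1, d, Or.inl rfl, hd', hBd, h1, by omega, ?_⟩
    simp only [Nat.cast_ofNat]
    rw [ZMod.exists_sq_eq_two_iff (by omega)]
    omega
  · haveI := Fact.mk hq
    obtain ⟨s, M, y, hs, hM, hCM, h4M, hM4, hy1, hy2, hy3⟩ :=
      exists_sign_lift hC0 hd (τ := 1) (Or.inl rfl)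
    have hqM : ¬ (q : ℤ) ∣ M := fun h => by
      rcases hqZ.dvd_or_dvd (h.trans hM4) with h' | h'
      · have h2 : (q : ℤ) ∣ 2 := by
          rcases hqZ.dvd_or_dvd (show (q : ℤ) ∣ 2 * 2 by simpa using h') with h'' | h'' <;> exact h''
        exact hq2 ((Nat.prime_dvd_prime_iff_eq hq Nat.prime_two).mp (by exact_mod_cast h2))
      · exact hC h'
    obtain ⟨ν, hν⟩ := FiniteField.exists_nonsquare (F := ZMod q) (by rw [ZMod.ringChar_zmod_n]; exact hq2)
    have hνq : IsCoprime (ν.val : ℤ) (q : ℤ) := by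
      refine (hqZ.coprime_iff_not_dvd.mpr fun h => hν ?_).symm
      have : ((ν.val : ℤ) : ZMod q) = 0 := (ZMod.intCast_zmod_eq_zero_iff_dvd _ _).mpr h
      have : ν = 0 := by simpa using this
      exact ⟨0, by simp [this]⟩
    obtain ⟨x, hx1, hx2⟩ := exists_crt (hqZ.coprime_iff_not_dvd.mpr hqM).symm y (ν.val : ℤ)
    obtain ⟨d, hBd, hd', hdx⟩ := exists_prime_class (M := M * q)
      (mul_ne_zero hM (by exact_mod_cast hq.ne_zero))
      ((isCoprime_of_dvd_sub hy3 hx1).mul_right (isCoprime_of_dvd_sub hνq hx2)) B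
    have hdy : M ∣ (d : ℤ) - y := by
      have := dvd_add ((dvd_mul_right M (q : ℤ)).trans hdx) hx1
      simpa using this
    have h1 : C ∣ (d : ℤ) - s * d₀ := by
      have := dvd_add (hCM.trans hdy) hy1
      simpa using this
    have h5 : (4 : ℤ) ∣ (d : ℤ) - 1 := by
      have := dvd_add (h4M.trans hdy) hy2
      simpa using this
    have h6 : (q : ℤ) ∣ (d : ℤ) - ν.val := by
      have := dvd_add ((dvd_mul_left (q : ℤ) M).trans hdx) hx2
      simpa using this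
    haveI := Fact.mk hd'
    refine ⟨s, d, hs, hd', hBd, h1, by omega, ?_⟩
    rw [ZMod.exists_sq_eq_prime_iff_of_mod_four_eq_one (by omega) hq2]
    have : ((d : ℤ) : ZMod q) = ((ν.val : ℤ) : ZMod q) :=
      (ZMod.intCast_eq_intCast_iff_dvd_sub _ _ _).mpr (by rw [← dvd_neg, neg_sub]; exact h6)
    rw [show (d : ZMod q) = ν by simpa using this]
    exact hν

variable {k : Type*} [AddCommGroup k] {N q : ℕ} {h : ℚ × ℚ → k}

theorem odd_core (H : IsPot N q h) [NeZero q]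
    (hodd : ∀ u v : ℚ, (u, v) ≠ 0 → h (-u, v) + h (u, v) = 2 • h infPt)
    {a b C : ℤ} {d : ℕ} (hd : d.Prime) (hdet : a * d - b * C = 1) (hN : (N : ℤ) ∣ C) (hC : C ≠ 0)
    (hd4 : d % 4 = 1) (hdq : d ≠ q) (hns : ¬ IsSquare (q : ZMod d))
    (hdC : ¬ (d : ℤ) ∣ C) : 2 • (h ((a : ℚ), (C : ℚ)) - h infPt) = 0 := by
  haveI := Fact.mk hd
  have hd0 : (d : ℚ) ≠ 0 := by exact_mod_cast hd.ne_zero
  have hC0 : (C : ℚ) ≠ 0 := by exact_mod_cast hC
  have hdetQ : (a : ℚ) * d - b * C = 1 := by exact_mod_cast hdet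
  obtain ⟨c', hc'⟩ := hN
  set g : QMat := ⟨a, b, C, d⟩ with hg
  have hginv : IsInv h g :=
    H.inv _ ⟨hdetQ, IsQInt.intCast _, IsQInt.intCast _, IsQInt.natCast _, c', IsQInt.intCast _,
      by rw [hg]; simp [hc']⟩
  have hper : per h g = h ((a : ℚ), (C : ℚ)) - h infPt := per_eq h g
  have hne : ((d : ℚ), (C : ℚ)) ≠ 0 := by simp [Prod.ext_iff, hC0]
  have h1 : h ((d : ℚ), (C : ℚ)) = h infPt + per h g := by
    have e1 := hodd d C hne
    have e2 : h (-(d : ℚ), (C : ℚ)) = h ((d : ℚ), -(C : ℚ)) := by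
      have := H.apply_neg (u := (d : ℚ)) (v := -(C : ℚ)) (by simp [Prod.ext_iff, hC0])
      simpa using this
    have e3 := hginv.per_adj H.homog
    rw [per_eq] at e3
    simp only [hg, QMat.adj] at e3
    rw [e2] at e1
    have e4 : h ((d : ℚ), -(C : ℚ)) = h infPt - per h g := by
      rw [sub_eq_iff_eq_add] at e3
      rw [e3, hg]; abel
    rw [e4, two_nsmul] at e1
    calc h ((d : ℚ), (C : ℚ))
        = (h infPt - per h g + h ((d : ℚ), (C : ℚ))) - h infPt + per h g := by abel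
      _ = h infPt + per h g := by rw [e1]; abel
  have h2 : h ((a : ℚ) * d + b * C, 2 * (C : ℚ) * d) = h infPt + 2 • per h g := by
    have e := hginv.apply hne
    have : g.app ((d : ℚ), (C : ℚ)) = ((a : ℚ) * d + b * C, 2 * (C : ℚ) * d) := by
      simp only [hg, QMat.app, Prod.mk.injEq, true_and]
      ring
    rw [this, h1] at e
    rw [e, two_nsmul]; abel
  rw [← hper]
  suffices h ((a : ℚ) * d + b * C, 2 * (C : ℚ) * d) = h infPt by
    rw [h2] at this
    simpa using this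
  -- the square root of `-1`
  set n : ℕ := d / 4 with hn
  set v : ℕ := q ^ n with hv
  have hqd : (q : ZMod d) ≠ 0 := fun h0 => hns ⟨0, by simp [h0]⟩
  have hv2 : (d : ℤ) ∣ (v : ℤ) ^ 2 + 1 := by
    rw [← ZMod.intCast_zmod_eq_zero_iff_dvd]
    push_cast
    rw [hv, Nat.cast_pow, ← pow_mul, hn, show d / 4 * 2 = d / 2 by omega]
    rcases ZMod.pow_div_two_eq_neg_one_or_one d hqd with h' | h'
    · exact absurd ((ZMod.euler_criterion d hqd).mpr h') hns
    · rw [h', neg_add_cancel]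
  have hv0 : (v : ℚ) ≠ 0 := by
    rw [hv]; push_cast; exact pow_ne_zero _ (by exact_mod_cast NeZero.ne q)
  have hdZ : Prime (d : ℤ) := Nat.prime_iff_prime_int.mp hd
  have hdv : ¬ (d : ℤ) ∣ (v : ℤ) := by
    intro h'
    have h'' : (d : ℤ) ∣ 1 := by
      have := dvd_sub hv2 (dvd_pow h' (two_ne_zero))
      simpa using this
    exact hd.one_lt.ne' (by exact_mod_cast Int.eq_one_of_dvd_one (by positivity) h'')
  have hd2 : ¬ (d : ℤ) ∣ 2 := by
    intro h'
    have : d ∣ 2 := by exact_mod_cast h'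
    have := Nat.le_of_dvd (by norm_num) this
    have := hd.two_le
    omega
  have hcop : IsCoprime (d : ℤ) (2 * C * v) := hdZ.coprime_iff_not_dvd.mpr fun h' => by
    rcases hdZ.dvd_or_dvd h' with h'' | h''
    · rcases hdZ.dvd_or_dvd h'' with h''' | h'''
      · exact hd2 h'''
      · exact hdC h'''
    · exact hdv h''
  obtain ⟨x, y, hxy⟩ := hcop
  obtain ⟨w, hw⟩ : (d : ℤ) ∣ b * v + y * ((v : ℤ) ^ 2 - 1) := by
    have hcop : IsCoprime (d : ℤ) (2 * C * v) := ⟨x, y, hxy⟩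
    refine hcop.dvd_of_dvd_mul_left ?_
    obtain ⟨z, hz⟩ := hv2
    exact ⟨2 * v ^ 2 * a - x * ((v : ℤ) ^ 2 - 1) - z, by
      linear_combination ((v : ℤ) ^ 2 - 1) * hxy - (2 * (v : ℤ) ^ 2) * hdet - hz⟩
  set e : ℚ := ((v : ℚ) ^ 2 - 1) / v with he
  set r₁ : ℚ := x * e with hr₁
  set r₂ : ℚ := -(y * e) with hr₂
  have hxyQ : (x : ℚ) * d + y * (2 * C * v) = 1 := by exact_mod_cast hxy
  have heQ : IsQInt q e := by
    have h' := IsQInt.div_pow (q := q) (IsQInt.intCast ((v : ℤ) ^ 2 - 1)) n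
    push_cast at h'
    rwa [show (q : ℚ) ^ n = (v : ℚ) by rw [hv]; push_cast; rfl] at h'
  have hr₁Q : IsQInt q r₁ := (IsQInt.intCast x).mul heQ
  have hr₂Q : IsQInt q r₂ := ((IsQInt.intCast y).mul heQ).neg
  set hm : QMat := ⟨v + r₂ * (2 * C * v), -(r₁ * r₂), 2 * C * v * d, v - r₁ * d⟩ with hhm
  have hev : e * v = (v : ℚ) ^ 2 - 1 := by rw [he]; field_simp
  have hminv : IsInv h hm := by
    refine H.inv _ ⟨?_, ?_, ?_, ?_, ((2 * c' * v * d : ℤ) : ℚ), IsQInt.intCast _, ?_⟩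
    · simp only [QMat.det, hhm, hr₁, hr₂]
      linear_combination (-(v : ℚ) * e) * hxyQ - hev
    · exact (IsQInt.natCast v).add (hr₂Q.mul
        (by simpa using IsQInt.intCast (q := q) (2 * C * v)))
    · exact (hr₁Q.mul hr₂Q).neg
    · exact (IsQInt.natCast v).sub (hr₁Q.mul (IsQInt.natCast d))
    · simp only [hhm, hc']; push_cast; ring
  have hPne : (r₁, 2 * (C : ℚ) * v) ≠ 0 := by simp [Prod.ext_iff, hC0, hv0]
  have hfix : hm.app (r₁, 2 * (C : ℚ) * v) = (v : ℚ) • (r₁, 2 * (C : ℚ) * v) := by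
    simp only [hhm, QMat.app, Prod.smul_mk, smul_eq_mul, Prod.mk.injEq]
    constructor <;> ring
  have h3 := hminv.per_eq_zero_of_fix H.homog hPne hfix
  rw [per_eq, sub_eq_zero] at h3
  have htQ : IsQInt q ((w : ℚ) / v) := by
    have h' := IsQInt.div_pow (q := q) (IsQInt.intCast w) n
    rwa [show (q : ℚ) ^ n = (v : ℚ) by rw [hv]; push_cast; rfl] at h'
  have hwQ : (b : ℚ) * v + y * ((v : ℚ) ^ 2 - 1) = d * w := by exact_mod_cast hw
  have hcne : hm.c ≠ 0 := by simp [hhm, hC0, hv0, hd0]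
  have h4 := H.apply_transl htQ (u := hm.a) (v := hm.c) (by simp [Prod.ext_iff, hcne])
  rw [h3] at h4
  rw [← H.apply_smul hv0 (u := (a : ℚ) * d + b * C) (v := 2 * (C : ℚ) * d)
    (by simp [Prod.ext_iff, hC0, hd0]), ← h4]
  congr 2
  · simp only [hhm, hr₂, he]
    field_simp
    linear_combination (2 * (C : ℚ)) * hwQ + (v : ℚ) * hdetQ
  · simp only [hhm]
    ring

/-- The odd part is trivial. -/
theorem odd_eq_inf (H : IsPot N q h) (hq : q.Prime) (hqN : ¬ q ∣ N)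
    (h2 : ∀ x : k, 2 • x = 0 → x = 0)
    (hodd : ∀ u v : ℚ, (u, v) ≠ 0 → h (-u, v) + h (u, v) = 2 • h infPt)
    {a C : ℤ} (hcop : IsCoprime a C) (hN : (N : ℤ) ∣ C) :
    h ((a : ℚ), (C : ℚ)) = h infPt := by
  haveI : NeZero q := ⟨hq.ne_zero⟩
  have hane : ((a : ℚ), (C : ℚ)) ≠ 0 := by
    intro h0
    simp only [Prod.ext_iff, Prod.fst_zero, Prod.snd_zero, Int.cast_eq_zero] at h0
    rw [h0.1, h0.2] at hcop
    exact not_isCoprime_zero_zero hcop
  have hqZ : Prime (q : ℤ) := Nat.prime_iff_prime_int.mp hq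
  -- make the lower left entry prime to `q`
  obtain ⟨C₁, hcop₁, hN₁, hq₁, he₁⟩ : ∃ C₁ : ℤ, IsCoprime a C₁ ∧ (N : ℤ) ∣ C₁ ∧
      ¬ (q : ℤ) ∣ C₁ ∧ h ((a : ℚ), (C₁ : ℚ)) = h ((a : ℚ), (C : ℚ)) := by
    by_cases hqC : (q : ℤ) ∣ C
    · refine ⟨C + a * N, hcop.add_mul_left_right N, dvd_add hN (dvd_mul_left _ _), ?_, ?_⟩
      · intro h'
        rcases hqZ.dvd_or_dvd ((dvd_add_right hqC).mp h') with h'' | h''
        · exact hqZ.not_unit (hcop.isUnit_of_dvd' h'' hqC)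
        · exact hqN (by exact_mod_cast h'')
      · have := H.apply_lower (s := 1) IsQInt.one hane
        push_cast
        rw [mul_comm (a : ℚ)]
        simpa using this
    · exact ⟨C, hcop, hN, hqC, rfl⟩
  rw [← he₁]
  obtain ⟨d₀, b₀, hdb⟩ := hcop₁
  obtain ⟨s, d, hs, hd, hBd, hdd, hd4, hns⟩ :=
    exists_prime_aux hq hq₁ (⟨a, b₀, by linear_combination hdb⟩ : IsCoprime d₀ C₁)
      (C₁.natAbs + q)
  have hs2 : s * s = 1 := by rcases hs with rfl | rfl <;> norm_num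
  obtain ⟨t, ht⟩ := hdd
  have hC₁ : C₁ ≠ 0 := fun h => hq₁ (h ▸ dvd_zero _)
  have hdet : (s * a) * (d : ℤ) - (a * t - s * b₀) * (s * C₁) = 1 := by
    linear_combination (s * a) * ht + (s * s) * hdb + hs2
  have key := odd_core H hodd hd hdet (dvd_mul_of_dvd_right hN₁ _)
    (mul_ne_zero (by rintro rfl; simp at hs2) hC₁) hd4 (by omega) hns (by
      intro h'
      have h'' : (d : ℤ) ∣ C₁ := by
        have := dvd_mul_of_dvd_right h' s
        rwa [← mul_assoc, hs2, one_mul] at this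
      have := Nat.le_of_dvd (Int.natAbs_pos.mpr hC₁) (Int.natCast_dvd.mp h'')
      omega)
  have key' := sub_eq_zero.mp (h2 _ key)
  rw [← key']
  push_cast
  refine (H.apply_smul ?_ ?_).symm
  · rcases hs with rfl | rfl <;> norm_num
  · simp [Prod.ext_iff, hC₁]

end FLTA.LevelRaising
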