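/-
Quadratic twist of a potential: an even potential for level `N` gives an odd potential for level
`N r²`, hence (by the odd part of Ihara's lemma) the even potential is invariant under
translation by `1/r` at the cusps whose denominator is divisible by `N r²`.
-/
import Fermat.Agent.LevelRaising.IharaOdd

set_option autoImplicit false

noncomputable section

namespace FLTA.LevelRaising

theorem isCoprime_add_mul_div {a C r m : ℤ} (hcop : IsCoprime a C) (hr : C = r * (r * m))
    (i : ℤ) : IsCoprime (a + i * (r * m)) C := by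
  subst hr
  have h1 : IsCoprime a r := hcop.of_mul_right_left
  have h2 : IsCoprime a (r * m) := hcop.of_mul_right_right
  refine IsCoprime.mul_right ?_ ?_
  · rw [show a + i * (r * m) = a + r * (i * m) by ring]
    exact h1.add_mul_left_left _
  · rw [show a + i * (r * m) = a + (r * m) * i by ring]
    exact h2.add_mul_left_left _

theorem IsQInt.raise {q : ℕ} {x : ℚ} {e : ℕ} {m : ℤ} (h : x * (q : ℚ) ^ e = m) (f : ℕ) :
    x * (q : ℚ) ^ (e + f) = ((m * (q : ℤ) ^ f : ℤ) : ℚ) := by
  push_cast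
  rw [pow_add, ← h]
  ring

theorem IsQInt.ofInt {q : ℕ} {x : ℚ} (m : ℤ) (h : x = m) : IsQInt q x := h ▸ IsQInt.intCast m

variable {k : Type*} [CommRing k]

/-- The quadratic twist of `h` by the character of conductor `r`. -/
def twist (r : ℕ) [Fact r.Prime] (h : ℚ × ℚ → k) : ℚ × ℚ → k := fun P =>
  ∑ j : ZMod r, (quadraticChar (ZMod r) j : k) * h (P.1 + (j.val : ℚ) / r * P.2, P.2)

variable {N q r : ℕ} [hr : Fact r.Prime] {h : ℚ × ℚ → k}

/-- The translated point depends only on the residue of `n`. -/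
theorem IsPot.apply_residue (H : IsPot N q h) {u v : ℚ} (hne : (u, v) ≠ (0 : ℚ × ℚ)) (n : ℤ) :
    h (u + ((n : ZMod r).val : ℚ) / r * v, v) = h (u + (n : ℚ) / r * v, v) := by
  have hr0 : (r : ℚ) ≠ 0 := by exact_mod_cast hr.out.ne_zero
  obtain ⟨m, hm⟩ : (r : ℤ) ∣ n - ((n : ZMod r).val : ℤ) := by
    rw [← ZMod.intCast_zmod_eq_zero_iff_dvd]
    simp
  have hm' : (n : ℚ) = ((n : ZMod r).val : ℚ) + r * m := by
    have : n = ((n : ZMod r).val : ℤ) + r * m := by linear_combination hm
    exact_mod_cast this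
  set w : ℚ := ((n : ZMod r).val : ℚ) / r with hw
  have hne' : (u + w * v, v) ≠ (0 : ℚ × ℚ) := by
    intro h0
    simp only [Prod.ext_iff, Prod.fst_zero, Prod.snd_zero] at h0
    obtain ⟨h0a, h0b⟩ := h0
    apply hne
    simp [h0b] at h0a
    simp [h0a, h0b]
  have key := H.apply_transl (t := (m : ℚ)) (IsQInt.intCast m) hne'
  have e : (n : ℚ) / r * v = w * v + m * v := by
    rw [hm', hw]; field_simp
  rw [← key, e, add_assoc]

omit hr in
theorem twist_ne_zero {u v : ℚ} (hne : (u, v) ≠ (0 : ℚ × ℚ)) (w : ℚ) :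
    (u + w * v, v) ≠ (0 : ℚ × ℚ) := by
  intro h0
  simp only [Prod.ext_iff, Prod.fst_zero, Prod.snd_zero] at h0
  obtain ⟨h0a, h0b⟩ := h0
  apply hne
  simp [h0b] at h0a
  simp [h0a, h0b]

theorem twist_inf (hr2 : r ≠ 2) : twist r h infPt = 0 := by
  simp only [twist, infPt, mul_zero, add_zero]
  rw [← Finset.sum_mul, ← Int.cast_sum,
    quadraticChar_sum_zero (by rw [ZMod.ringChar_zmod_n]; exact hr2)]
  simp

theorem twist_homog (H : IsPot N q h) : IsHomog (twist r h) := by
  intro t P ht hP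
  refine Finset.sum_congr rfl fun j _ => ?_
  congr 1
  simp only [Prod.smul_fst, Prod.smul_snd, smul_eq_mul]
  rw [← H.apply_smul ht (u := P.1 + (j.val : ℚ) / r * P.2) (v := P.2)
    (twist_ne_zero (by simpa using hP) _)]
  ring_nf

theorem twist_isPot (H : IsPot N q h) (hrq : r ≠ q) (hq : q.Prime) :
    IsPot (N * r ^ 2) q (twist r h) := by
  haveI : NeZero q := ⟨hq.ne_zero⟩
  refine ⟨twist_homog H, ?_⟩
  rintro g ⟨hdet, ⟨ea, A, hA⟩, ⟨eb, B, hB⟩, ⟨ed, D, hD⟩, c₀, ⟨ec, C₀, hC₀⟩, hc⟩
  have hr0 : (r : ℚ) ≠ 0 := by exact_mod_cast hr.out.ne_zero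
  set e := ea + eb + ed + ec with he
  set A' : ℤ := A * (q : ℤ) ^ (eb + ed + ec) with hA'
  set D' : ℤ := D * (q : ℤ) ^ (ea + eb + ec) with hD'
  set B' : ℤ := B * (q : ℤ) ^ (ea + ed + ec) with hB'
  set C' : ℤ := C₀ * (q : ℤ) ^ (ea + eb + ed) with hC'
  have eA : g.a * (q : ℚ) ^ e = A' := by
    rw [hA', show e = ea + (eb + ed + ec) by omega]; exact IsQInt.raise hA _
  have eD : g.d * (q : ℚ) ^ e = D' := by
    rw [hD', show e = ed + (ea + eb + ec) by omega]; exact IsQInt.raise hD _
  have eB : g.b * (q : ℚ) ^ e = B' := by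
    rw [hB', show e = eb + (ea + ed + ec) by omega]; exact IsQInt.raise hB _
  have eC : c₀ * (q : ℚ) ^ e = C' := by
    rw [hC', show e = ec + (ea + eb + ed) by omega]; exact IsQInt.raise hC₀ _
  have hgc : g.c = N * (r : ℚ) ^ 2 * c₀ := by rw [hc]; push_cast; ring
  have hrel : A' * D' - (r : ℤ) ^ 2 * N * B' * C' = ((q : ℤ) ^ e) ^ 2 := by
    have : ((A' * D' - (r : ℤ) ^ 2 * N * B' * C' : ℤ) : ℚ) = ((((q : ℤ) ^ e) ^ 2 : ℤ) : ℚ) := by
      have hd' : g.a * g.d - g.b * g.c = 1 := hdet
      rw [hgc] at hd'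
      push_cast
      rw [← eA, ← eD, ← eB, ← eC]
      linear_combination ((q : ℚ) ^ e) ^ 2 * hd'
    exact_mod_cast this
  set Q : ZMod r := ((q : ZMod r) ^ e) with hQ
  have hQ0 : Q ≠ 0 := by
    refine pow_ne_zero _ fun h0 => hrq ?_
    exact (Nat.prime_dvd_prime_iff_eq hr.out hq).mp ((ZMod.natCast_eq_zero_iff _ _).mp h0)
  have hrelr : (A' : ZMod r) * D' = Q ^ 2 := by
    have := congrArg (Int.cast : ℤ → ZMod r) hrel
    push_cast at this
    simpa [ZMod.natCast_self, hQ] using this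
  have hD0 : (D' : ZMod r) ≠ 0 := fun h0 => by
    rw [h0, mul_zero] at hrelr
    exact pow_ne_zero 2 hQ0 hrelr.symm
  set σ : ZMod r ≃ ZMod r :=
    Equiv.mulRight₀ (((D' : ZMod r) / Q) ^ 2) (pow_ne_zero _ (div_ne_zero hD0 hQ0)) with hσ
  have hσj : ∀ j, σ j = j * ((D' : ZMod r) / Q) ^ 2 := fun j => rfl
  have hχ : ∀ j, quadraticChar (ZMod r) (σ j) = quadraticChar (ZMod r) j := fun j => by
    rw [hσj, map_mul, quadraticChar_sq_one' (div_ne_zero hD0 hQ0), mul_one]
  let gj : ZMod r → QMat := fun j =>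
    QMat.transl ((j.val : ℚ) / r) * g * QMat.transl (-(((σ j).val : ℚ) / r))
  have hgj : ∀ j, IsInv h (gj j) := by
    intro j
    refine H.inv _ ⟨?_, ?_, ?_, ?_, c₀ * ((r : ℚ) ^ 2),
      (show IsQInt q c₀ from ⟨ec, C₀, hC₀⟩).mul (IsQInt.ofInt ((r : ℤ) ^ 2) (by push_cast; rfl)), ?_⟩
    · simp only [gj, QMat.det_mul, hdet]
      simp [QMat.det, QMat.transl]
    · simp only [gj, QMat.mul_def, QMat.transl, hgc]
      refine (show IsQInt q (g.a + (N : ℚ) * r * (j.val : ℕ) * c₀) from ?_) |> fun h' => by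
        convert h' using 1
        field_simp
        ring
      exact (show IsQInt q g.a from ⟨ea, A, hA⟩).add
        ((((IsQInt.natCast N).mul (IsQInt.natCast r)).mul (IsQInt.natCast _)).mul ⟨ec, C₀, hC₀⟩)
    · obtain ⟨w, hw⟩ : (r : ℤ) ∣ (j.val : ℤ) * D' - ((σ j).val : ℤ) * A' := by
        rw [← ZMod.intCast_zmod_eq_zero_iff_dvd]
        push_cast
        rw [ZMod.natCast_zmod_val, ZMod.natCast_zmod_val, hσj]
        field_simp
        linear_combination (-(j * (D' : ZMod r))) * hrelr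
      have hwQ : ((j.val : ℕ) : ℚ) * D' - (((σ j).val : ℕ) : ℚ) * A' = r * w := by
        exact_mod_cast hw
      have key : (gj j).b =
          g.b + (w : ℚ) / (q : ℚ) ^ e - ((j.val : ℕ) : ℚ) * ((σ j).val : ℕ) * N * c₀ := by
        have hqe : ((q : ℚ) ^ e) ≠ 0 := pow_ne_zero _ (by exact_mod_cast hq.ne_zero)
        have e1 : (((j.val : ℕ) : ℚ) * g.d - ((σ j).val : ℕ) * g.a) / r = (w : ℚ) / (q : ℚ) ^ e := by
          rw [div_eq_div_iff hr0 hqe]
          linear_combination hwQ + ((j.val : ℕ) : ℚ) * eD - (((σ j).val : ℕ) : ℚ) * eA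
        rw [← e1]
        simp only [gj, QMat.mul_def, QMat.transl, hgc]
        field_simp
        ring
      rw [key]
      exact ((show IsQInt q g.b from ⟨eb, B, hB⟩).add ((IsQInt.intCast w).div_pow e)).sub
        ((((IsQInt.natCast _).mul (IsQInt.natCast _)).mul (IsQInt.natCast N)).mul ⟨ec, C₀, hC₀⟩)
    · simp only [gj, QMat.mul_def, QMat.transl, hgc]
      refine (show IsQInt q (g.d - (N : ℚ) * r * ((σ j).val : ℕ) * c₀) from ?_) |> fun h' => by
        convert h' using 1
        field_simp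
        ring
      exact (show IsQInt q g.d from ⟨ed, D, hD⟩).sub
        ((((IsQInt.natCast N).mul (IsQInt.natCast r)).mul (IsQInt.natCast _)).mul ⟨ec, C₀, hC₀⟩)
    · simp only [gj, QMat.mul_def, QMat.transl, hgc]
      ring
  refine IsInv.of_const (by rw [hdet]; norm_num)
    (∑ j : ZMod r, (quadraticChar (ZMod r) j : k) * per h (gj j)) fun P hP => ?_
  have step : ∀ j : ZMod r, h ((g.app P).1 + (j.val : ℚ) / r * (g.app P).2, (g.app P).2) =
      h (P.1 + ((σ j).val : ℚ) / r * P.2, P.2) + per h (gj j) := by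
    intro j
    rw [← (hgj j).apply (twist_ne_zero (by simpa using hP) _)]
    congr 1
    simp only [gj, QMat.mul_def, QMat.transl, QMat.app, Prod.mk.injEq]
    constructor <;> ring
  simp only [twist, step, mul_add, Finset.sum_add_distrib]
  congr 1
  calc ∑ j : ZMod r, (quadraticChar (ZMod r) j : k) *
        h (P.1 + ((σ j).val : ℚ) / r * P.2, P.2)
      = ∑ j : ZMod r, (quadraticChar (ZMod r) (σ j) : k) *
        h (P.1 + ((σ j).val : ℚ) / r * P.2, P.2) := by simp [hχ]
    _ = _ := Equiv.sum_comp σ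
        (fun j => (quadraticChar (ZMod r) j : k) * h (P.1 + (j.val : ℚ) / r * P.2, P.2))

theorem twist_odd (H : IsPot N q h) (hr4 : r % 4 = 3)
    (heven : ∀ u v : ℚ, (u, v) ≠ 0 → h (-u, v) = h (u, v)) (u v : ℚ)
    (hne : (u, v) ≠ (0 : ℚ × ℚ)) : twist r h (-u, v) + twist r h (u, v) = 0 := by
  have hr2 : r ≠ 2 := by omega
  have hneg : quadraticChar (ZMod r) (-1) = -1 := by
    rw [quadraticChar_neg_one (by rw [ZMod.ringChar_zmod_n]; exact hr2), ZMod.card,
      ZMod.χ₄_nat_three_mod_four hr4]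
  have step : ∀ j : ZMod r, h (-u + (j.val : ℚ) / r * v, v) =
      h (u + ((-j).val : ℚ) / r * v, v) := by
    intro j
    have e := H.apply_residue (r := r) hne (-(j.val : ℤ))
    have hj : ((-(j.val : ℤ) : ℤ) : ZMod r) = -j := by simp
    rw [hj] at e
    rw [e, ← heven _ _ (twist_ne_zero hne _)]
    push_cast
    ring_nf
  have : twist r h (-u, v) = -twist r h (u, v) := by
    simp only [twist, step]
    rw [← Equiv.sum_comp (Equiv.neg (ZMod r)), ← Finset.sum_neg_distrib]
    refine Finset.sum_congr rfl fun j _ => ?_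
    simp only [Equiv.neg_apply, neg_neg]
    rw [show -j = (-1 : ZMod r) * j by ring, map_mul, hneg]
    push_cast
    ring
  rw [this, neg_add_cancel]

/-- The correlation of the quadratic character. -/
theorem sum_quadraticChar_mul_sub (hr4 : r % 4 = 3) (s : ZMod r) :
    ∑ i : ZMod r, quadraticChar (ZMod r) i * quadraticChar (ZMod r) (s - i) =
      1 - if s = 0 then (r : ℤ) else 0 := by
  have hr2 : r ≠ 2 := by omega
  have hrc : ringChar (ZMod r) ≠ 2 := by rw [ZMod.ringChar_zmod_n]; exact hr2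
  have hneg : quadraticChar (ZMod r) (-1) = -1 := by
    rw [quadraticChar_neg_one hrc, ZMod.card, ZMod.χ₄_nat_three_mod_four hr4]
  by_cases hs : s = 0
  · subst hs
    have : ∀ i : ZMod r, quadraticChar (ZMod r) i * quadraticChar (ZMod r) (0 - i) =
        if i = 0 then 0 else -1 := by
      intro i
      split_ifs with hi
      · simp [hi]
      · rw [zero_sub, show -i = (-1 : ZMod r) * i by ring, map_mul, hneg]
        linear_combination (-1 : ℤ) * quadraticChar_sq_one hi
    simp only [this, if_pos]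
    rw [Finset.sum_ite, Finset.sum_const_zero, zero_add, Finset.sum_const,
      show (Finset.univ.filter fun i : ZMod r => ¬ i = 0) = Finset.univ.erase 0 by ext; simp,
      Finset.card_erase_of_mem (Finset.mem_univ _), Finset.card_univ, ZMod.card]
    have := hr.out.one_le
    push_cast [nsmul_eq_mul, Nat.cast_sub this]
    ring
  · rw [if_neg hs, sub_zero, ← Equiv.sum_comp (Equiv.mulLeft₀ s hs)]
    have hj := jacobiSum_nontrivial_inv (quadraticChar_ne_one (F := ZMod r) hrc)
    rw [(quadraticChar_isQuadratic (ZMod r)).inv, hneg, jacobiSum] at hj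
    calc ∑ i, quadraticChar (ZMod r) (Equiv.mulLeft₀ s hs i) *
          quadraticChar (ZMod r) (s - Equiv.mulLeft₀ s hs i)
        = ∑ i, quadraticChar (ZMod r) i * quadraticChar (ZMod r) (1 - i) := by
          refine Finset.sum_congr rfl fun i _ => ?_
          rw [show Equiv.mulLeft₀ s hs i = s * i from rfl, show s - s * i = s * (1 - i) by ring,
            map_mul, map_mul]
          linear_combination (quadraticChar (ZMod r) i * quadraticChar (ZMod r) (1 - i)) *
            quadraticChar_sq_one hs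
      _ = 1 := by rw [hj]; ring

/-- An even potential is invariant under translation by multiples of `1/r` at the cusps with
denominator divisible by `N r²`. -/
theorem even_shift (H : IsPot N q h) (hq : q.Prime) (hqN : ¬ q ∣ N) (hrq : r ≠ q)
    (hr4 : r % 4 = 3) (h2 : ∀ x : k, 2 • x = 0 → x = 0)
    (hr : IsUnit (r : k))
    (heven : ∀ u v : ℚ, (u, v) ≠ 0 → h (-u, v) = h (u, v))
    {a C : ℤ} (hcop : IsCoprime a C) (hdvd : (N : ℤ) * (r : ℤ) ^ 2 ∣ C) (n : ℤ) :
    h ((a : ℚ) + (n : ℚ) / r * C, (C : ℚ)) = h ((a : ℚ), (C : ℚ)) := by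
  have hr2 : r ≠ 2 := by omega
  have hr0 : (r : ℚ) ≠ 0 := by exact_mod_cast (Fact.out : r.Prime).ne_zero
  obtain ⟨c, hc⟩ := hdvd
  have hC : C = (r : ℤ) * (r * (N * c)) := by rw [hc]; ring
  -- the twist vanishes at all cusps with denominator divisible by `N r²`
  have hvan : ∀ (a' : ℤ), IsCoprime a' C → twist r h ((a' : ℚ), (C : ℚ)) = 0 := by
    intro a' ha'
    have hodd : ∀ u v : ℚ, (u, v) ≠ 0 →
        twist r h (-u, v) + twist r h (u, v) = 2 • twist r h infPt := by
      intro u v hne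
      rw [twist_odd H hr4 heven u v hne, twist_inf hr2, smul_zero]
    rw [odd_eq_inf (twist_isPot H hrq hq) hq ?_ h2 hodd ha' ?_, twist_inf hr2]
    · intro hd
      rcases (Nat.Prime.dvd_mul hq).mp hd with hd' | hd'
      · exact hqN hd'
      · exact hrq ((Nat.prime_dvd_prime_iff_eq hq Fact.out).mp (hq.dvd_of_dvd_pow hd')).symm
    · push_cast; exact ⟨c, hc⟩
  set H₀ : ZMod r → k := fun s => h ((a : ℚ) + (s.val : ℚ) / r * C, (C : ℚ)) with hH₀
  have hane : ((a : ℚ), (C : ℚ)) ≠ 0 := by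
    intro h0
    simp only [Prod.ext_iff, Prod.fst_zero, Prod.snd_zero, Int.cast_eq_zero] at h0
    rw [h0.1, h0.2] at hcop
    exact not_isCoprime_zero_zero hcop
  have hres : ∀ n : ℤ, h ((a : ℚ) + (n : ℚ) / r * C, (C : ℚ)) = H₀ (n : ZMod r) :=
    fun n => (H.apply_residue hane n).symm
  have h1 : ∀ t : ZMod r, ∑ j : ZMod r, (quadraticChar (ZMod r) j : k) * H₀ (t + j) = 0 := by
    intro t
    rw [← hvan _ (isCoprime_add_mul_div hcop hC (t.val : ℤ))]
    simp only [twist]
    refine Finset.sum_congr rfl fun j _ => ?_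
    congr 1
    have : ((((t.val : ℤ) + (j.val : ℤ)) : ℤ) : ZMod r) = t + j := by simp
    rw [← this, ← hres]
    congr 2
    rw [show (C : ℚ) = (r : ℚ) * (r * (N * c)) by rw [hC]; push_cast; ring]
    push_cast
    field_simp
    ring
  have h2' : ∀ t : ZMod r, ∑ s : ZMod r, H₀ (t + s) = (r : k) * H₀ t := by
    intro t
    have e : ∑ i : ZMod r, (quadraticChar (ZMod r) i : k) *
        ∑ j : ZMod r, (quadraticChar (ZMod r) j : k) * H₀ ((t + i) + j) = 0 := by
      exact Finset.sum_eq_zero fun i _ => by rw [h1, mul_zero]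
    simp only [Finset.mul_sum] at e
    have e2 : ∑ s : ZMod r, ((∑ i : ZMod r,
        quadraticChar (ZMod r) i * quadraticChar (ZMod r) (s - i) : ℤ) : k) * H₀ (t + s) = 0 := by
      rw [← e]
      push_cast
      simp only [Finset.sum_mul]
      rw [Finset.sum_comm]
      refine Finset.sum_congr rfl fun i _ => ?_
      rw [← Equiv.sum_comp (Equiv.addLeft i)]
      refine Finset.sum_congr rfl fun j _ => ?_
      simp only [Equiv.coe_addLeft, add_sub_cancel_left]
      rw [add_assoc, mul_assoc]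
    simp only [sum_quadraticChar_mul_sub hr4, Int.cast_sub, Int.cast_one, Int.cast_ite,
      Int.cast_natCast, Int.cast_zero, sub_mul, one_mul, Finset.sum_sub_distrib, ite_mul,
      zero_mul, Finset.sum_ite_eq', Finset.mem_univ, if_true, add_zero, sub_eq_zero] at e2
    exact e2
  have hconst : ∀ t, H₀ t = H₀ 0 := by
    intro t
    have ht : ∑ s, H₀ (t + s) = ∑ s, H₀ (0 + s) := by
      simp only [zero_add]
      exact Equiv.sum_comp (Equiv.addLeft t) H₀
    rw [h2' t, h2' 0] at ht
    exact hr.mul_left_cancel ht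
  rw [hres, hconst]
  simp [hH₀]

end FLTA.LevelRaising
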