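/-
An even potential takes the same value at `a / C` and `a / (r² C)`.
-/
import Fermat.Agent.LevelRaising.IharaTwist

set_option autoImplicit false

noncomputable section

namespace FLTA.LevelRaising

open Matrix.SpecialLinearGroup
open scoped MatrixGroups

theorem QMat.mul_assoc' (f g h : QMat) : f * g * h = f * (g * h) := by
  simp only [QMat.mul_def, QMat.mk.injEq]
  refine ⟨?_, ?_, ?_, ?_⟩ <;> ring

theorem QMat.ofSL_inv (g : SL(2, ℤ)) : QMat.ofSL g⁻¹ = (QMat.ofSL g).adj := by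
  simp [QMat.ofSL, QMat.adj, Matrix.adjugate_fin_two]

/-- Conjugation by `diag(r, 1/r)`. -/
def dconj (r : ℕ) (g : QMat) : QMat := ⟨g.a, g.b / (r : ℚ) ^ 2, g.c * (r : ℚ) ^ 2, g.d⟩

theorem dconj_mul {r : ℕ} (hr : r ≠ 0) (g g' : QMat) :
    dconj r (g * g') = dconj r g * dconj r g' := by
  have : (r : ℚ) ≠ 0 := by exact_mod_cast hr
  simp only [dconj, QMat.mul_def, QMat.mk.injEq]
  refine ⟨?_, ?_, ?_, ?_⟩ <;> field_simp

/-- The congruence subgroup on which `dconj` is integral. -/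
def G2 (N r : ℕ) : Subgroup SL(2, ℤ) where
  carrier := {g | (N : ℤ) ∣ g 1 0 ∧ (r : ℤ) ^ 2 ∣ g 0 1}
  one_mem' := by simp
  mul_mem' := by
    rintro g g' ⟨h1, h2⟩ ⟨h1', h2'⟩
    simp only [Set.mem_setOf_eq, coe_mul, Matrix.mul_apply, Fin.sum_univ_two]
    exact ⟨dvd_add (dvd_mul_of_dvd_left h1 _) (dvd_mul_of_dvd_right h1' _),
      dvd_add (dvd_mul_of_dvd_right h2' _) (dvd_mul_of_dvd_left h2 _)⟩
  inv_mem' := by
    rintro g ⟨h1, h2⟩
    simp [Matrix.adjugate_fin_two, h1, h2]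

theorem mem_G2_iff {N r : ℕ} {g : SL(2, ℤ)} :
    g ∈ G2 N r ↔ (N : ℤ) ∣ g 1 0 ∧ (r : ℤ) ^ 2 ∣ g 0 1 :=
  Iff.rfl

variable {k : Type*} [CommRing k] {N q r : ℕ} {h : ℚ × ℚ → k}

theorem isInv_ofSL (H : IsPot N q h) {g : SL(2, ℤ)} (hg : (N : ℤ) ∣ g 1 0) :
    IsInv h (QMat.ofSL g) :=
  H.inv _ (inGamma0Q_ofSL hg)

theorem isInv_dconj (H : IsPot N q h) (hr : r ≠ 0) {g : SL(2, ℤ)} (hg : g ∈ G2 N r) :
    IsInv h (dconj r (QMat.ofSL g)) := by
  obtain ⟨⟨c, hc⟩, b, hb⟩ := hg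
  have hr' : (r : ℚ) ≠ 0 := by exact_mod_cast hr
  refine H.inv _ ⟨?_, IsQInt.intCast _, ?_, IsQInt.intCast _, ((c * (r : ℤ) ^ 2 : ℤ) : ℚ),
    IsQInt.intCast _, ?_⟩
  · have := QMat.det_ofSL g
    simp only [QMat.det, dconj, QMat.ofSL] at this ⊢
    rw [← this]
    field_simp
  · refine IsQInt.ofInt b ?_
    simp only [dconj, QMat.ofSL, hb]
    push_cast
    field_simp
  · simp only [dconj, QMat.ofSL, hc]
    push_cast
    ring

/-- The change of periods under conjugation by `diag(r, 1/r)`. -/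
def dper (r : ℕ) (h : ℚ × ℚ → k) (g : SL(2, ℤ)) : k :=
  per h (dconj r (QMat.ofSL g)) - per h (QMat.ofSL g)

theorem dper_mul (H : IsPot N q h) (hr : r ≠ 0) {g g' : SL(2, ℤ)} (hg : g ∈ G2 N r)
    (hg' : g' ∈ G2 N r) : dper r h (g * g') = dper r h g + dper r h g' := by
  simp only [dper]
  rw [QMat.ofSL_mul, dconj_mul hr, (isInv_dconj H hr hg).per_mul (isInv_dconj H hr hg'),
    (isInv_ofSL H hg.1).per_mul (isInv_ofSL H hg'.1)]
  abel

theorem dper_pow (H : IsPot N q h) (hr : r ≠ 0) {g : SL(2, ℤ)} (hg : g ∈ G2 N r) (m : ℕ) :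
    dper r h (g ^ m) = (m : k) * dper r h g := by
  induction m with
  | zero =>
    have e : dper r h ((1 : SL(2, ℤ)) * 1) = dper r h 1 + dper r h 1 :=
      dper_mul H hr (one_mem _) (one_mem _)
    simpa using e
  | succ m ih =>
    rw [pow_succ, dper_mul H hr (pow_mem hg m) hg, ih]
    push_cast
    ring

/-- Reduction modulo `r²`. -/
abbrev redSq (r : ℕ) : SL(2, ℤ) →* Matrix.SpecialLinearGroup (Fin 2) (ZMod (r ^ 2)) :=
  Matrix.SpecialLinearGroup.map (Int.castRingHom (ZMod (r ^ 2)))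

theorem redSq_eq_one_iff {g : SL(2, ℤ)} : redSq r g = 1 ↔
    (r : ℤ) ^ 2 ∣ g 0 0 - 1 ∧ (r : ℤ) ^ 2 ∣ g 0 1 ∧ (r : ℤ) ^ 2 ∣ g 1 0 ∧
      (r : ℤ) ^ 2 ∣ g 1 1 - 1 := by
  have key : ∀ x y : ℤ, ((x : ZMod (r ^ 2)) = (y : ZMod (r ^ 2))) ↔ (r : ℤ) ^ 2 ∣ x - y := by
    intro x y
    rw [ZMod.intCast_eq_intCast_iff_dvd_sub]
    push_cast
    exact dvd_sub_comm
  rw [Matrix.SpecialLinearGroup.ext_iff]
  simp only [Fin.forall_fin_two, coe_one, redSq, map_apply_coe, RingHom.mapMatrix_apply,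
    Matrix.map_apply, eq_intCast, Matrix.one_apply_eq, ne_eq, zero_ne_one, not_false_eq_true,
    Matrix.one_apply_ne, one_ne_zero]
  rw [← Int.cast_one (R := ZMod (r ^ 2)), ← Int.cast_zero (R := ZMod (r ^ 2))]
  simp only [key, sub_zero]
  tauto

variable [hrp : Fact r.Prime]

/-- `dper` vanishes on elements congruent to `1` modulo `r²`. -/
theorem dper_eq_zero_of_redSq (H : IsPot N q h) (hq : q.Prime) (hqN : ¬ q ∣ N) (hrq : r ≠ q)
    (hr4 : r % 4 = 3) (hrN : ¬ r ∣ N) (h2 : ∀ x : k, 2 • x = 0 → x = 0) (hru : IsUnit (r : k))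
    (heven : ∀ u v : ℚ, (u, v) ≠ 0 → h (-u, v) = h (u, v))
    {g : SL(2, ℤ)} (hgN : (N : ℤ) ∣ g 1 0) (hg : redSq r g = 1) : dper r h g = 0 := by
  have hr := hrp.out
  have hr0 : (r : ℚ) ≠ 0 := by exact_mod_cast hr.ne_zero
  obtain ⟨a₀, k₀, hak⟩ : IsCoprime (r : ℤ) (N : ℤ) :=
    Int.isCoprime_iff_nat_coprime.mpr (by simpa using hr.coprime_iff_not_dvd.mpr hrN)
  set γ₀ : SL(2, ℤ) := ⟨!![a₀, -k₀; (N : ℤ), (r : ℤ)],
    by rw [Matrix.det_fin_two_of]; linear_combination hak⟩ with hγ₀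
  have hγ₀N : (N : ℤ) ∣ γ₀ 1 0 := by simp [hγ₀]
  set g₁ : SL(2, ℤ) := γ₀ * g * γ₀⁻¹ with hg₁
  have hg₁N : (N : ℤ) ∣ g₁ 1 0 :=
    (Subgroup.mul_mem (G2 N 1) (Subgroup.mul_mem (G2 N 1) ⟨hγ₀N, by simp⟩ ⟨hgN, by simp⟩)
      (Subgroup.inv_mem (G2 N 1) ⟨hγ₀N, by simp⟩)).1
  have hg₁1 : redSq r g₁ = 1 := by
    rw [hg₁, map_mul, map_mul, hg, mul_one, ← map_mul, mul_inv_cancel, map_one]
  obtain ⟨⟨α, hα⟩, ⟨β, hβ⟩, ⟨c₁, hc₁⟩, ⟨δ, hδ⟩⟩ := redSq_eq_one_iff.mp hg₁1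
  have hdet₁ : g₁ 0 0 * g₁ 1 1 - g₁ 0 1 * g₁ 1 0 = 1 := by
    rw [← Matrix.det_fin_two]; exact g₁.det_coe
  set g₂ : SL(2, ℤ) := ⟨!![g₁ 0 0 + k₀ * r * c₁, g₁ 0 1 + k₀ * r * (δ - α) - k₀ ^ 2 * c₁;
      g₁ 1 0, g₁ 1 1 - k₀ * r * c₁], by
    rw [Matrix.det_fin_two_of]
    linear_combination hdet₁ + (k₀ * r * c₁) * (hδ - hα)
      + (k₀ ^ 2 * c₁ - k₀ * r * (δ - α)) * hc₁⟩ with hg₂
  have hg₂N : (N : ℤ) ∣ g₂ 1 0 := by simpa [hg₂] using hg₁N
  have hper₂ : per h (QMat.ofSL g₂) = per h (QMat.ofSL g₁) := by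
    have hcop : IsCoprime (g₁ 0 0) (g₁ 1 0) :=
      ⟨g₁ 1 1, -g₁ 0 1, by linear_combination hdet₁⟩
    have hdvd : (N : ℤ) * (r : ℤ) ^ 2 ∣ g₁ 1 0 :=
      IsCoprime.mul_dvd (IsCoprime.pow_right ⟨k₀, a₀, by linear_combination hak⟩) hg₁N ⟨c₁, hc₁⟩
    have := even_shift (r := r) H hq hqN hrq hr4 h2 hru heven hcop hdvd k₀
    rw [per_eq, per_eq]
    simp only [QMat.ofSL, hg₂]
    simp only [Matrix.of_apply, Matrix.cons_val', Matrix.cons_val_zero, Matrix.cons_val_one,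
      Matrix.empty_val', Matrix.cons_val_fin_one, Int.cast_add, Int.cast_mul, Int.cast_natCast]
    rw [← this, hc₁]
    push_cast
    congr 3
    field_simp
  set L : SL(2, ℤ) := ⟨!![1, 0; -(N : ℤ) * r, 1], by simp [Matrix.det_fin_two_of]⟩ with hL
  have hLN : (N : ℤ) ∣ L 1 0 := by simp [hL]
  set U : QMat := QMat.transl ((k₀ : ℚ) / r) with hU
  have e₂ : QMat.ofSL g₂ = U * QMat.ofSL g₁ * QMat.transl (-((k₀ : ℚ) / r)) := by
    have hc₁' : ((g₁ 1 0 : ℤ) : ℚ) = (r : ℚ) ^ 2 * c₁ := by rw [hc₁]; push_cast; ring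
    have hαδ : ((g₁ 1 1 : ℤ) : ℚ) - (g₁ 0 0 : ℤ) = (r : ℚ) ^ 2 * (δ - α) := by
      have : g₁ 1 1 - g₁ 0 0 = (r : ℤ) ^ 2 * (δ - α) := by linear_combination hδ - hα
      exact_mod_cast this
    simp only [hU, QMat.ofSL, QMat.transl, QMat.mul_def, hg₂, QMat.mk.injEq]
    simp only [Matrix.of_apply, Matrix.cons_val', Matrix.cons_val_zero, Matrix.cons_val_one,
      Matrix.empty_val', Matrix.cons_val_fin_one, Int.cast_add, Int.cast_mul, Int.cast_natCast,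
      Int.cast_sub, Int.cast_pow]
    refine ⟨?_, ?_, ?_, ?_⟩
    · rw [hc₁']; field_simp; ring
    · rw [hc₁']
      field_simp
      linear_combination (-(k₀ : ℚ)) * hαδ
    · ring
    · rw [hc₁']; field_simp; ring
  have hakQ : (a₀ : ℚ) * r + k₀ * N = 1 := by exact_mod_cast hak
  have eD : QMat.ofSL L * U * QMat.ofSL γ₀ = QMat.diag (r : ℚ)⁻¹ r := by
    ext <;> simp [hL, hU, hγ₀, QMat.ofSL, QMat.transl, QMat.diag, QMat.mul_def] <;>
      field_simp <;>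
      (first | linear_combination hakQ | linear_combination (-(N : ℚ)) * hakQ | linear_combination (N : ℚ) * hakQ | norm_num)
  have eD' : (QMat.ofSL γ₀).adj * QMat.transl (-((k₀ : ℚ) / r)) * (QMat.ofSL L).adj =
      QMat.diag r (r : ℚ)⁻¹ := by
    ext <;> simp [hL, hγ₀, QMat.ofSL, QMat.transl, QMat.diag, QMat.adj, QMat.mul_def] <;>
      field_simp <;>
      (first | linear_combination hakQ | linear_combination (-(N : ℚ)) * hakQ | linear_combination (N : ℚ) * hakQ | norm_num)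
  have e₃ : dconj r (QMat.ofSL g) = QMat.ofSL L * QMat.ofSL g₂ * (QMat.ofSL L).adj := by
    have : dconj r (QMat.ofSL g) =
        QMat.diag (r : ℚ)⁻¹ r * QMat.ofSL g * QMat.diag r (r : ℚ)⁻¹ := by
      simp only [dconj, QMat.diag, QMat.mul_def, QMat.mk.injEq]
      refine ⟨?_, ?_, ?_, ?_⟩ <;> field_simp <;> ring
    rw [this, ← eD, ← eD', e₂, hg₁, QMat.ofSL_mul, QMat.ofSL_mul, QMat.ofSL_inv]
    simp only [QMat.mul_assoc']
  have i1 := isInv_ofSL H hLN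
  have i2 := isInv_ofSL H hg₂N
  have j0 := isInv_ofSL H hγ₀N
  have jg := isInv_ofSL H hgN
  rw [dper, e₃, (i1.mul i2).per_mul (i1.adj H.homog), i1.per_mul i2, i1.per_adj H.homog, hper₂,
    hg₁, QMat.ofSL_mul, QMat.ofSL_mul, QMat.ofSL_inv, (j0.mul jg).per_mul (j0.adj H.homog),
    j0.per_mul jg, j0.per_adj H.homog]
  abel

/-- **Scaling**: `h(a / (r² C)) = h(a / C)`. -/
theorem even_scale (H : IsPot N q h) (hq : q.Prime) (hqN : ¬ q ∣ N) (hrq : r ≠ q)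
    (hr4 : r % 4 = 3) (hrN : ¬ r ∣ N) (h2 : ∀ x : k, 2 • x = 0 → x = 0) (hru : IsUnit (r : k))
    (hru' : IsUnit (((r - 1 : ℕ) : k)))
    (heven : ∀ u v : ℚ, (u, v) ≠ 0 → h (-u, v) = h (u, v))
    {a C : ℤ} (hcop : IsCoprime a C) (hN : (N : ℤ) ∣ C) (hra : ¬ (r : ℤ) ∣ a) :
    h ((a : ℚ), (r : ℚ) ^ 2 * C) = h ((a : ℚ), (C : ℚ)) := by
  have hr := hrp.out
  have hrZ : Prime (r : ℤ) := Nat.prime_iff_prime_int.mp hr
  have har : IsCoprime a ((r : ℤ) ^ 2) := (hrZ.coprime_iff_not_dvd.mpr hra).symm.pow_right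
  obtain ⟨d, b, hdb⟩ : IsCoprime a ((r : ℤ) ^ 2 * C) := har.mul_right hcop
  set g : SL(2, ℤ) := ⟨!![a, -b * (r : ℤ) ^ 2; C, d],
    by rw [Matrix.det_fin_two_of]; linear_combination hdb⟩ with hg
  have hgG : g ∈ G2 N r := mem_G2_iff.mpr ⟨by simpa [hg] using hN, by simp [hg]⟩
  suffices hz : dper r h g = 0 by
    rw [dper, per_eq, per_eq, sub_eq_zero, sub_left_inj] at hz
    simpa [dconj, QMat.ofSL, hg, mul_comm] using hz
  obtain ⟨u, v, huv⟩ : IsCoprime ((N : ℤ) * a) ((r : ℤ) ^ 2) := by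
    refine IsCoprime.mul_left ?_ har
    exact (Int.isCoprime_iff_nat_coprime.mpr
      (by simpa using hr.coprime_iff_not_dvd.mpr hrN)).symm.pow_right
  set L : SL(2, ℤ) := ⟨!![1, 0; (N : ℤ) * (-u * C), 1], by simp [Matrix.det_fin_two_of]⟩ with hL
  have hLG : L ∈ G2 N r := mem_G2_iff.mpr ⟨by simp [hL], by simp [hL]⟩
  have hLz : dper r h L = 0 := by
    have e : ∀ s : ℚ, IsQInt q s → h (1, (N : ℚ) * s) = h infPt := fun s hs => by
      simpa [infPt] using H.apply_lower hs (u := 1) (v := 0) (by simp [Prod.ext_iff])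
    rw [dper, per_eq, per_eq]
    simp only [dconj, QMat.ofSL, hL]
    simp only [Matrix.of_apply, Matrix.cons_val', Matrix.cons_val_zero, Matrix.cons_val_one,
      Matrix.empty_val', Matrix.cons_val_fin_one, Int.cast_mul, Int.cast_natCast, Int.cast_one]
    have hs : IsQInt q (((-u : ℤ) : ℚ) * (C : ℚ)) := (IsQInt.intCast _).mul (IsQInt.intCast _)
    rw [e _ hs, mul_assoc, e _ (hs.mul (IsQInt.ofInt ((r : ℤ) ^ 2) (by push_cast; rfl))), sub_self]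
  set g' := L * g with hg'
  have hg'G : g' ∈ G2 N r := mul_mem hLG hgG
  rw [show dper r h g = dper r h g' by
    rw [hg', dper_mul H hr.ne_zero hLG hgG, hLz, zero_add]]
  -- `g'` is diagonal modulo `r²`
  set m := Nat.totient (r ^ 2) with hm
  have hpow : redSq r (g' ^ m) = 1 := by
    rw [map_pow]
    have e01 : ((g' 0 1 : ℤ) : ZMod (r ^ 2)) = 0 := by
      rw [ZMod.intCast_zmod_eq_zero_iff_dvd]; push_cast
      exact hg'G.2
    have e10 : ((g' 1 0 : ℤ) : ZMod (r ^ 2)) = 0 := by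
      rw [ZMod.intCast_zmod_eq_zero_iff_dvd]; push_cast
      refine ⟨C * v, ?_⟩
      rw [hg', coe_mul]
      simp [hL, hg, Matrix.mul_apply, Fin.sum_univ_two]
      linear_combination (-C) * huv
    have hdiag : ((redSq r g' : Matrix.SpecialLinearGroup (Fin 2) (ZMod (r ^ 2))) :
        Matrix (Fin 2) (Fin 2) (ZMod (r ^ 2))) =
          Matrix.diagonal ![((g' 0 0 : ℤ) : ZMod (r ^ 2)), ((g' 1 1 : ℤ) : ZMod (r ^ 2))] := by
      ext i j
      fin_cases i <;> fin_cases j <;> simp [redSq, e01, e10]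
    have hu : ((g' 0 0 : ℤ) : ZMod (r ^ 2)) * ((g' 1 1 : ℤ) : ZMod (r ^ 2)) = 1 := by
      have := congrArg Matrix.det hdiag
      rw [(redSq r g').det_coe, Matrix.det_diagonal] at this
      simpa [Fin.prod_univ_two] using this.symm
    have hpow1 : ∀ x y : ZMod (r ^ 2), x * y = 1 → x ^ m = 1 := by
      intro x y hxy
      exact (Units.val_pow_eq_pow_val (Units.mkOfMulEqOne x y hxy) m).symm.trans
        (congrArg Units.val (ZMod.pow_totient (Units.mkOfMulEqOne x y hxy)))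
    apply Subtype.ext
    rw [coe_pow, hdiag, Matrix.diagonal_pow, coe_one, ← Matrix.diagonal_one,
      Matrix.diagonal_eq_diagonal_iff]
    intro i
    fin_cases i
    · simpa using hpow1 _ _ hu
    · simpa using hpow1 _ _ ((mul_comm _ _).trans hu)
  have hz := dper_eq_zero_of_redSq H hq hqN hrq hr4 hrN h2 hru heven
    (pow_mem hg'G m).1 hpow
  rw [dper_pow H hr.ne_zero hg'G] at hz
  have hmu : IsUnit (m : k) := by
    rw [hm, Nat.totient_prime_pow hr (by norm_num)]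
    push_cast
    exact (hru.pow _).mul hru'
  exact hmu.mul_right_eq_zero.mp hz

end FLTA.LevelRaising
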