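/-
The period of a potential for `Γ₀(N)` over `ℤ[1/q]` at `γ` depends only on the upper left entry of
`γ` modulo `N` (coefficients of odd characteristic `p`).
-/
import Fermat.Agent.LevelRaising.IharaScale

set_option autoImplicit false

noncomputable section

namespace FLTA.LevelRaising

theorem quadratic_or_neg {P : ℕ} [Fact P.Prime] (hP4 : P % 4 = 3) (c : ZMod P) :
    ∃ (w : ZMod P) (σ : ℤ), (σ = 1 ∨ σ = -1) ∧ w * w = (σ : ZMod P) * c := by
  by_cases hc : c = 0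
  · exact ⟨0, 1, Or.inl rfl, by simp [hc]⟩
  by_cases hs : IsSquare c
  · obtain ⟨w, hw⟩ := hs
    exact ⟨w, 1, Or.inl rfl, by simp [hw]⟩
  · have hP2 : ringChar (ZMod P) ≠ 2 := by rw [ZMod.ringChar_zmod_n]; omega
    have h1 : quadraticChar (ZMod P) (-c) = 1 := by
      rw [show -c = -1 * c by ring, map_mul, quadraticChar_neg_one_iff_not_isSquare.mpr hs,
        quadraticChar_neg_one hP2, ZMod.card, ZMod.χ₄_nat_three_mod_four hP4]
      norm_num
    obtain ⟨w, hw⟩ := (quadraticChar_one_iff_isSquare (neg_ne_zero.mpr hc)).mp h1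
    exact ⟨w, -1, Or.inr rfl, by simp [← hw]⟩

/-- An auxiliary prime `r ≡ w mod P`, `r ≡ 3 mod 4`, `r ≡ 2 mod p`. -/
theorem exists_aux_prime {P p : ℕ} (hP : P.Prime) (hP2 : P ≠ 2) (hp : p.Prime) (hp2 : p ≠ 2)
    (hPp : P ≠ p) {w : ZMod P} (hw : w ≠ 0) (B : ℕ) :
    ∃ r : ℕ, B < r ∧ r.Prime ∧ (r : ZMod P) = w ∧ r % 4 = 3 ∧ (r : ZMod p) = 2 := by
  haveI := Fact.mk hP
  haveI := Fact.mk hp
  have hPz : Prime (P : ℤ) := Nat.prime_iff_prime_int.mp hP
  have hpz : Prime (p : ℤ) := Nat.prime_iff_prime_int.mp hp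
  have h1 : IsCoprime (P : ℤ) (p : ℤ) :=
    Int.isCoprime_iff_nat_coprime.mpr (by simpa using (Nat.coprime_primes hP hp).mpr hPp)
  have h2 : IsCoprime (4 : ℤ) ((P : ℤ) * p) := by
    refine IsCoprime.mul_right ?_ ?_
    · exact (Int.isCoprime_iff_nat_coprime.mpr (by
        simpa using ((Nat.coprime_primes Nat.prime_two hP).mpr (Ne.symm hP2)).pow_left 2))
    · exact (Int.isCoprime_iff_nat_coprime.mpr (by
        simpa using ((Nat.coprime_primes Nat.prime_two hp).mpr (Ne.symm hp2)).pow_left 2))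
  obtain ⟨x, hx1, hx2⟩ := exists_crt h1 (w.val : ℤ) 2
  obtain ⟨y, hy1, hy2⟩ := exists_crt h2 3 x
  have hwP : IsCoprime (w.val : ℤ) (P : ℤ) := (hPz.coprime_iff_not_dvd.mpr fun h => hw (by
    have : ((w.val : ℤ) : ZMod P) = 0 := (ZMod.intCast_zmod_eq_zero_iff_dvd _ _).mpr h
    simpa using this)).symm
  have h2p : IsCoprime (2 : ℤ) (p : ℤ) := Int.isCoprime_iff_nat_coprime.mpr (by
    simpa using (Nat.coprime_primes Nat.prime_two hp).mpr (Ne.symm hp2))
  have hcop : IsCoprime y (4 * ((P : ℤ) * p)) :=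
    (isCoprime_of_dvd_sub (y := 3) ⟨-1, 1, by norm_num⟩ hy1).mul_right
      (isCoprime_of_dvd_sub
        ((isCoprime_of_dvd_sub hwP hx1).mul_right (isCoprime_of_dvd_sub h2p hx2)) hy2)
  obtain ⟨r, hBr, hr, hry⟩ := exists_prime_class (mul_ne_zero (by norm_num)
    (mul_ne_zero (by exact_mod_cast hP.ne_zero) (by exact_mod_cast hp.ne_zero))) hcop B
  have e4 : (4 : ℤ) ∣ (r : ℤ) - 3 := by
    simpa using dvd_add ((dvd_mul_right 4 _).trans hry) hy1
  have ex : (P : ℤ) * p ∣ (r : ℤ) - x := by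
    simpa using dvd_add ((dvd_mul_left _ 4).trans hry) hy2
  have eP : (P : ℤ) ∣ (r : ℤ) - (w.val : ℤ) := by
    simpa using dvd_add ((dvd_mul_right (P : ℤ) _).trans ex) hx1
  have ep : (p : ℤ) ∣ (r : ℤ) - 2 := by
    simpa using dvd_add ((dvd_mul_left (p : ℤ) _).trans ex) hx2
  refine ⟨r, hBr, hr, ?_, by omega, ?_⟩
  · have := (ZMod.intCast_zmod_eq_zero_iff_dvd _ P).mpr eP
    simpa [sub_eq_zero] using this
  · have := (ZMod.intCast_zmod_eq_zero_iff_dvd _ p).mpr ep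
    simpa [sub_eq_zero] using this

variable {k : Type*} [Field k] {p : ℕ} [CharP k p] {N q : ℕ} {h : ℚ × ℚ → k}

theorem two_smul_eq_zero (hp : p.Prime) (hp2 : p ≠ 2) (x : k) (hx : 2 • x = 0) : x = 0 := by
  have h2 : (2 : k) ≠ 0 := by
    intro h0
    have : ((2 : ℕ) : k) = 0 := by exact_mod_cast h0
    exact hp2 ((Nat.prime_dvd_prime_iff_eq hp Nat.prime_two).mp ((CharP.cast_eq_zero_iff k p 2).mp this))
  rw [nsmul_eq_mul] at hx
  exact (mul_eq_zero.mp (by simpa using hx)).resolve_left h2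

/-- An even potential at `a / C` only depends on `a`. -/
theorem even_eq_level (H : IsPot N q h) (hp : p.Prime) (hp2 : p ≠ 2) (hq : q.Prime)
    (hqN : ¬ q ∣ N) (hN0 : N ≠ 0)
    (heven : ∀ u v : ℚ, (u, v) ≠ 0 → h (-u, v) = h (u, v))
    {a C : ℤ} (hcop : IsCoprime a C) (hN : (N : ℤ) ∣ C) :
    h ((a : ℚ), (C : ℚ)) = h ((a : ℚ), (N : ℚ)) := by
  have hane : ∀ x : ℤ, ((x : ℚ), (N : ℚ)) ≠ 0 := fun x => by simp [Prod.ext_iff, hN0]
  by_cases hC : C = 0
  · subst hC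
    rw [isCoprime_zero_right, Int.isUnit_iff] at hcop
    rcases hcop with rfl | rfl
    · have := H.apply_lower (s := 1) IsQInt.one (u := 1) (v := 0) (by simp [Prod.ext_iff])
      simp only [Int.cast_one, Int.cast_zero]
      rw [← this]; simp
    · have := H.apply_lower (s := 1) IsQInt.one (u := 1) (v := 0) (by simp [Prod.ext_iff])
      simp only [Int.cast_neg, Int.cast_one, Int.cast_zero]
      rw [heven 1 (N : ℚ) (by simp [Prod.ext_iff, hN0]), heven 1 0 (by simp [Prod.ext_iff]), ← this]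
      simp
  obtain ⟨s, M, y, hs, hM, hCM, h4M, -, hy1, hy2, hy3⟩ :=
    exists_sign_lift hC hcop (τ := 3) (Or.inr rfl)
  obtain ⟨P, hBP, hP, hPy⟩ := exists_prime_class hM hy3 (C.natAbs + p + N + q + 2)
  haveI := Fact.mk hP
  have hs0 : (s : ℚ) ≠ 0 := by rcases hs with rfl | rfl <;> norm_num
  have hP4 : P % 4 = 3 := by
    have h4 : (4 : ℤ) ∣ (P : ℤ) - 3 := by simpa using dvd_add (h4M.trans hPy) hy2
    omega
  obtain ⟨t, ht⟩ : C ∣ (P : ℤ) - s * a := by simpa using dvd_add (hCM.trans hPy) hy1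
  obtain ⟨c, hc⟩ := hN
  have hPne : ((P : ℚ), ((s * C : ℤ) : ℚ)) ≠ 0 := by simp [Prod.ext_iff, hP.ne_zero]
  have hPZ : Prime (P : ℤ) := Nat.prime_iff_prime_int.mp hP
  have hNP : ¬ (P : ℤ) ∣ (N : ℤ) := by
    intro h'
    have := Nat.le_of_dvd (Nat.pos_of_ne_zero hN0) (by exact_mod_cast h' : P ∣ N)
    omega
  have e1 : h ((a : ℚ), (C : ℚ)) = h ((P : ℚ), ((s * C : ℤ) : ℚ)) := by
    rw [← H.apply_smul hs0 (u := (a : ℚ)) (v := (C : ℚ)) (by simp [Prod.ext_iff, hC])]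
    have := H.apply_transl (t := ((t * s : ℤ) : ℚ)) (IsQInt.intCast _) (u := (s : ℚ) * a)
      (v := (s : ℚ) * C) (by simp [Prod.ext_iff, hC, hs0])
    rw [← this]
    push_cast
    congr 2
    have : (P : ℚ) = s * a + C * t := by
      have : (P : ℤ) = s * a + C * t := by linear_combination ht
      exact_mod_cast this
    rw [this]
    rcases hs with rfl | rfl <;> push_cast <;> ring
  obtain ⟨w, σ, hσ, hw⟩ := quadratic_or_neg hP4 (((s * c : ℤ)) : ZMod P)
  have hσ2 : σ * σ = 1 := by rcases hσ with rfl | rfl <;> norm_num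
  have hw0 : w ≠ 0 := by
    intro h0
    rw [h0, mul_zero] at hw
    have hz : ((σ * (s * c) : ℤ) : ZMod P) = 0 := by push_cast at hw ⊢; exact hw.symm
    have hd : P ∣ (σ * (s * c)).natAbs :=
      Int.natCast_dvd.mp ((ZMod.intCast_zmod_eq_zero_iff_dvd _ _).mp hz)
    have habs : (σ * (s * c)).natAbs = c.natAbs := by
      rcases hs with rfl | rfl <;> rcases hσ with rfl | rfl <;> simp
    rw [habs] at hd
    have hc0 : c ≠ 0 := fun h' => hC (by rw [hc, h', mul_zero])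
    have hle := Nat.le_of_dvd (Int.natAbs_pos.mpr hc0) hd
    have hcC : c.natAbs ≤ C.natAbs :=
      Nat.le_of_dvd (Int.natAbs_pos.mpr hC) (by rw [hc, Int.natAbs_mul]; exact dvd_mul_left _ _)
    omega
  obtain ⟨r, hBr, hr, hrw, hr4, hrp⟩ :=
    exists_aux_prime hP (by omega) hp hp2 (by omega) hw0 (N + q + P + p)
  haveI := Fact.mk hr
  have hrk : (r : k) = 2 := by
    have h1 : (r : ZMod p) = ((2 : ℕ) : ZMod p) := by simpa using hrp
    have h2 := (CharP.natCast_eq_natCast k p).mpr ((ZMod.natCast_eq_natCast_iff _ _ _).mp h1)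
    simpa using h2
  have h2k : (2 : k) ≠ 0 := fun h0 => one_ne_zero
    (two_smul_eq_zero (k := k) hp hp2 1 (by rw [nsmul_eq_mul, mul_one]; exact_mod_cast h0))
  have hru : IsUnit (r : k) := by rw [hrk]; exact h2k.isUnit
  have hru' : IsUnit ((r - 1 : ℕ) : k) := by
    rw [Nat.cast_sub hr.one_le, hrk]; norm_num
  -- change the denominator to `± N r²`
  obtain ⟨u, hu⟩ : (P : ℤ) ∣ σ * (r : ℤ) ^ 2 - s * c := by
    rw [← ZMod.intCast_zmod_eq_zero_iff_dvd]
    push_cast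
    rw [hrw]
    have hσ2' : (σ : ZMod P) * σ = 1 := by exact_mod_cast congrArg (Int.cast : ℤ → ZMod P) hσ2
    push_cast at hw
    linear_combination (σ : ZMod P) * hw + ((s : ZMod P) * c) * hσ2'
  have e2 : h ((P : ℚ), ((s * C : ℤ) : ℚ)) = h ((P : ℚ), (σ : ℚ) * ((r : ℚ) ^ 2 * N)) := by
    rw [← H.apply_lower (s := (u : ℚ)) (IsQInt.intCast u) hPne]
    congr 2
    have : σ * (r : ℤ) ^ 2 = s * c + P * u := by linear_combination hu
    have hQ : (σ : ℚ) * (r : ℚ) ^ 2 = s * c + P * u := by exact_mod_cast this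
    rw [hc]
    push_cast
    linear_combination (-(N : ℚ)) * hQ
  have e3 : h ((P : ℚ), (σ : ℚ) * ((r : ℚ) ^ 2 * N)) = h ((P : ℚ), (r : ℚ) ^ 2 * N) := by
    have hne : ((P : ℚ), (r : ℚ) ^ 2 * N) ≠ 0 := by simp [Prod.ext_iff, hP.ne_zero]
    rcases hσ with rfl | rfl
    · simp
    · rw [← heven _ _ hne, ← H.apply_neg (u := -(P : ℚ)) (v := (r : ℚ) ^ 2 * N)
        (by simp [Prod.ext_iff, hP.ne_zero])]
      simp
  have e4 : h ((P : ℚ), (r : ℚ) ^ 2 * N) = h ((P : ℚ), (N : ℚ)) := by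
    have := even_scale (r := r) H hq hqN (by omega) hr4 (fun hd => by
      have := Nat.le_of_dvd (Nat.pos_of_ne_zero hN0) hd; omega)
      (two_smul_eq_zero hp hp2) hru hru' heven (a := (P : ℤ)) (C := (N : ℤ))
      (hPZ.coprime_iff_not_dvd.mpr hNP) dvd_rfl
      (fun hd => by have := Nat.le_of_dvd hP.pos (by exact_mod_cast hd : r ∣ P); omega)
    simpa using this
  rw [e1, e2, e3, e4]
  have e5 : h ((P : ℚ), (N : ℚ)) = h (((s * a : ℤ) : ℚ), (N : ℚ)) := by
    rw [← H.apply_transl (t := ((c * t : ℤ) : ℚ)) (IsQInt.intCast _) (hane (s * a))]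
    congr 2
    have : (P : ℤ) = s * a + c * t * N := by linear_combination ht + t * hc
    exact_mod_cast this
  rw [e5]
  rcases hs with rfl | rfl
  · simp
  · push_cast
    rw [neg_one_mul, heven _ _ (hane a)]

/-- An even potential only depends on the class of `a` modulo `N`. -/
theorem even_congr (H : IsPot N q h) (hp : p.Prime) (hp2 : p ≠ 2) (hq : q.Prime)
    (hqN : ¬ q ∣ N) (hN0 : N ≠ 0)
    (heven : ∀ u v : ℚ, (u, v) ≠ 0 → h (-u, v) = h (u, v))
    {a C a' C' : ℤ} (hcop : IsCoprime a C) (hN : (N : ℤ) ∣ C)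
    (hcop' : IsCoprime a' C') (hN' : (N : ℤ) ∣ C') (haa : (N : ℤ) ∣ a - a') :
    h ((a : ℚ), (C : ℚ)) = h ((a' : ℚ), (C' : ℚ)) := by
  rw [even_eq_level H hp hp2 hq hqN hN0 heven hcop hN,
    even_eq_level H hp hp2 hq hqN hN0 heven hcop' hN']
  obtain ⟨t, ht⟩ := haa
  rw [← H.apply_transl (t := (t : ℚ)) (IsQInt.intCast t) (u := (a' : ℚ)) (v := (N : ℚ))
    (by simp [Prod.ext_iff, hN0])]
  congr 2
  have : a = a' + t * N := by linear_combination ht
  exact_mod_cast this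

/-- The matrix `diag(-1, 1)` normalises the group. -/
theorem InGamma0Q.neg_offdiag {g : QMat} (hg : InGamma0Q N q g) :
    InGamma0Q N q ⟨g.a, -g.b, -g.c, g.d⟩ := by
  obtain ⟨hd, ha, hb, hd', c, hc, he⟩ := hg
  refine ⟨?_, ha, hb.neg, hd', -c, hc.neg, by rw [he]; ring⟩
  simp only [QMat.det] at hd ⊢
  linear_combination hd

/-- The reflected potential. -/
theorem IsPot.reflect (H : IsPot N q h) : IsPot N q (fun P => h (-P.1, P.2)) := by
  have hne : ∀ P : ℚ × ℚ, P ≠ 0 → (-P.1, P.2) ≠ (0 : ℚ × ℚ) := fun P hP h0 => hP (by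
    simp only [Prod.ext_iff, Prod.fst_zero, Prod.snd_zero, neg_eq_zero] at h0
    exact Prod.ext h0.1 h0.2)
  refine ⟨fun t P ht hP => ?_, fun g hg => ?_⟩
  · have := H.homog t (-P.1, P.2) ht (hne P hP)
    simpa using this
  · refine IsInv.of_const (by rw [hg.1]; norm_num) (per h ⟨g.a, -g.b, -g.c, g.d⟩) fun P hP => ?_
    rw [← (H.inv _ hg.neg_offdiag).apply (hne P hP)]
    congr 1
    simp only [QMat.app, Prod.mk.injEq]
    constructor <;> ring

theorem IsPot.add' {h' : ℚ × ℚ → k} (H : IsPot N q h) (H' : IsPot N q h') :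
    IsPot N q (fun P => h P + h' P) := by
  refine ⟨fun t P ht hP => by simp only [H.homog t P ht hP, H'.homog t P ht hP], fun g hg => ?_⟩
  refine IsInv.of_const (by rw [hg.1]; norm_num) (per h g + per h' g) fun P hP => ?_
  simp only [(H.inv g hg).apply hP, (H'.inv g hg).apply hP]
  abel

theorem IsPot.neg' (H : IsPot N q h) : IsPot N q (fun P => -h P) := by
  refine ⟨fun t P ht hP => by simp only [H.homog t P ht hP], fun g hg => ?_⟩
  refine IsInv.of_const (by rw [hg.1]; norm_num) (-per h g) fun P hP => ?_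
  simp only [(H.inv g hg).apply hP]
  abel

/-- **Congruence property**: the value of a potential at `a / C` depends only on `a` mod `N`. -/
theorem pot_congr (H : IsPot N q h) (hp : p.Prime) (hp2 : p ≠ 2) (hq : q.Prime)
    (hqN : ¬ q ∣ N) (hN0 : N ≠ 0) {a C a' C' : ℤ} (hcop : IsCoprime a C) (hN : (N : ℤ) ∣ C)
    (hcop' : IsCoprime a' C') (hN' : (N : ℤ) ∣ C') (haa : (N : ℤ) ∣ a - a') :
    h ((a : ℚ), (C : ℚ)) = h ((a' : ℚ), (C' : ℚ)) := by
  set hpl : ℚ × ℚ → k := fun P => h P + h (-P.1, P.2) with hpl_def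
  set hmi : ℚ × ℚ → k := fun P => h P + -h (-P.1, P.2) with hmi_def
  have Hpl : IsPot N q hpl := H.add' H.reflect
  have Hmi : IsPot N q hmi := H.add' H.reflect.neg'
  have he := even_congr Hpl hp hp2 hq hqN hN0 (fun u v _ => by simp [hpl_def, add_comm])
    hcop hN hcop' hN' haa
  have hinf : h (-1, 0) = h (1, 0) := by
    simpa using H.apply_neg (u := 1) (v := 0) (by simp [Prod.ext_iff])
  have hodd : ∀ u v : ℚ, (u, v) ≠ 0 → hmi (-u, v) + hmi (u, v) = 2 • hmi infPt := by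
    intro u v _
    simp [hmi_def, infPt, hinf]
  have ho : hmi ((a : ℚ), (C : ℚ)) = hmi ((a' : ℚ), (C' : ℚ)) := by
    rw [odd_eq_inf Hmi hq hqN (two_smul_eq_zero hp hp2) hodd hcop hN,
      odd_eq_inf Hmi hq hqN (two_smul_eq_zero hp hp2) hodd hcop' hN']
  simp only [hpl_def, hmi_def] at he ho
  refine sub_eq_zero.mp (two_smul_eq_zero hp hp2 _ ?_)
  rw [two_nsmul]
  linear_combination he + ho

end FLTA.LevelRaising
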