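/-
The two degeneracy homomorphisms `Γ₀(N q) → Γ₀(N)` and the operator `T_ℓ - (ℓ + 1)`.
-/
import Fermat.Agent.Periods.Hecke

set_option autoImplicit false

noncomputable section

namespace FLTA.LevelRaising

open CongruenceSubgroup ModularCurve.Period FLTA.Periods
open scoped MatrixGroups

variable {N q : ℕ}

theorem dvd_lowerLeft_left {γ : SL(2, ℤ)} (h : γ ∈ Gamma0 (N * q)) : (N : ℤ) ∣ γ 1 0 := by
  have := dvd_of_mem_Gamma0 h
  exact (Dvd.intro (q : ℤ) (by push_cast; ring)).trans this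

theorem dvd_lowerLeft_right {γ : SL(2, ℤ)} (h : γ ∈ Gamma0 (N * q)) : (q : ℤ) ∣ γ 1 0 := by
  have := dvd_of_mem_Gamma0 h
  exact (Dvd.intro_left (N : ℤ) (by push_cast; ring)).trans this

/-- The inclusion `Γ₀(N q) → Γ₀(N)`. -/
def inclHom (N q : ℕ) : Gamma0 (N * q) →* Gamma0 N where
  toFun γ := ⟨(γ : SL(2, ℤ)), mem_Gamma0_of_dvd (dvd_lowerLeft_left γ.2)⟩
  map_one' := rfl
  map_mul' _ _ := rfl

@[simp] theorem inclHom_coe (γ : Gamma0 (N * q)) :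
    ((inclHom N q γ : Gamma0 N) : SL(2, ℤ)) = (γ : SL(2, ℤ)) := rfl

/-- Conjugation of an integral matrix by `diag(q, 1)`. -/
def conjDiagMat (q : ℕ) (A : Matrix (Fin 2) (Fin 2) ℤ) : Matrix (Fin 2) (Fin 2) ℤ :=
  !![A 0 0, (q : ℤ) * A 0 1; A 1 0 / (q : ℤ), A 1 1]

theorem conjDiagMat_det [NeZero q] {A : Matrix (Fin 2) (Fin 2) ℤ} (h : (q : ℤ) ∣ A 1 0) :
    (conjDiagMat q A).det = A.det := by
  obtain ⟨c, hc⟩ := h
  have hq : (q : ℤ) ≠ 0 := by exact_mod_cast NeZero.ne q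
  rw [conjDiagMat, Matrix.det_fin_two_of, Matrix.det_fin_two, hc,
    Int.mul_ediv_cancel_left _ hq]
  ring

theorem conjDiagMat_mul [NeZero q] {A B : Matrix (Fin 2) (Fin 2) ℤ} (hA : (q : ℤ) ∣ A 1 0)
    (hB : (q : ℤ) ∣ B 1 0) : conjDiagMat q (A * B) = conjDiagMat q A * conjDiagMat q B := by
  obtain ⟨c, hc⟩ := hA
  obtain ⟨c', hc'⟩ := hB
  have hq : (q : ℤ) ≠ 0 := by exact_mod_cast NeZero.ne q
  have h10 : (A * B) 1 0 / (q : ℤ) = c * B 0 0 + A 1 1 * c' := by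
    have he : (A * B) 1 0 = (q : ℤ) * (c * B 0 0 + A 1 1 * c') := by
      simp [Matrix.mul_apply, Fin.sum_univ_two, hc, hc']
      ring
    rw [he, Int.mul_ediv_cancel_left _ hq]
  have e1 : A 1 0 / (q : ℤ) = c := by rw [hc, Int.mul_ediv_cancel_left _ hq]
  have e2 : B 1 0 / (q : ℤ) = c' := by rw [hc', Int.mul_ediv_cancel_left _ hq]
  simp only [conjDiagMat, h10, e1, e2]
  ext i j
  fin_cases i <;> fin_cases j <;>
    simp [Matrix.mul_apply, Fin.sum_univ_two, hc, hc'] <;> ring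

/-- `γ ↦ diag(q, 1) γ diag(q, 1)⁻¹` from `Γ₀(N q)` to `Γ₀(N)`. -/
def conjHom (N q : ℕ) [NeZero q] : Gamma0 (N * q) →* Gamma0 N where
  toFun γ := ⟨⟨conjDiagMat q (γ : SL(2, ℤ)),
      (conjDiagMat_det (dvd_lowerLeft_right γ.2)).trans (γ : SL(2, ℤ)).2⟩,
    mem_Gamma0_of_dvd (by
      obtain ⟨c, hc⟩ := dvd_of_mem_Gamma0 γ.2
      have hq : (q : ℤ) ≠ 0 := by exact_mod_cast NeZero.ne q
      show (N : ℤ) ∣ ((γ : SL(2, ℤ)) 1 0) / (q : ℤ)
      rw [hc, show (((N * q : ℕ) : ℤ)) * c = (q : ℤ) * ((N : ℤ) * c) by push_cast; ring,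
        Int.mul_ediv_cancel_left _ hq]
      exact dvd_mul_right _ _)⟩
  map_one' := by
    apply Subtype.ext
    apply Subtype.ext
    ext i j
    fin_cases i <;> fin_cases j <;> simp [conjDiagMat]
  map_mul' γ δ := by
    apply Subtype.ext
    apply Subtype.ext
    exact conjDiagMat_mul (dvd_lowerLeft_right γ.2) (dvd_lowerLeft_right δ.2)

theorem conjHom_coe [NeZero q] (γ : Gamma0 (N * q)) :
    (((conjHom N q γ : Gamma0 N) : SL(2, ℤ)) : Matrix (Fin 2) (Fin 2) ℤ) =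
      conjDiagMat q (γ : SL(2, ℤ)) := rfl

variable (k : Type*) [CommRing k]

/-- The Eisenstein operator `T_ℓ - (ℓ + 1)`. -/
def eisOp (N : ℕ) [NeZero N] (ℓ : ℕ) :
    (Additive (Gamma0 N) →+ k) →ₗ[k] (Additive (Gamma0 N) →+ k) :=
  heckeHom k N ℓ - ((ℓ : k) + 1) • LinearMap.id

theorem eisOp_apply [NeZero N] (ℓ : ℕ) (φ : Additive (Gamma0 N) →+ k) :
    eisOp k N ℓ φ = heckeHom k N ℓ φ - ((ℓ : k) + 1) • φ := rfl

end FLTA.LevelRaising
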