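/-
Potentials of parabolic homomorphisms of `Γ₀(N)`, Hecke operators on potentials, and the action of
`T_ℓ`, `ℓ ≡ 1 mod M`, on functions on the cusps of `Γ₀(M)`.
-/
import Fermat.Agent.LevelRaising.Degeneracy
import Fermat.Agent.LevelRaising.IharaPotential

set_option autoImplicit false

noncomputable section

namespace FLTA.LevelRaising

open CongruenceSubgroup ModularCurve.Period FLTA.Periods UpperHalfPlane
open scoped MatrixGroups OnePoint
open P2MW.S_ModularForm_heckeT_slash_eq_self_of_mem_Gamma0.ModularForm.HeckeSlashInvariance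
  (heckeRep)

variable {k : Type*} [AddCommGroup k]

/-- `h` is a potential of the homomorphism `x`. -/
def IsPrim {N : ℕ} (x : Additive (Gamma0 N) →+ k) (h : ℚ × ℚ → k) : Prop :=
  IsHomog h ∧ ∀ (γ : Gamma0 N) (P : ℚ × ℚ), P ≠ 0 →
    h ((QMat.ofSL (γ : SL(2, ℤ))).app P) = h P + x (Additive.ofMul γ)

namespace IsPrim

variable {N : ℕ} {x : Additive (Gamma0 N) →+ k} {h : ℚ × ℚ → k}

theorem isInv (H : IsPrim x h) (γ : Gamma0 N) : IsInv h (QMat.ofSL (γ : SL(2, ℤ))) :=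
  IsInv.of_const (by simp) (x (Additive.ofMul γ)) (H.2 γ)

theorem per_eq' (H : IsPrim x h) (γ : Gamma0 N) :
    per h (QMat.ofSL (γ : SL(2, ℤ))) = x (Additive.ofMul γ) := by
  rw [per, H.2 γ infPt infPt_ne_zero]; abel

theorem transl_apply (H : IsPrim x h) (m : ℤ) {P : ℚ × ℚ} (hP : P ≠ 0) :
    h ((QMat.transl (m : ℚ)).app P) = h P := by
  have hmem : (⟨!![1, m; 0, 1], by simp [Matrix.det_fin_two_of]⟩ : SL(2, ℤ)) ∈ Gamma0 N := by
    exact mem_Gamma0_of_dvd (dvd_zero _)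
  have e : QMat.ofSL (⟨_, hmem⟩ : Gamma0 N).1 = QMat.transl (m : ℚ) := by
    simp only [QMat.ofSL, QMat.transl]; norm_num
  have h1 := (H.isInv ⟨_, hmem⟩).apply_of_fix H.1 (P := infPt) infPt_ne_zero (t := 1)
    (by rw [e]; simp [QMat.app, QMat.transl, infPt]) hP
  rwa [e] at h1

end IsPrim

/-- A rational eigenvector forces trace `± 2`. -/
theorem trace_sq_of_fix {g : SL(2, ℤ)} {P : ℚ × ℚ} (hP : P ≠ 0) {t : ℚ}
    (h : (QMat.ofSL g).app P = t • P) : (g : Matrix (Fin 2) (Fin 2) ℤ).trace ^ 2 = 4 := by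
  simp only [QMat.ofSL, QMat.app, Prod.ext_iff, Prod.smul_fst, Prod.smul_snd, smul_eq_mul] at h
  obtain ⟨h1, h2⟩ := h
  have hdet : ((g 0 0 : ℤ) : ℚ) * (g 1 1 : ℤ) - (g 0 1 : ℤ) * (g 1 0 : ℤ) = 1 := by
    simpa [QMat.det, QMat.ofSL] using QMat.det_ofSL g
  have key : t ^ 2 - (((g 0 0 : ℤ) : ℚ) + (g 1 1 : ℤ)) * t + 1 = 0 := by
    by_cases hu : P.1 = 0
    · have hv : P.2 ≠ 0 := fun hv => hP (Prod.ext hu hv)
      refine (mul_eq_zero.mp ?_).resolve_left hv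
      linear_combination (-((g 1 0 : ℤ) : ℚ)) * h1 + (((g 0 0 : ℤ) : ℚ) - t) * h2 - P.2 * hdet
    · refine (mul_eq_zero.mp ?_).resolve_left hu
      linear_combination (-((g 0 1 : ℤ) : ℚ)) * h2 + (((g 1 1 : ℤ) : ℚ) - t) * h1 - P.1 * hdet
  have hz : t.num ^ 2 - (g 0 0 + g 1 1) * t.num * (t.den : ℤ) + (t.den : ℤ) ^ 2 = 0 := by
    have hd : (t.den : ℚ) ≠ 0 := by exact_mod_cast t.den_nz
    have : ((t.num ^ 2 - (g 0 0 + g 1 1) * t.num * (t.den : ℤ) + (t.den : ℤ) ^ 2 : ℤ) : ℚ) = 0 := by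
      have ht : (t.num : ℚ) = t * t.den := (Rat.mul_den_eq_num t).symm
      push_cast
      rw [ht]
      linear_combination (t.den : ℚ) ^ 2 * key
    exact_mod_cast this
  have hcop : IsCoprime t.num (t.den : ℤ) :=
    Int.isCoprime_iff_nat_coprime.mpr (by simpa using t.reduced)
  have hn : IsUnit (t.num) := by
    refine hcop.isUnit_of_dvd' dvd_rfl ?_
    refine hcop.dvd_of_dvd_mul_left (z := (t.den : ℤ)) ?_
    exact ⟨(g 0 0 + g 1 1) * (t.den : ℤ) - t.num, by linear_combination hz⟩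
  have hm : IsUnit (t.den : ℤ) := by
    refine hcop.symm.isUnit_of_dvd' dvd_rfl ?_
    refine hcop.symm.dvd_of_dvd_mul_left (z := t.num) ?_
    exact ⟨(g 0 0 + g 1 1) * t.num - (t.den : ℤ), by linear_combination hz⟩
  rw [Matrix.trace_fin_two]
  have hd1 : (t.den : ℤ) = 1 := by
    rcases Int.isUnit_iff.mp hm with h' | h' <;> omega
  rw [hd1] at hz
  rcases Int.isUnit_iff.mp hn with h' | h' <;> rw [h'] at hz
  · have : g 0 0 + g 1 1 = 2 := by linear_combination -hz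
    rw [this]; norm_num
  · have : g 0 0 + g 1 1 = -2 := by linear_combination hz
    rw [this]; norm_num

/-- Two vectors are equivalent when they span the same line up to `Γ₀(N)`. -/
def cuspSetoid (N : ℕ) : Setoid (ℚ × ℚ) where
  r P P' := ∃ (γ : Gamma0 N) (t : ℚ), t ≠ 0 ∧ P' = t • (QMat.ofSL (γ : SL(2, ℤ))).app P
  iseqv :=
    { refl := fun P => ⟨1, 1, one_ne_zero, by simp [QMat.ofSL, QMat.app]⟩
      symm := by
        rintro P P' ⟨γ, t, ht, rfl⟩
        refine ⟨γ⁻¹, t⁻¹, inv_ne_zero ht, ?_⟩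
        rw [QMat.app_smul, smul_smul, inv_mul_cancel₀ ht, one_smul, ← QMat.app_mul,
          ← QMat.ofSL_mul, InvMemClass.coe_inv, inv_mul_cancel]
        simp [QMat.ofSL, QMat.app]
      trans := by
        rintro P P' P'' ⟨γ, t, ht, rfl⟩ ⟨γ', t', ht', rfl⟩
        refine ⟨γ' * γ, t' * t, mul_ne_zero ht' ht, ?_⟩
        rw [QMat.app_smul, smul_smul, Subgroup.coe_mul, QMat.ofSL_mul, QMat.app_mul] }

/-- Every parabolic homomorphism has a potential. -/
theorem exists_isPrim {N : ℕ} {x : Additive (Gamma0 N) →+ k}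
    (hx : IsParabolicHom (Gamma0 N) x) : ∃ h : ℚ × ℚ → k, IsPrim x h := by
  classical
  let rep : ℚ × ℚ → ℚ × ℚ := fun P => (Quotient.mk (cuspSetoid N) P).out
  have hrep : ∀ P, ∃ (γ : Gamma0 N) (t : ℚ), t ≠ 0 ∧
      P = t • (QMat.ofSL (γ : SL(2, ℤ))).app (rep P) := fun P =>
    Quotient.exact (s := cuspSetoid N) ((Quotient.mk (cuspSetoid N) P).out_eq)
  choose g t ht hg using hrep
  have hwd : ∀ (P : ℚ × ℚ) (γ : Gamma0 N) (s : ℚ), s ≠ 0 → P ≠ 0 →
      x (Additive.ofMul (g (s • (QMat.ofSL (γ : SL(2, ℤ))).app P))) =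
        x (Additive.ofMul (g P)) + x (Additive.ofMul γ) := by
    intro P γ s hs hP
    set P' := s • (QMat.ofSL (γ : SL(2, ℤ))).app P with hP'
    have hrr : rep P' = rep P := by
      simp only [rep]
      rw [Quotient.sound (s := cuspSetoid N) (⟨γ, s, hs, rfl⟩ : (cuspSetoid N).r P P')]
    have hP0 : rep P ≠ 0 := by
      intro h0
      apply hP
      rw [hg P, h0]
      simp [QMat.app]
    set δ : Gamma0 N := (g P')⁻¹ * γ * g P with hδ
    have e1 : (t P') • (QMat.ofSL (g P' : SL(2, ℤ))).app (rep P) =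
        (s * t P) • (QMat.ofSL ((γ : SL(2, ℤ)) * (g P : SL(2, ℤ)))).app (rep P) := by
      calc (t P') • (QMat.ofSL (g P' : SL(2, ℤ))).app (rep P) = P' := by
            rw [← hrr]; exact (hg P').symm
        _ = _ := by
            rw [hP', QMat.ofSL_mul, QMat.app_mul]
            conv_lhs => rw [hg P]
            rw [QMat.app_smul, smul_smul]
    have e2 : (QMat.ofSL (δ : SL(2, ℤ))).app (rep P) = ((s * t P)⁻¹ * t P') • rep P := by
      have hne : s * t P ≠ 0 := mul_ne_zero hs (ht P)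
      have e3 := congrArg (fun Q => (s * t P)⁻¹ •
        (QMat.ofSL ((g P' : SL(2, ℤ))⁻¹)).app Q) e1
      simp only [QMat.app_smul, smul_smul, inv_mul_cancel₀ hne, one_smul] at e3
      rw [← QMat.app_mul, ← QMat.ofSL_mul, inv_mul_cancel, ← QMat.app_mul,
        ← QMat.ofSL_mul, ← mul_assoc] at e3
      rw [hδ, Subgroup.coe_mul, Subgroup.coe_mul, InvMemClass.coe_inv, ← e3]
      simp [QMat.ofSL, QMat.app]
    have h0 := hx δ (trace_sq_of_fix hP0 e2)
    rw [hδ, ofMul_mul, map_add, ofMul_mul, map_add, ofMul_inv, map_neg] at h0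
    calc x (Additive.ofMul (g P'))
        = x (Additive.ofMul (g P')) + (-x (Additive.ofMul (g P')) + x (Additive.ofMul γ)
            + x (Additive.ofMul (g P))) := by rw [h0, add_zero]
      _ = _ := by abel
  refine ⟨fun P => x (Additive.ofMul (g P)), fun s P hs hP => ?_, fun γ P hP => ?_⟩
  · have := hwd P 1 s hs hP
    simpa [QMat.ofSL, QMat.app] using this
  · simpa using hwd P γ 1 one_ne_zero hP

/-! ### Hecke operators on potentials -/

/-- The representatives of `T_ℓ`. -/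
def tMat (ℓ : ℕ) (i : OnePoint (ZMod ℓ)) : QMat :=
  i.elim ⟨ℓ, 0, 0, 1⟩ fun j => ⟨1, j.val, 0, ℓ⟩

@[simp] theorem tMat_infty (ℓ : ℕ) : tMat ℓ ∞ = ⟨ℓ, 0, 0, 1⟩ := rfl

@[simp] theorem tMat_coe (ℓ : ℕ) (j : ZMod ℓ) : tMat ℓ j = ⟨1, j.val, 0, ℓ⟩ := rfl

theorem det_tMat {ℓ : ℕ} (i : OnePoint (ZMod ℓ)) : (tMat ℓ i).det = ℓ := by
  induction i using OnePoint.rec <;> simp [QMat.det]

theorem heckeRep_entries {ℓ : ℕ} (hℓ : ℓ ≠ 0) (i : OnePoint (ZMod ℓ)) :
    ((heckeRep ℓ i : GL (Fin 2) ℝ) : Matrix (Fin 2) (Fin 2) ℝ) =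
      !![((tMat ℓ i).a : ℝ), ((tMat ℓ i).b : ℝ); ((tMat ℓ i).c : ℝ), ((tMat ℓ i).d : ℝ)] := by
  induction i using OnePoint.rec with
  | infty =>
    rw [P2MW.S_ModularForm_heckeT_slash_eq_self_of_mem_Gamma0.ModularForm.HeckeSlashInvariance.heckeRep_infty,
      ModularForm.val_heckeDiagMatrix hℓ]
    simp
  | coe j =>
    rw [P2MW.S_ModularForm_heckeT_slash_eq_self_of_mem_Gamma0.ModularForm.HeckeSlashInvariance.heckeRep_coe,
      ModularForm.val_heckeMatrix hℓ]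
    simp [-ZMod.natCast_val]

theorem tMat_mul_ofSL {N ℓ : ℕ} [hℓ : Fact ℓ.Prime] (hℓN : ¬ ℓ ∣ N) (γ : Gamma0 N)
    (i : OnePoint (ZMod ℓ)) :
    tMat ℓ i * QMat.ofSL (γ : SL(2, ℤ)) =
      QMat.ofSL (((repsT hℓN).cocyc γ i : Gamma0 N) : SL(2, ℤ)) *
        tMat ℓ ((repsT hℓN).perm γ i) := by
  have h := congrArg (fun g : GL (Fin 2) ℝ => (g : Matrix (Fin 2) (Fin 2) ℝ))
    ((repsT hℓN).rep_mul γ i)
  simp only [repsT_rep, Units.val_mul, heckeRep_entries hℓ.out.ne_zero] at h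
  have e : ∀ r s : Fin 2, _ := fun r s => congrFun (congrFun h r) s
  have e00 := e 0 0
  have e01 := e 0 1
  have e10 := e 1 0
  have e11 := e 1 1
  simp only [Matrix.mul_apply, Fin.sum_univ_two, gamma0GL_apply, Matrix.of_apply,
    Matrix.cons_val', Matrix.cons_val_zero, Matrix.cons_val_one, Matrix.empty_val',
    Matrix.cons_val_fin_one] at e00 e01 e10 e11
  simp only [QMat.mul_def, QMat.ofSL, QMat.mk.injEq]
  refine ⟨?_, ?_, ?_, ?_⟩ <;> apply Rat.cast_injective (α := ℝ) <;> push_cast <;> assumption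

/-- The operator `T_ℓ` on potentials. -/
def potT (ℓ : ℕ) [NeZero ℓ] (h : ℚ × ℚ → k) : ℚ × ℚ → k :=
  fun P => ∑ i : OnePoint (ZMod ℓ), h ((tMat ℓ i).app P)

theorem tMat_app_ne_zero {ℓ : ℕ} [NeZero ℓ] (i : OnePoint (ZMod ℓ)) {P : ℚ × ℚ} (hP : P ≠ 0) :
    (tMat ℓ i).app P ≠ 0 :=
  QMat.app_ne_zero (by rw [det_tMat]; exact_mod_cast NeZero.ne ℓ) hP

theorem isHomog_potT {ℓ : ℕ} [NeZero ℓ] {h : ℚ × ℚ → k} (hh : IsHomog h) :
    IsHomog (potT ℓ h) := fun t P ht hP => by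
  simp only [potT, QMat.app_smul]
  exact Finset.sum_congr rfl fun i _ => hh t _ ht (tMat_app_ne_zero i hP)

theorem isPrim_potT {R : Type*} [CommRing R] [Module R k] {N : ℕ} [NeZero N] {ℓ : ℕ} [NeZero ℓ]
    (hℓ : ℓ.Prime) (hℓN : ¬ ℓ ∣ N) {x : Additive (Gamma0 N) →+ k} {h : ℚ × ℚ → k}
    (H : IsPrim x h) : IsPrim (heckeHom R N ℓ x) (potT ℓ h) := by
  haveI := Fact.mk hℓ
  refine ⟨isHomog_potT H.1, fun γ P hP => ?_⟩
  have e : heckeHom R N ℓ x (Additive.ofMul γ) =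
      ∑ i, x (Additive.ofMul ((repsT hℓN).cocyc γ i)) := by
    rw [heckeHom_of_not_dvd R hℓ hℓN]
    rfl
  rw [e]
  simp only [potT, ← QMat.app_mul, tMat_mul_ofSL hℓN]
  simp only [QMat.app_mul, H.2 _ _ (tMat_app_ne_zero _ hP), Finset.sum_add_distrib]
  congr 1
  exact Equiv.sum_comp ((repsT hℓN).permEquiv γ) (fun i => h ((tMat ℓ i).app P))

/-- `T_ℓ` commutes with `diag(q, 1)`. -/
theorem potT_comp_diag {N : ℕ} {y : Additive (Gamma0 N) →+ k} {h : ℚ × ℚ → k} (H : IsPrim y h)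
    {ℓ q : ℕ} [hℓ : Fact ℓ.Prime] [NeZero ℓ] (hq : ¬ ℓ ∣ q) (hq0 : q ≠ 0) {P : ℚ × ℚ}
    (hP : P ≠ 0) :
    potT ℓ (fun Q => h ((QMat.diag (q : ℚ) 1).app Q)) P =
      potT ℓ h ((QMat.diag (q : ℚ) 1).app P) := by
  have hq' : (q : ZMod ℓ) ≠ 0 := fun h0 => hq ((ZMod.natCast_eq_zero_iff _ _).mp h0)
  have hdq : (QMat.diag (q : ℚ) 1).det ≠ 0 := by simpa [QMat.det, QMat.diag] using hq0
  simp only [potT]
  refine Fintype.sum_equiv (Equiv.optionCongr (Equiv.mulLeft₀ (q : ZMod ℓ) hq')) _ _ fun i => ?_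
  induction i using OnePoint.rec with
  | infty =>
    show h _ = h ((tMat ℓ (∞ : OnePoint (ZMod ℓ))).app _)
    congr 1
    simp [QMat.app, QMat.diag]
    ring
  | coe j =>
    show h _ = h ((tMat ℓ (((q : ZMod ℓ) * j : ZMod ℓ) : OnePoint (ZMod ℓ))).app _)
    obtain ⟨m, hm⟩ : (ℓ : ℤ) ∣ (q : ℤ) * (j.val : ℤ) - (((q : ZMod ℓ) * j).val : ℤ) := by
      rw [← ZMod.intCast_zmod_eq_zero_iff_dvd]; simp
    rw [← H.transl_apply m (P := (tMat ℓ (((q : ZMod ℓ) * j : ZMod ℓ) : OnePoint (ZMod ℓ))).app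
      ((QMat.diag (q : ℚ) 1).app P)) (tMat_app_ne_zero _ (QMat.app_ne_zero hdq hP))]
    congr 1
    have hm' : (q : ℚ) * (j.val : ℕ) = (((q : ZMod ℓ) * j).val : ℕ) + (ℓ : ℚ) * m := by
      have : (q : ℤ) * (j.val : ℤ) = (((q : ZMod ℓ) * j).val : ℤ) + ℓ * m := by
        linear_combination hm
      exact_mod_cast this
    simp only [tMat_coe, QMat.app, QMat.diag, QMat.transl, Prod.mk.injEq]
    exact ⟨by linear_combination P.2 * hm', by ring⟩

/-! ### Functions on cusps -/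

/-- Every nonzero vector is a multiple of a primitive integral one. -/
theorem exists_primitive {P : ℚ × ℚ} (hP : P ≠ 0) :
    ∃ (t : ℚ) (u v : ℤ), t ≠ 0 ∧ IsCoprime u v ∧ P = t • ((u : ℚ), (v : ℚ)) := by
  set U : ℤ := P.1.num * P.2.den with hU
  set V : ℤ := P.2.num * P.1.den with hV
  have hd : ((P.1.den : ℚ) * P.2.den) ≠ 0 := by
    exact_mod_cast mul_ne_zero P.1.den_nz P.2.den_nz
  have hne : U ≠ 0 ∨ V ≠ 0 := by
    by_contra hc
    push_neg at hc
    apply hP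
    refine Prod.ext ?_ ?_
    · simpa [hU, P.2.den_nz] using hc.1
    · simpa [hV, P.1.den_nz] using hc.2
  obtain ⟨g, u, v, hg, huv, hu, hv⟩ := Int.exists_gcd_one' (m := U) (n := V)
    (Int.gcd_pos_iff.mpr hne)
  refine ⟨(g : ℚ) / ((P.1.den : ℚ) * P.2.den), u, v, ?_, Int.isCoprime_iff_gcd_eq_one.mpr huv, ?_⟩
  · exact div_ne_zero (by exact_mod_cast hg.ne') hd
  · have e1 : (P.1.num : ℚ) * P.2.den = u * g := by
      have : P.1.num * (P.2.den : ℤ) = u * g := by rw [← hu, hU]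
      exact_mod_cast this
    have e2 : (P.2.num : ℚ) * P.1.den = v * g := by
      have : P.2.num * (P.1.den : ℤ) = v * g := by rw [← hv, hV]
      exact_mod_cast this
    have f1 : (P.1.num : ℚ) = P.1 * P.1.den := (Rat.mul_den_eq_num _).symm
    have f2 : (P.2.num : ℚ) = P.2 * P.2.den := (Rat.mul_den_eq_num _).symm
    rw [f1] at e1
    rw [f2] at e2
    refine Prod.ext ?_ ?_
    · simp only [Prod.smul_fst, smul_eq_mul]
      field_simp
      linear_combination e1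
    · simp only [Prod.smul_snd, smul_eq_mul]
      field_simp
      linear_combination e2

/-- Congruent primitive vectors are related by `Γ₀(M)`. -/
theorem exists_gamma_of_congr {M : ℕ} {u v u' v' : ℤ} (h : IsCoprime u v) (h' : IsCoprime u' v')
    (hu : (M : ℤ) ∣ u' - u) (hv : (M : ℤ) ∣ v' - v) :
    ∃ γ : Gamma0 M,
      (QMat.ofSL (γ : SL(2, ℤ))).app ((u : ℚ), (v : ℚ)) = ((u' : ℚ), (v' : ℚ)) := by
  obtain ⟨x, y, hxy⟩ := h
  obtain ⟨x', y', hxy'⟩ := h'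
  set m₁ : SL(2, ℤ) := ⟨!![u, -y; v, x], by rw [Matrix.det_fin_two_of]; linear_combination hxy⟩
    with hm₁
  set m₂ : SL(2, ℤ) := ⟨!![u', -y'; v', x'], by rw [Matrix.det_fin_two_of]; linear_combination hxy'⟩
    with hm₂
  set s : ℤ := -(x * y') + y * x' with hs
  set U : SL(2, ℤ) := ⟨!![1, -s; 0, 1], by simp [Matrix.det_fin_two_of]⟩ with hU
  have hmem : m₂ * U * m₁⁻¹ ∈ Gamma0 M := by
    refine mem_Gamma0_of_dvd ?_
    obtain ⟨a, ha⟩ := hu
    obtain ⟨b, hb⟩ := hv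
    have hu' : u' = u + M * a := by linear_combination ha
    have hv' : v' = v + M * b := by linear_combination hb
    refine ⟨b * x + b * s * v + v * x * (b * y' + a * x'), ?_⟩
    simp only [Matrix.SpecialLinearGroup.coe_mul, Matrix.SpecialLinearGroup.coe_inv,
      Matrix.adjugate_fin_two]
    simp [hm₁, hm₂, hU, Matrix.mul_apply, Fin.sum_univ_two, hs]
    subst hu' hv'
    linear_combination (-(v * x)) * hxy' + (v * x') * hxy
  refine ⟨⟨_, hmem⟩, ?_⟩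
  have e : (QMat.ofSL m₁⁻¹).app ((u : ℚ), (v : ℚ)) = infPt := by
    have hxyQ : (x : ℚ) * u + y * v = 1 := by exact_mod_cast hxy
    simp only [QMat.ofSL, Matrix.SpecialLinearGroup.coe_inv, Matrix.adjugate_fin_two]
    simp [hm₁, QMat.app, infPt]
    exact ⟨by linear_combination hxyQ, by ring⟩
  simp only [QMat.ofSL_mul, QMat.app_mul, e]
  simp [hm₂, hU, QMat.ofSL, QMat.app, infPt]

/-- `T_ℓ` acts on functions on the cusps of `Γ₀(M)` as `ℓ + 1` when `ℓ ≡ 1 mod M`. -/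
theorem potT_invariant {M ℓ : ℕ} [hℓ : Fact ℓ.Prime] [NeZero ℓ] (hℓ1 : (ℓ : ZMod M) = 1)
    {f : ℚ × ℚ → k} (hf : IsPrim (0 : Additive (Gamma0 M) →+ k) f) {P : ℚ × ℚ} (hP : P ≠ 0) :
    potT ℓ f P = (ℓ + 1) • f P := by
  have hℓM : (M : ℤ) ∣ (ℓ : ℤ) - 1 := by
    rw [← ZMod.intCast_zmod_eq_zero_iff_dvd]; simp [hℓ1]
  have key : ∀ i : OnePoint (ZMod ℓ), f ((tMat ℓ i).app P) = f P := by
    intro i
    obtain ⟨t, u, v, ht, huv, rfl⟩ := exists_primitive hP
    have hne : ((u : ℚ), (v : ℚ)) ≠ 0 := by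
      intro h0
      simp only [Prod.ext_iff, Prod.fst_zero, Prod.snd_zero, Int.cast_eq_zero] at h0
      rw [h0.1, h0.2] at huv
      exact not_isCoprime_zero_zero huv
    rw [QMat.app_smul, hf.1 t _ ht (tMat_app_ne_zero _ hne), hf.1 t _ ht hne]
    obtain ⟨U, V, m, hUV, hu, hv, hdvd⟩ : ∃ U V m : ℤ,
        (QMat.transl (m : ℚ)).app ((tMat ℓ i).app ((u : ℚ), (v : ℚ))) = ((U : ℚ), (V : ℚ)) ∧
        (M : ℤ) ∣ U - u ∧ (M : ℤ) ∣ V - v ∧ ∀ g : ℤ, g ∣ U → g ∣ V → g ∣ ℓ := by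
      obtain ⟨x, y, hxy⟩ := huv
      induction i using OnePoint.rec with
      | infty =>
        refine ⟨ℓ * u, v, 0, ?_, ?_, by simp, fun g hgU hgV => ?_⟩
        · simp [QMat.app, QMat.transl]
        · rw [show (ℓ : ℤ) * u - u = ((ℓ : ℤ) - 1) * u by ring]
          exact dvd_mul_of_dvd_left hℓM _
        · rw [show (ℓ : ℤ) = x * (ℓ * u) + (ℓ * y) * v by linear_combination (-(ℓ : ℤ)) * hxy]
          exact dvd_add (dvd_mul_of_dvd_right hgU _) (dvd_mul_of_dvd_right hgV _)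
      | coe j =>
        obtain ⟨c, hc⟩ := hℓM
        refine ⟨u + ((j.val : ℤ) + ℓ * (-(j.val : ℤ))) * v, ℓ * v, -(j.val : ℤ), ?_, ?_, ?_,
          fun g hgU hgV => ?_⟩
        · simp only [tMat_coe, QMat.app, QMat.transl, Prod.mk.injEq]
          push_cast
          constructor <;> ring
        · exact ⟨-(j.val : ℤ) * c * v, by linear_combination (-(j.val : ℤ) * v) * hc⟩
        · exact ⟨c * v, by linear_combination v * hc⟩
        · rw [show (ℓ : ℤ) = x * ℓ * (u + ((j.val : ℤ) + ℓ * (-(j.val : ℤ))) * v) +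
            (y - x * ((j.val : ℤ) + ℓ * (-(j.val : ℤ)))) * (ℓ * v) by
              linear_combination (-(ℓ : ℤ)) * hxy]
          exact dvd_add (dvd_mul_of_dvd_right hgU _) (dvd_mul_of_dvd_right hgV _)
    have hne' : ((U : ℚ), (V : ℚ)) ≠ 0 :=
      hUV ▸ QMat.app_ne_zero (by simp [QMat.det, QMat.transl]) (tMat_app_ne_zero _ hne)
    rw [← hf.transl_apply m (tMat_app_ne_zero _ hne), hUV]
    obtain ⟨g, U', V', hg, hUV', hU', hV'⟩ := Int.exists_gcd_one' (m := U) (n := V)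
      (Int.gcd_pos_iff.mpr (by
        by_contra hc
        push_neg at hc
        exact hne' (by simp [hc.1, hc.2])))
    have hgℓ : g ∣ ℓ := by
      exact_mod_cast hdvd (g : ℤ) ⟨U', by rw [hU']; ring⟩ ⟨V', by rw [hV']; ring⟩
    have hg1 : (M : ℤ) ∣ (g : ℤ) - 1 := by
      rcases (Nat.dvd_prime hℓ.out).mp hgℓ with rfl | rfl
      · simp
      · exact hℓM
    obtain ⟨γ, hγ⟩ := exists_gamma_of_congr (M := M) huv
      (Int.isCoprime_iff_gcd_eq_one.mpr hUV') (u' := U') (v' := V')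
      (by
        rw [show U' - u = (U - u) - ((g : ℤ) - 1) * U' by rw [hU']; ring]
        exact dvd_sub hu (dvd_mul_of_dvd_left hg1 _))
      (by
        rw [show V' - v = (V - v) - ((g : ℤ) - 1) * V' by rw [hV']; ring]
        exact dvd_sub hv (dvd_mul_of_dvd_left hg1 _))
    have e : ((U : ℚ), (V : ℚ)) = (g : ℚ) • ((U' : ℚ), (V' : ℚ)) := by
      rw [hU', hV']; push_cast; simp [Prod.smul_mk]; constructor <;> ring
    rw [e, hf.1 _ _ (by exact_mod_cast hg.ne') (by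
      intro h0; rw [h0, smul_zero] at e; exact hne' e), ← hγ, hf.2 γ _ hne]
    simp
  simp only [potT, key, Finset.sum_const, Finset.card_univ]
  congr 1
  rw [show Fintype.card (OnePoint (ZMod ℓ)) = Fintype.card (Option (ZMod ℓ)) from
    Fintype.card_congr (Equiv.refl _), Fintype.card_option, ZMod.card]

end FLTA.LevelRaising
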