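/-
Ihara's lemma for `Γ₀(N)` with mod `p` coefficients: a pair of parabolic homomorphisms agreeing on
`Γ₀(N q)` through the two degeneracy maps is killed by `(T_ℓ - (ℓ + 1))²` for every prime
`ℓ ≡ 1 mod N q`.
-/
import Fermat.Agent.LevelRaising.IharaCongruence
import Fermat.Agent.LevelRaising.IharaCusps

set_option autoImplicit false

noncomputable section

namespace FLTA.LevelRaising

open CongruenceSubgroup ModularCurve.Period FLTA.Periods
open scoped MatrixGroups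

section bridge

variable {k : Type*} [Field k] {N : ℕ} [NeZero N] {q : ℕ} [NeZero q]

theorem isPrim_eisOp {ℓ : ℕ} [NeZero ℓ] (hℓ : ℓ.Prime) (hℓN : ¬ ℓ ∣ N)
    {x : Additive (Gamma0 N) →+ k} {h : ℚ × ℚ → k} (H : IsPrim x h) :
    IsPrim (eisOp k N ℓ x) (fun P => potT ℓ h P - ((ℓ : k) + 1) * h P) := by
  obtain ⟨hh, hT⟩ := isPrim_potT (R := k) hℓ hℓN H
  refine ⟨fun t P ht hP => by simp only [hh t P ht hP, H.1 t P ht hP], fun γ P hP => ?_⟩
  simp only [hT γ P hP, H.2 γ P hP, eisOp_apply, AddMonoidHom.sub_apply, AddMonoidHom.smul_apply,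
    smul_eq_mul]
  ring

theorem diag_mul_ofSL (γ : Gamma0 (N * q)) :
    QMat.diag (q : ℚ) 1 * QMat.ofSL (γ : SL(2, ℤ)) =
      QMat.ofSL ((conjHom N q γ : Gamma0 N) : SL(2, ℤ)) * QMat.diag (q : ℚ) 1 := by
  obtain ⟨c, hc⟩ := dvd_lowerLeft_right γ.2
  have hq : (q : ℤ) ≠ 0 := by exact_mod_cast NeZero.ne q
  simp only [QMat.diag, QMat.ofSL, QMat.mul_def, conjHom_coe, conjDiagMat]
  simp [hc, hq, mul_comm]

theorem diag_det_ne : (QMat.diag (q : ℚ) 1).det ≠ 0 := by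
  simpa [QMat.det, QMat.diag] using (NeZero.ne q)

/-- After applying `T_ℓ - (ℓ + 1)` the two potentials agree exactly. -/
theorem eisOp_potentials_eq {x y : Additive (Gamma0 N) →+ k}
    (hxy : ∀ γ : Gamma0 (N * q),
      x (Additive.ofMul (inclHom N q γ)) = y (Additive.ofMul (conjHom N q γ)))
    {h h' : ℚ × ℚ → k} (H : IsPrim x h) (H' : IsPrim y h')
    {ℓ : ℕ} [hℓ : Fact ℓ.Prime] [NeZero ℓ] (hℓq : ¬ ℓ ∣ q) (hℓ1 : (ℓ : ZMod (N * q)) = 1)
    {P : ℚ × ℚ} (hP : P ≠ 0) :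
    potT ℓ h P - ((ℓ : k) + 1) * h P =
      potT ℓ h' ((QMat.diag (q : ℚ) 1).app P) -
        ((ℓ : k) + 1) * h' ((QMat.diag (q : ℚ) 1).app P) := by
  set f : ℚ × ℚ → k := fun P => h P - h' ((QMat.diag (q : ℚ) 1).app P) with hf
  have Hf : IsPrim (0 : Additive (Gamma0 (N * q)) →+ k) f := by
    refine ⟨fun t P ht hP => ?_, fun γ P hP => ?_⟩
    · simp only [hf, QMat.app_smul, H.1 t P ht hP,
        H'.1 t _ ht (QMat.app_ne_zero diag_det_ne hP)]
    · have e1 : h ((QMat.ofSL (γ : SL(2, ℤ))).app P) = h P + x (Additive.ofMul (inclHom N q γ)) :=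
        H.2 (inclHom N q γ) P hP
      have e2 : h' ((QMat.diag (q : ℚ) 1).app ((QMat.ofSL (γ : SL(2, ℤ))).app P)) =
          h' ((QMat.diag (q : ℚ) 1).app P) + y (Additive.ofMul (conjHom N q γ)) := by
        rw [← QMat.app_mul, diag_mul_ofSL, QMat.app_mul]
        exact H'.2 _ _ (QMat.app_ne_zero diag_det_ne hP)
      simp only [hf, e1, e2, hxy γ, AddMonoidHom.zero_apply, add_zero]
      ring
  have key := potT_invariant hℓ1 Hf hP
  have hd := potT_comp_diag H' hℓq (NeZero.ne q) hP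
  simp only [potT, hf, Finset.sum_sub_distrib, nsmul_eq_mul] at key hd
  push_cast at key
  simp only [potT]
  linear_combination key + hd

/-- A homomorphism with a potential for `Γ₀(N)` over `ℤ[1/q]` is killed by `T_ℓ - (ℓ + 1)`,
`ℓ ≡ 1 mod N`. -/
theorem eisOp_eq_zero_of_pot {p : ℕ} [CharP k p] (hp : p.Prime) (hp2 : p ≠ 2) (hq : q.Prime)
    (hqN : ¬ q ∣ N) {ℓ : ℕ} (hℓ : ℓ.Prime) (hℓN : ¬ ℓ ∣ N) (hℓ1 : (ℓ : ZMod N) = 1)
    {x : Additive (Gamma0 N) →+ k} {h : ℚ × ℚ → k} (H : IsPrim x h) (HP : IsPot N q h) :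
    eisOp k N ℓ x = 0 := by
  haveI := Fact.mk hℓ
  haveI : NeZero ℓ := ⟨hℓ.ne_zero⟩
  have hcop : ∀ γ : Gamma0 N, IsCoprime ((γ : SL(2, ℤ)) 0 0) ((γ : SL(2, ℤ)) 1 0) := fun γ =>
    ⟨(γ : SL(2, ℤ)) 1 1, -(γ : SL(2, ℤ)) 0 1, by
      have := Matrix.SpecialLinearGroup.det_coe (γ : SL(2, ℤ))
      rw [Matrix.det_fin_two] at this
      linear_combination this⟩
  have hcongr : ∀ γ γ' : Gamma0 N, (N : ℤ) ∣ (γ : SL(2, ℤ)) 0 0 - (γ' : SL(2, ℤ)) 0 0 →
      x (Additive.ofMul γ) = x (Additive.ofMul γ') := by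
    intro γ γ' hd
    rw [← H.per_eq', ← H.per_eq', FLTA.LevelRaising.per_eq, FLTA.LevelRaising.per_eq]
    simp only [QMat.ofSL]
    rw [pot_congr HP hp hp2 hq hqN (NeZero.ne N) (hcop γ) (dvd_of_mem_Gamma0 γ.2) (hcop γ')
      (dvd_of_mem_Gamma0 γ'.2) hd]
  refine AddMonoidHom.ext fun z => ?_
  obtain ⟨γ, rfl⟩ := Additive.ofMul.surjective z
  have e : heckeHom k N ℓ x (Additive.ofMul γ) =
      ∑ i, x (Additive.ofMul ((repsT hℓN).cocyc γ i)) := by
    rw [heckeHom_of_not_dvd k hℓ hℓN]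
    rfl
  have hc : ∀ i, x (Additive.ofMul ((repsT hℓN).cocyc γ i)) = x (Additive.ofMul γ) := by
    intro i
    refine hcongr _ _ ?_
    have e2 := congrArg QMat.a (tMat_mul_ofSL hℓN γ i)
    set γ' := (repsT hℓN).cocyc γ i
    set j := (repsT hℓN).perm γ i
    obtain ⟨c, hc'⟩ := dvd_of_mem_Gamma0 γ.2
    have hC : (((γ : SL(2, ℤ)) 1 0 : ℤ) : ZMod N) = 0 :=
      (ZMod.intCast_zmod_eq_zero_iff_dvd _ _).mpr ⟨c, hc'⟩
    rw [← ZMod.intCast_zmod_eq_zero_iff_dvd, Int.cast_sub, sub_eq_zero]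
    clear_value γ' j
    induction i using OnePoint.rec with
    | infty =>
      induction j using OnePoint.rec with
      | infty =>
        simp [QMat.mul_def, QMat.ofSL] at e2
        have e3 : (ℓ : ℤ) * (γ : SL(2, ℤ)) 0 0 = (γ' : SL(2, ℤ)) 0 0 * (ℓ : ℤ) := by
          exact_mod_cast e2
        have := congrArg (Int.cast : ℤ → ZMod N) e3
        push_cast at this
        simpa [hℓ1] using this.symm
      | coe t =>
        simp [QMat.mul_def, QMat.ofSL, -ZMod.natCast_val] at e2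
        have e3 : (ℓ : ℤ) * (γ : SL(2, ℤ)) 0 0 = (γ' : SL(2, ℤ)) 0 0 := by exact_mod_cast e2
        have := congrArg (Int.cast : ℤ → ZMod N) e3
        push_cast at this
        simpa [hℓ1] using this.symm
    | coe s =>
      induction j using OnePoint.rec with
      | infty =>
        simp [QMat.mul_def, QMat.ofSL, -ZMod.natCast_val] at e2
        have e3 : (γ : SL(2, ℤ)) 0 0 + (s.val : ℤ) * (γ : SL(2, ℤ)) 1 0 =
            (γ' : SL(2, ℤ)) 0 0 * (ℓ : ℤ) := by exact_mod_cast e2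
        have := congrArg (Int.cast : ℤ → ZMod N) e3
        push_cast [-ZMod.natCast_val] at this
        simpa [hℓ1, hC] using this.symm
      | coe t =>
        simp [QMat.mul_def, QMat.ofSL, -ZMod.natCast_val] at e2
        have e3 : (γ : SL(2, ℤ)) 0 0 + (s.val : ℤ) * (γ : SL(2, ℤ)) 1 0 =
            (γ' : SL(2, ℤ)) 0 0 := by exact_mod_cast e2
        have := congrArg (Int.cast : ℤ → ZMod N) e3
        push_cast [-ZMod.natCast_val] at this
        simpa [hℓ1, hC] using this.symm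
  rw [eisOp_apply, AddMonoidHom.sub_apply, e, AddMonoidHom.smul_apply, smul_eq_mul,
    Finset.sum_congr rfl fun i _ => hc i, Finset.sum_const, Finset.card_univ, nsmul_eq_mul,
    show Fintype.card (OnePoint (ZMod ℓ)) = Fintype.card (Option (ZMod ℓ)) from
      Fintype.card_congr (Equiv.refl _), Fintype.card_option, ZMod.card, AddMonoidHom.zero_apply]
  push_cast
  ring

end bridge

variable {k : Type*} [Field k] {p : ℕ} [CharP k p] {N : ℕ} [NeZero N] {q : ℕ} [NeZero q]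

/-- **Ihara's lemma**. -/
theorem ihara (hp : p.Prime) (hp2 : p ≠ 2) (hq : q.Prime) (hqN : ¬ q ∣ N)
    {ℓ : ℕ} (hℓ : ℓ.Prime) (hℓ1 : (ℓ : ZMod (N * q)) = 1)
    {x y : Additive (Gamma0 N) →+ k}
    (hx : IsParabolicHom (Gamma0 N) x) (hy : IsParabolicHom (Gamma0 N) y)
    (hxy : ∀ γ : Gamma0 (N * q),
      x (Additive.ofMul (inclHom N q γ)) = y (Additive.ofMul (conjHom N q γ))) :
    eisOp k N ℓ (eisOp k N ℓ x) = 0 ∧ eisOp k N ℓ (eisOp k N ℓ y) = 0 := by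
  haveI := Fact.mk hℓ
  haveI : NeZero ℓ := ⟨hℓ.ne_zero⟩
  have hℓdvd : ¬ ℓ ∣ N * q := by
    intro hd
    have h0 : (N * q : ℕ) ≠ 0 := mul_ne_zero (NeZero.ne N) (NeZero.ne q)
    have h1 : ((ℓ : ℤ) : ZMod (N * q)) = ((1 : ℤ) : ZMod (N * q)) := by simpa using hℓ1
    have h2 : ((N * q : ℕ) : ℤ) ∣ 1 - (ℓ : ℤ) := (ZMod.intCast_eq_intCast_iff_dvd_sub _ _ _).mp h1
    have h3 : (ℓ : ℤ) ∣ 1 - (ℓ : ℤ) := (Int.natCast_dvd_natCast.mpr hd).trans h2
    have h4 : (ℓ : ℤ) ∣ 1 := by simpa using dvd_add h3 (dvd_refl (ℓ : ℤ))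
    exact hℓ.one_lt.ne' (Nat.dvd_one.mp (by exact_mod_cast h4))
  have hℓN : ¬ ℓ ∣ N := fun hd => hℓdvd (hd.trans (dvd_mul_right N q))
  have hℓq : ¬ ℓ ∣ q := fun hd => hℓdvd (hd.trans (dvd_mul_left q N))
  have hℓ1N : (ℓ : ZMod N) = 1 := by
    have := congrArg (ZMod.castHom (dvd_mul_right N q) (ZMod N)) hℓ1
    simpa using this
  obtain ⟨h, H⟩ := exists_isPrim hx
  obtain ⟨h', H'⟩ := exists_isPrim hy
  set h₁ : ℚ × ℚ → k := fun P => potT ℓ h P - ((ℓ : k) + 1) * h P with hh₁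
  set h₁' : ℚ × ℚ → k := fun P => potT ℓ h' P - ((ℓ : k) + 1) * h' P with hh₁'
  have H₁ : IsPrim (eisOp k N ℓ x) h₁ := isPrim_eisOp hℓ hℓN H
  have H₁' : IsPrim (eisOp k N ℓ y) h₁' := isPrim_eisOp hℓ hℓN H'
  have heq : ∀ P : ℚ × ℚ, P ≠ 0 → h₁ P = h₁' ((QMat.diag (q : ℚ) 1).app P) := fun P hP =>
    eisOp_potentials_eq hxy H H' hℓq hℓ1 hP
  have hq0 : (q : ℚ) ≠ 0 := by exact_mod_cast hq.ne_zero
  have hdet : (QMat.diag (q : ℚ) 1).det ≠ 0 := diag_det_ne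
  have hdetSL : ∀ g : SL(2, ℤ), (conjUp q g).det = 1 := fun g => by
    have := QMat.det_ofSL g
    simp only [QMat.det, conjUp, QMat.ofSL] at this ⊢
    rw [← this]
    field_simp
  have HP : IsPot N q h₁ := by
    refine isPot_of_generators H₁.1 hq hqN
      (fun g hg => H₁.isInv ⟨g, mem_Gamma0_of_dvd hg⟩) fun g hg => ?_
    refine IsInv.of_const (by rw [hdetSL]; norm_num)
      (eisOp k N ℓ y (Additive.ofMul ⟨g, mem_Gamma0_of_dvd hg⟩)) fun P hP => ?_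
    rw [heq _ (QMat.app_ne_zero (by rw [hdetSL]; norm_num) hP), heq P hP,
      ← H₁'.2 _ _ (QMat.app_ne_zero hdet hP)]
    congr 1
    simp only [conjUp, QMat.ofSL, QMat.diag, QMat.app, Prod.mk.injEq]
    constructor <;> field_simp <;> ring
  have HP' : IsPot N q h₁' := by
    refine ⟨H₁'.1, fun g hg => ?_⟩
    obtain ⟨hd, ha, hb, hd', c, hc, hgc⟩ := hg
    set g' : QMat := ⟨g.a, g.b / q, q * g.c, g.d⟩ with hg'
    have hg'Δ : InGamma0Q N q g' := by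
      refine ⟨?_, ha, ?_, hd', q * c, (IsQInt.natCast q).mul hc, by rw [hg']; simp [hgc]; ring⟩
      · simp only [QMat.det, hg'] at hd ⊢
        rw [← hd]
        field_simp
      · simpa using hb.div_pow 1
    refine IsInv.of_const (by rw [hd]; norm_num) (per h₁ g') fun P hP => ?_
    have hQ : (P.1 / (q : ℚ), P.2) ≠ (0 : ℚ × ℚ) := by
      intro h0
      simp only [Prod.ext_iff, Prod.fst_zero, Prod.snd_zero, div_eq_zero_iff] at h0
      exact hP (Prod.ext (h0.1.resolve_right hq0) h0.2)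
    have e := (HP.inv _ hg'Δ).apply hQ
    rw [heq _ (QMat.app_ne_zero (by rw [hg'Δ.1]; norm_num) hQ), heq _ hQ] at e
    simp only [hg', QMat.app, QMat.diag] at e ⊢
    convert e using 3 <;> field_simp <;> simp [hq0]
  exact ⟨eisOp_eq_zero_of_pot hp hp2 hq hqN hℓ hℓN hℓ1N H₁ HP,
    eisOp_eq_zero_of_pot hp hp2 hq hqN hℓ hℓN hℓ1N H₁' HP'⟩

end FLTA.LevelRaising
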