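/-
The heart of level raising: a mod `p` eigenvector of level `N` with `T_q ≡ e (q + 1)` gives a
vector of the `q`-new lattice of level `N q` whose reduction is an eigenvector with `U_q ≡ e`.

With `ι = (incl, conj)` and its adjoint `π = (cor, cor ∘ w)`, Ihara's lemma and the perfectness of
the pairing show that `η²` maps everything into the image of `π` modulo `p`; a determinant trick
lifts the reduction of `ι (v, - e v)` to the kernel of `π` over `ℤ`.
-/
import Fermat.Agent.LevelRaising.AssemblyAdjoint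
import Fermat.Agent.LevelRaising.IharaMain
import Fermat.Agent.Gamma0.Complex.Main
import Mathlib.LinearAlgebra.Charpoly.Basic

set_option autoImplicit false

noncomputable section

namespace FLTA.LevelRaising

open CongruenceSubgroup ModularCurve.Period FLTA.Periods FLTA.Gamma0 Polynomial
open scoped MatrixGroups

/-- Refined parabolic homomorphisms of `Γ₀(M)` with values in `R`. -/
abbrev ParH (R : Type*) [CommRing R] (M : ℕ) : Type _ := homPar0 R (Gamma0 M) R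

/-- If `r ∘ f = c • r` and `p r = 0` then `r (P(f) x) = cⁿ r x` for `P ≡ Xⁿ mod p`. -/
theorem semiconj_aeval {M V k : Type*} [CommRing k] [AddCommGroup M] [AddCommGroup V]
    [Module k V] (r : M →+ V) (f : Module.End ℤ M) (c : k) (P : ℤ[X]) (hP : P.Monic) {p : ℕ}
    (hk : (p : k) = 0) (hlow : ∀ i < P.natDegree, (p : ℤ) ∣ P.coeff i) {x : M}
    (hf : ∀ i, r ((f ^ i) x) = c ^ i • r x) :
    r (aeval f P x) = c ^ P.natDegree • r x := by
  rw [aeval_eq_sum_range, LinearMap.sum_apply, map_sum, Finset.sum_range_succ,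
    hP.coeff_natDegree, one_smul, hf, Finset.sum_eq_zero, zero_add]
  intro i hi
  obtain ⟨d, hd⟩ := hlow i (Finset.mem_range.mp hi)
  have e1 : (P.coeff i • f ^ i) x = P.coeff i • ((f ^ i) x) := by simp
  rw [e1, map_zsmul, hf, hd, ← Int.cast_smul_eq_zsmul k,
    Int.cast_mul, Int.cast_natCast, hk, zero_mul, zero_smul]

/-- Intertwined endomorphisms stay intertwined after applying a polynomial. -/
theorem intertwine_aeval {M M' : Type*} [AddCommGroup M] [AddCommGroup M']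
    (r : M →ₗ[ℤ] M')
    (f : Module.End ℤ M) (g : Module.End ℤ M') (hfg : ∀ x, r (f x) = g (r x)) (P : ℤ[X]) (x : M) :
    r (aeval f P x) = aeval g P (r x) := by
  induction P using Polynomial.induction_on' with
  | add P Q hP hQ => simp [hP, hQ]
  | monomial n a =>
    have hn : ∀ n, r ((f ^ n) x) = (g ^ n) (r x) := by
      intro n
      induction n with
      | zero => simp
      | succ n ih => rw [pow_succ', pow_succ', Module.End.mul_apply, hfg, ih, Module.End.mul_apply]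
    simp [aeval_monomial, Module.algebraMap_end_apply, hn]

/-- The determinant trick: if `F` maps into `range π + p B`, then a vector killed by `π` modulo `p`
lifts, up to `P(G)` with `P ≡ Xⁿ mod p`, to the kernel of `π`. -/
theorem exists_lift_ker {p : ℕ} {A B : Type*} [AddCommGroup A] [AddCommGroup B]
    [Module.Finite ℤ B] (π : A →ₗ[ℤ] B) (G : Module.End ℤ A) (F : Module.End ℤ B)
    (hπ : ∀ y, π (G y) = F (π y)) (hF : ∀ u, ∃ y d, F u = π y + (p : ℤ) • d) {x : A} {u : B}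
    (hx : π x = (p : ℤ) • u) :
    ∃ (P : ℤ[X]) (y : A), P.Monic ∧ (∀ i < P.natDegree, (p : ℤ) ∣ P.coeff i) ∧
      π (aeval G P x - (p : ℤ) • y) = 0 := by
  have hIF : LinearMap.range π ≤ Submodule.comap F (LinearMap.range π) := by
    rintro _ ⟨y, rfl⟩
    exact ⟨G y, hπ y⟩
  haveI : Module.Finite ℤ (B ⧸ LinearMap.range π) := Module.Finite.quotient ℤ _
  let Fc : (B ⧸ LinearMap.range π) →ₗ[ℤ] B ⧸ LinearMap.range π := (LinearMap.range π).mapQ _ F hIF
  have hFc : Fc = (LinearMap.range π).mapQ _ F hIF := rfl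
  have hrange : LinearMap.range Fc ≤
      Ideal.span {(p : ℤ)} • (⊤ : Submodule ℤ (B ⧸ LinearMap.range π)) := by
    rintro _ ⟨w, rfl⟩
    obtain ⟨w, rfl⟩ := Submodule.Quotient.mk_surjective _ w
    obtain ⟨y, d, hd⟩ := hF w
    rw [hFc, Submodule.mapQ_apply, hd, Submodule.Quotient.mk_add,
      (Submodule.Quotient.mk_eq_zero _).mpr (LinearMap.mem_range_self π y), zero_add, Submodule.Quotient.mk_smul]
    exact Submodule.smul_mem_smul (Ideal.mem_span_singleton_self _) Submodule.mem_top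
  obtain ⟨P, hPm, -, hPc, hP0⟩ :=
    LinearMap.exists_monic_and_natDegree_eq_and_coeff_mem_pow_and_aeval_eq_zero ℤ Fc _ hrange
  obtain ⟨y, hy⟩ : aeval F P u ∈ LinearMap.range π := by
    rw [← Submodule.Quotient.mk_eq_zero]
    have := intertwine_aeval (LinearMap.range π).mkQ F Fc (fun _ => rfl) P u
    rw [hP0] at this
    exact this
  refine ⟨P, y, hPm, fun i hi => Ideal.mem_span_singleton.mp
    (Ideal.pow_le_self (by omega) (hPc i)), ?_⟩
  rw [map_sub, map_smul, intertwine_aeval π G F hπ, hy, hx, map_smul, sub_self]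

/-- `π = (cor, cor ∘ w)`. -/
def degPush (R : Type*) [CommRing R] (N q : ℕ) [NeZero N] [NeZero q] (h : Nat.Coprime q N) :
    ParH R (N * q) →ₗ[R] ParH R N × ParH R N :=
  (cor0 N q).prod ((cor0 N q).comp (al0 h))

/-- `ι = (incl, conj)`. -/
def degPull (R : Type*) [CommRing R] (N q : ℕ) [NeZero N] [NeZero q] :
    ParH R N × ParH R N →ₗ[R] ParH R (N * q) :=
  (incl0 N q).coprod (conj0 N q)

/-- `T_ℓ - (ℓ + 1)` on refined parabolic homomorphisms. -/
def eis0 (R : Type*) [CommRing R] (M : ℕ) [NeZero M] (ℓ : ℕ) : Module.End R (ParH R M) :=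
  parOp R M ℓ - ((ℓ : R) + 1) • LinearMap.id

theorem eis0_apply {R : Type*} [CommRing R] (M : ℕ) [NeZero M] (ℓ : ℕ) (φ : ParH R M) :
    eis0 R M ℓ φ = parOp R M ℓ φ - ((ℓ : R) + 1) • φ := rfl

theorem coe_eis0 {R : Type*} [CommRing R] (M : ℕ) [NeZero M] (ℓ : ℕ) (φ : ParH R M) :
    (eis0 R M ℓ φ).1 = eisOp R M ℓ φ.1 := rfl

section field

variable {k : Type*} [Field k] {p : ℕ} [CharP k p] {N q : ℕ} [NeZero N] [NeZero q]

theorem cupB_degPull (h : Nat.Coprime q N) (w : ParH k N × ParH k N) (y : ParH k (N * q)) :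
    cupB k (N * q) (degPull k N q w) y =
      cupB k N w.1 (degPush k N q h y).1 + cupB k N w.2 (degPush k N q h y).2 := by
  simp only [degPull, degPush, LinearMap.coprod_apply, map_add, LinearMap.add_apply,
    cupB_incl0, cupB_conj0 h]
  rfl

/-- Ihara's lemma for refined parabolic homomorphisms. -/
theorem eis0_sq_of_degPull (hp : p.Prime) (hp2 : p ≠ 2) (hq : q.Prime) (hqN : ¬ q ∣ N)
    {ℓ : ℕ} (hℓ : ℓ.Prime) (hℓ1 : (ℓ : ZMod (N * q)) = 1) {w : ParH k N × ParH k N}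
    (hw : degPull k N q w = 0) :
    eis0 k N ℓ (eis0 k N ℓ w.1) = 0 ∧ eis0 k N ℓ (eis0 k N ℓ w.2) = 0 := by
  have hxy : ∀ γ : Gamma0 (N * q), w.1.1 (Additive.ofMul (inclHom N q γ)) =
      (-w.2.1 : Additive (Gamma0 N) →+ k) (Additive.ofMul (conjHom N q γ)) := by
    intro γ
    have e := DFunLike.congr_fun (congrArg Subtype.val hw) (Additive.ofMul γ)
    rw [AddMonoidHom.neg_apply]
    exact eq_neg_of_add_eq_zero_left e
  obtain ⟨h1, h2⟩ := ihara (k := k) hp hp2 hq hqN hℓ hℓ1 (isParabolicHom_of_isParHom0 w.1.2)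
    (isParabolicHom_of_isParHom0 (show FLTA.Gamma0.IsParHom0 (Gamma0 N) (-w.2.1) from (-w.2).2)) hxy
  rw [map_neg, map_neg, neg_eq_zero] at h2
  exact ⟨Subtype.ext h1, Subtype.ext h2⟩

/-- Modulo `p`, `η²` maps everything into the image of `π`. -/
theorem eis0_sq_mem_range (hp : p.Prime) (hp2 : p ≠ 2) (hq : q.Prime) (hqN : ¬ q ∣ N)
    (h : Nat.Coprime q N) {ℓ : ℕ} (hℓ : ℓ.Prime) (hℓ1 : (ℓ : ZMod (N * q)) = 1)
    (hℓN : ¬ ℓ ∣ N) (v : ParH k N × ParH k N) :
    ∃ y, degPush k N q h y = (eis0 k N ℓ (eis0 k N ℓ v.1), eis0 k N ℓ (eis0 k N ℓ v.2)) := by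
  by_contra hcon
  push_neg at hcon
  set u := (eis0 k N ℓ (eis0 k N ℓ v.1), eis0 k N ℓ (eis0 k N ℓ v.2)) with hu
  obtain ⟨φ, hφ, hφm⟩ := Submodule.exists_dual_map_eq_bot_of_notMem
    (p := LinearMap.range (degPush k N q h)) (x := u)
    (fun ⟨y, hy⟩ => hcon y hy) inferInstance
  have hbij := cupPairing_bijective (k := k) (neg_one_mem_gamma0 N)
  obtain ⟨w₁, hw₁⟩ := hbij.2 (φ.comp (LinearMap.inl k _ _))
  obtain ⟨w₂, hw₂⟩ := hbij.2 (φ.comp (LinearMap.inr k _ _))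
  have hφe : ∀ z : ParH k N × ParH k N, φ z = cupB k N w₁ z.1 + cupB k N w₂ z.2 := by
    intro z
    rw [cupB, hw₁, hw₂, LinearMap.comp_apply, LinearMap.comp_apply, ← map_add]
    simp
  have hker : degPull k N q (w₁, w₂) = 0 := by
    refine cupPairing_eq_zero_left (neg_one_mem_gamma0 (N * q)) _ fun y => ?_
    have hy : φ (degPush k N q h y) ∈ Submodule.map φ (LinearMap.range (degPush k N q h)) :=
      Submodule.mem_map_of_mem ⟨y, rfl⟩
    rw [hφm, Submodule.mem_bot, hφe] at hy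
    rw [← hy]
    exact cupB_degPull h (w₁, w₂) y
  obtain ⟨e1, e2⟩ := eis0_sq_of_degPull hp hp2 hq hqN hℓ hℓ1 hker
  apply hφ
  have sa : ∀ a b : ParH k N, cupB k N (eis0 k N ℓ a) b = cupB k N a (eis0 k N ℓ b) := by
    intro a b
    simp only [eis0_apply, map_sub, LinearMap.sub_apply, map_smul, LinearMap.smul_apply,
      cupB_parOp hℓ hℓN]
  rw [hφe, hu, ← sa, ← sa, ← sa, ← sa, e1, e2]
  simp

end field

section lattice

variable {p : ℕ} [Fact p.Prime] {N q : ℕ} [NeZero N] [NeZero q]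

/-- Reduction modulo `p`. -/
def redP (p M : ℕ) : ParH ℤ M →ₗ[ℤ] ParH (ZMod p) M :=
  ({ toFun := mapCoeff (Int.castRingHom (ZMod p))
     map_zero' := Subtype.ext (AddMonoidHom.ext fun _ => Int.cast_zero)
     map_add' := fun φ ψ => Subtype.ext (AddMonoidHom.ext fun z => Int.cast_add _ _) } :
    ParH ℤ M →+ ParH (ZMod p) M).toIntLinearMap

theorem redP_apply (M : ℕ) (φ : ParH ℤ M) :
    redP p M φ = mapCoeff (Int.castRingHom (ZMod p)) φ := rfl

theorem redP_surjective (M : ℕ) [NeZero M] : Function.Surjective (redP p M) := by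
  intro ψ
  obtain ⟨φ, hφ⟩ := homPar0Map_surjective M (Int.castAddHom (ZMod p)) ZMod.intCast_surjective
    ⟨ψ.1, ψ.2⟩
  exact ⟨⟨φ.1, φ.2⟩, Subtype.ext (congrArg Subtype.val hφ)⟩

theorem exists_eq_smul_of_redP {M : ℕ} {φ : ParH ℤ M} (h : redP p M φ = 0) :
    ∃ ψ, φ = (p : ℤ) • ψ := by
  have hd : ∀ z, (p : ℤ) ∣ φ.1 z := fun z =>
    (ZMod.intCast_zmod_eq_zero_iff_dvd _ _).mp (DFunLike.congr_fun (congrArg Subtype.val h) z)
  refine ⟨⟨AddMonoidHom.mk' (fun z => φ.1 z / p) fun a b => by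
      rw [map_add, Int.add_ediv_of_dvd_left (hd a)], fun γ hγ => by simp [φ.2 γ hγ]⟩, ?_⟩
  refine Subtype.ext (AddMonoidHom.ext fun z => ?_)
  exact (Int.mul_ediv_cancel' (hd z)).symm

theorem redP_smul_p {M : ℕ} (φ : ParH ℤ M) : redP p M ((p : ℤ) • φ) = 0 := by
  rw [map_smul, ← Int.cast_smul_eq_zsmul (ZMod p)]
  simp

theorem redP_sub_smul_p {M : ℕ} (φ ψ : ParH ℤ M) :
    redP p M (φ - (p : ℤ) • ψ) = redP p M φ := by
  rw [map_sub, redP_smul_p, sub_zero]

theorem redP_smul {M : ℕ} (n : ℤ) (φ : ParH ℤ M) :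
    redP p M (n • φ) = (n : ZMod p) • redP p M φ := by
  rw [map_smul]
  exact (Int.cast_smul_eq_zsmul (ZMod p) n _).symm

theorem redP_parOp {M : ℕ} [NeZero M] (ℓ : ℕ) (φ : ParH ℤ M) :
    redP p M (parOp ℤ M ℓ φ) = parOp (ZMod p) M ℓ (redP p M φ) :=
  mapCoeff_parOp _ ℓ φ

theorem redP_eis0 {M : ℕ} [NeZero M] (ℓ : ℕ) (φ : ParH ℤ M) :
    redP p M (eis0 ℤ M ℓ φ) = eis0 (ZMod p) M ℓ (redP p M φ) := by
  rw [eis0_apply, eis0_apply, map_sub, redP_parOp, redP_smul]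
  push_cast
  rfl

theorem degPush_parOp (h : Nat.Coprime q N) {ℓ : ℕ} (hℓ : ℓ.Prime) (hℓM : ¬ ℓ ∣ N * q)
    (y : ParH ℤ (N * q)) :
    degPush ℤ N q h (parOp ℤ (N * q) ℓ y) =
      (parOp ℤ N ℓ (degPush ℤ N q h y).1, parOp ℤ N ℓ (degPush ℤ N q h y).2) :=
  Prod.ext (cor0_parOp_int hℓ hℓM y) (cor0_al0_parOp_int h hℓ hℓM y)

/-- On the kernel of `π` the operator `U_q` is `-w`. -/
theorem parOp_q_of_ker (hq : q.Prime) (hqN : ¬ q ∣ N) (h : Nat.Coprime q N) {z : ParH ℤ (N * q)}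
    (hz : degPush ℤ N q h z = 0) : parOp ℤ (N * q) q z = -al0 h z := by
  haveI := Fact.mk hq
  refine eq_neg_of_add_eq_zero_left (Subtype.ext ?_)
  show heckeHom ℤ (N * q) q z.1 + alRes h z.1 = 0
  rw [← inclRes_corRes_alRes ℤ hqN h (isParabolicHom_of_isParHom0 z.2)]
  have h2 : (cor0 N q (al0 h z) : ParH ℤ N).1 = 0 := congrArg Subtype.val (congrArg Prod.snd hz)
  rw [coe_cor0, coe_al0] at h2
  rw [h2]
  rfl

theorem degPush_al0 (h : Nat.Coprime q N) {z : ParH ℤ (N * q)} (hz : degPush ℤ N q h z = 0) :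
    degPush ℤ N q h (al0 h z) = 0 := by
  refine Prod.ext (congrArg Prod.snd hz) ?_
  show cor0 N q (al0 h (al0 h z)) = 0
  rw [al0_al0]
  exact congrArg Prod.fst hz

set_option maxHeartbeats 1000000 in
/-- **Lifting**: the reduction of `ι (v, - e v)` lifts to the kernel of `π`. -/
theorem exists_kernel_vector (hp2 : p ≠ 2) (hq : q.Prime) (hqN : ¬ q ∣ N) (h : Nat.Coprime q N)
    {ℓ₀ : ℕ} (hℓ₀ : ℓ₀.Prime) (hℓ₀1 : (ℓ₀ : ZMod (N * q)) = 1) (hℓ₀M : ¬ ℓ₀ ∣ N * q)
    {v : ParH (ZMod p) N} (hv : v ≠ 0) {α : ZMod p} (hα : parOp (ZMod p) N ℓ₀ v = α • v)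
    (hα1 : α ≠ (ℓ₀ : ZMod p) + 1)
    {e : ℤ} (he : e = 1 ∨ e = -1)
    (hTq : parOp (ZMod p) N q v = ((e : ZMod p) * ((q : ZMod p) + 1)) • v) :
    ∃ (z : ParH ℤ (N * q)) (s : ZMod p), degPush ℤ N q h z = 0 ∧ s ≠ 0 ∧
      redP p (N * q) z = s • (incl0 N q v - (e : ZMod p) • conj0 N q v) ∧
      incl0 N q v - (e : ZMod p) • conj0 N q v ≠ 0 := by
  haveI := Fact.mk hq
  have hp : p.Prime := Fact.out
  have hℓ₀N : ¬ ℓ₀ ∣ N := fun hd => hℓ₀M (hd.trans (dvd_mul_right N q))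
  have hee : (e : ZMod p) * e = 1 := by rcases he with rfl | rfl <;> norm_num
  set c : ZMod p := α - ((ℓ₀ : ZMod p) + 1) with hc
  have hc0 : c ≠ 0 := sub_ne_zero.mpr hα1
  have hηv : eis0 (ZMod p) N ℓ₀ v = c • v := by rw [eis0_apply, hα, hc]; exact (sub_smul _ _ _).symm
  set x₀ := incl0 N q v - (e : ZMod p) • conj0 N q v with hx₀
  -- the vector is nonzero by Ihara's lemma
  have hx₀ne : x₀ ≠ 0 := by
    intro h0
    have hw : degPull (ZMod p) N q (v, -(e : ZMod p) • v) = 0 := by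
      rw [← h0, hx₀]
      simp only [degPull, sub_eq_add_neg, LinearMap.coprod_apply, map_smul]
      exact congrArg (incl0 N q v + ·) (neg_smul (e : ZMod p) (conj0 N q v))
    have := (eis0_sq_of_degPull hp hp2 hq hqN hℓ₀ hℓ₀1 hw).1
    simp only [hηv, map_smul, smul_smul] at this
    exact hv ((smul_eq_zero.mp this).resolve_left (mul_ne_zero hc0 hc0))
  -- an integral lift
  obtain ⟨vt, hvt⟩ := redP_surjective (p := p) N v
  set x : ParH ℤ (N * q) := incl0 N q vt - e • conj0 N q vt with hx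
  have hrx : redP p (N * q) x = x₀ := by
    rw [hx, map_sub, redP_smul, hx₀, ← hvt]
    rfl
  obtain ⟨u₁, hu₁⟩ : ∃ u, (degPush ℤ N q h x).1 = (p : ℤ) • u := by
    refine exists_eq_smul_of_redP ?_
    have : (degPush ℤ N q h x).1 = ((q : ℤ) + 1) • vt - e • parOp ℤ N q vt := by
      simp [degPush, hx, map_sub, map_smul, cor0_incl0 hqN, cor0_conj0 hqN]
    rw [this, map_sub, redP_smul, redP_smul, redP_parOp, hvt, hTq, smul_smul]
    push_cast
    rw [← mul_assoc, hee, one_mul, sub_self]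
  obtain ⟨u₂, hu₂⟩ : ∃ u, (degPush ℤ N q h x).2 = (p : ℤ) • u := by
    refine exists_eq_smul_of_redP ?_
    have : (degPush ℤ N q h x).2 = parOp ℤ N q vt - e • (((q : ℤ) + 1) • vt) := by
      simp [degPush, hx, map_sub, map_smul, al0_incl0, al0_conj0, cor0_incl0 hqN, cor0_conj0 hqN]
    rw [this, map_sub, redP_smul, redP_smul, redP_parOp, hvt, hTq, smul_smul]
    push_cast
    rw [sub_self]
  -- the determinant trick on the cokernel of `π`
  set F : Module.End ℤ (ParH ℤ N × ParH ℤ N) :=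
    LinearMap.prodMap (eis0 ℤ N ℓ₀ * eis0 ℤ N ℓ₀) (eis0 ℤ N ℓ₀ * eis0 ℤ N ℓ₀) with hF
  set G : Module.End ℤ (ParH ℤ (N * q)) := eis0 ℤ (N * q) ℓ₀ * eis0 ℤ (N * q) ℓ₀ with hG
  have hπ1 : ∀ y, degPush ℤ N q h (eis0 ℤ (N * q) ℓ₀ y) =
      (eis0 ℤ N ℓ₀ (degPush ℤ N q h y).1, eis0 ℤ N ℓ₀ (degPush ℤ N q h y).2) := by
    intro y
    rw [eis0_apply, map_sub, map_smul, degPush_parOp h hℓ₀ hℓ₀M]
    rfl
  have hπ : ∀ y, degPush ℤ N q h (G y) = F (degPush ℤ N q h y) := by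
    intro y
    rw [hG, Module.End.mul_apply, hπ1, hπ1]
    rfl
  have hFp : ∀ u, ∃ y d, F u = degPush ℤ N q h y + (p : ℤ) • d := by
    intro u
    obtain ⟨y, hy⟩ := eis0_sq_mem_range (k := ZMod p) hp hp2 hq hqN h hℓ₀ hℓ₀1 hℓ₀N
      (redP p N u.1, redP p N u.2)
    obtain ⟨yt, hyt⟩ := redP_surjective (p := p) (N * q) y
    have hred : redP p N (degPush ℤ N q h yt).1 = (degPush (ZMod p) N q h y).1 ∧
        redP p N (degPush ℤ N q h yt).2 = (degPush (ZMod p) N q h y).2 := by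
      rw [← hyt]
      refine ⟨mapCoeff_cor0 _ yt, ?_⟩
      show mapCoeff _ (cor0 N q (al0 h yt)) = _
      rw [mapCoeff_cor0, mapCoeff_al0]
      rfl
    obtain ⟨d₁, hd₁⟩ : ∃ d, (F u).1 - (degPush ℤ N q h yt).1 = (p : ℤ) • d := by
      refine exists_eq_smul_of_redP ?_
      rw [map_sub, hred.1, hy]
      simp [hF, redP_eis0]
    obtain ⟨d₂, hd₂⟩ : ∃ d, (F u).2 - (degPush ℤ N q h yt).2 = (p : ℤ) • d := by
      refine exists_eq_smul_of_redP ?_
      rw [map_sub, hred.2, hy]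
      simp [hF, redP_eis0]
    have heq : F u = degPush ℤ N q h yt + (p : ℤ) • (d₁, d₂) := by
      refine Prod.ext ?_ ?_
      · rw [Prod.fst_add, Prod.smul_fst, ← hd₁, add_sub_cancel]
      · rw [Prod.snd_add, Prod.smul_snd, ← hd₂, add_sub_cancel]
    exact ⟨yt, (d₁, d₂), heq⟩
  haveI := finite_homPar0 N ℤ
  obtain ⟨P, y', hPm, hlow, hπz⟩ := exists_lift_ker (degPush ℤ N q h) G F hπ hFp
    (u := (u₁, u₂)) (Prod.ext hu₁ hu₂ : degPush ℤ N q h x = (p : ℤ) • (u₁, u₂))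
  set z : ParH ℤ (N * q) := aeval G P x - (p : ℤ) • y' with hz
  refine ⟨z, (c * c) ^ P.natDegree, hπz, pow_ne_zero _ (mul_ne_zero hc0 hc0), ?_, hx₀ne⟩
  refine (redP_sub_smul_p (aeval G P x) y').trans ?_
  have hG1 : eis0 (ZMod p) (N * q) ℓ₀ x₀ = c • x₀ := by
    rw [eis0_apply, hx₀, map_sub, map_smul, parOp_incl0 hℓ₀ hℓ₀M, parOp_conj0 hℓ₀ hℓ₀M, hα,
      map_smul, map_smul, hc]
    refine Subtype.ext (AddMonoidHom.ext fun γ => ?_)
    simp only [Submodule.coe_sub, Submodule.coe_smul, AddMonoidHom.sub_apply,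
      AddMonoidHom.smul_apply, smul_eq_mul]
    ring
  have hGi : ∀ i, redP p (N * q) ((G ^ i) x) = (c * c) ^ i • redP p (N * q) x := by
    intro i
    induction i with
    | zero => simp
    | succ i ih =>
      rw [pow_succ', Module.End.mul_apply, hG, Module.End.mul_apply, redP_eis0, redP_eis0, ← hG,
        ih, hrx, map_smul, map_smul, hG1, map_smul, hG1, smul_smul, smul_smul, pow_succ,
        mul_assoc]
  rw [← hrx]
  exact semiconj_aeval (k := ZMod p) (redP p (N * q)).toAddMonoidHom G (c * c) P hPm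
    (ZMod.natCast_self p) hlow hGi

end lattice

end FLTA.LevelRaising
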