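/-
The Atkin–Lehner automorphism of `Γ₀(N q)` exchanging the two degeneracy homomorphisms, and the
bijection between `Γ₀(N) / Γ₀(N q)` and the `q + 1` representatives of `T_q`.
-/
import Fermat.Agent.LevelRaising.IharaCusps
import Fermat.Agent.Gamma0.Complex.CupTransfer
import Fermat.Agent.Gamma0.Complex.CupCongr

set_option autoImplicit false

noncomputable section

namespace FLTA.LevelRaising

open CongruenceSubgroup ModularCurve.Period FLTA.Periods UpperHalfPlane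
open scoped MatrixGroups OnePoint

variable {N q : ℕ}

theorem gamma0_mul_le (N q : ℕ) : Gamma0 (N * q) ≤ Gamma0 N :=
  fun _ hγ => mem_Gamma0_of_dvd (dvd_lowerLeft_left hγ)

theorem neg_one_mem_gamma0 (M : ℕ) : (-1 : SL(2, ℤ)) ∈ Gamma0 M :=
  mem_Gamma0_of_dvd (by simp)

theorem ofSL_injective {g g' : SL(2, ℤ)} (h : QMat.ofSL g = QMat.ofSL g') : g = g' := by
  simp only [QMat.ofSL, QMat.mk.injEq, Int.cast_inj] at h
  obtain ⟨h1, h2, h3, h4⟩ := h
  ext i j
  fin_cases i <;> fin_cases j <;> assumption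

theorem qmat_mul_assoc (f g h : QMat) : f * g * h = f * (g * h) := by
  simp only [QMat.mul_def, QMat.mk.injEq]
  refine ⟨?_, ?_, ?_, ?_⟩ <;> ring

theorem qmat_mul_right_cancel {f g h : QMat} (hh : h.det ≠ 0) (e : f * h = g * h) : f = g := by
  have e' : f * h * h.adj = g * h * h.adj := by rw [e]
  rw [qmat_mul_assoc, qmat_mul_assoc, QMat.mul_adj] at e'
  simp only [QMat.mul_def, QMat.mk.injEq, mul_zero, zero_mul, add_zero, zero_add] at e'
  obtain ⟨h1, h2, h3, h4⟩ := e'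
  exact QMat.ext (mul_right_cancel₀ hh h1) (mul_right_cancel₀ hh h2) (mul_right_cancel₀ hh h3)
    (mul_right_cancel₀ hh h4)

theorem qmat_mul_left_cancel {f g h : QMat} (hh : h.det ≠ 0) (e : h * f = h * g) : f = g := by
  have e' : h.adj * (h * f) = h.adj * (h * g) := by rw [e]
  rw [← qmat_mul_assoc, ← qmat_mul_assoc, QMat.adj_mul] at e'
  simp only [QMat.mul_def, QMat.mk.injEq, mul_zero, zero_mul, add_zero, zero_add] at e'
  obtain ⟨h1, h2, h3, h4⟩ := e'
  exact QMat.ext (mul_left_cancel₀ hh h1) (mul_left_cancel₀ hh h2) (mul_left_cancel₀ hh h3)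
    (mul_left_cancel₀ hh h4)

/-- The matrix `diag(q, 1)`. -/
abbrev degMat (q : ℕ) : QMat := QMat.diag (q : ℚ) 1

theorem degMat_mul_ofSL [NeZero q] (γ : Gamma0 (N * q)) :
    degMat q * QMat.ofSL (γ : SL(2, ℤ)) =
      QMat.ofSL ((conjHom N q γ : Gamma0 N) : SL(2, ℤ)) * degMat q := by
  obtain ⟨c, hc⟩ := dvd_lowerLeft_right γ.2
  have hq : (q : ℤ) ≠ 0 := by exact_mod_cast NeZero.ne q
  simp only [QMat.diag, QMat.ofSL, QMat.mul_def, conjHom_coe, conjDiagMat]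
  simp [hc, hq, mul_comm]

theorem det_degMat_ne [NeZero q] : (degMat q).det ≠ 0 := by
  simpa [QMat.det, QMat.diag] using (NeZero.ne q)

/-- Data for the Atkin–Lehner matrix. -/
theorem exists_alData (h : Nat.Coprime q N) : ∃ ab : ℤ × ℤ, (q : ℤ) * ab.1 - N * ab.2 = 1 := by
  obtain ⟨x, y, hxy⟩ : IsCoprime (q : ℤ) (N : ℤ) :=
    Int.isCoprime_iff_nat_coprime.mpr (by simpa using h)
  exact ⟨(x, -y), by linear_combination hxy⟩

section al

variable (h : Nat.Coprime q N)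

/-- `γ₁ = (a b; N q)`. -/
def alGamma (h : Nat.Coprime q N) : Gamma0 N :=
  ⟨⟨!![(exists_alData h).choose.1, (exists_alData h).choose.2; (N : ℤ), (q : ℤ)], by
    rw [Matrix.det_fin_two_of]; linear_combination (exists_alData h).choose_spec⟩,
    mem_Gamma0_of_dvd (by simp)⟩

theorem alGamma_apply_one : ((alGamma h : Gamma0 N) : SL(2, ℤ)) 1 0 = N ∧
    ((alGamma h : Gamma0 N) : SL(2, ℤ)) 1 1 = q := by
  simp [alGamma]

/-- The Atkin–Lehner matrix. -/
def alMat : QMat := QMat.ofSL ((alGamma h : Gamma0 N) : SL(2, ℤ)) * degMat q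

theorem det_alMat_ne [NeZero q] : (alMat h).det ≠ 0 := by
  simp only [alMat, QMat.det_mul, QMat.det_ofSL, one_mul]
  exact det_degMat_ne

theorem alConj_mem [NeZero q] (γ : Gamma0 (N * q)) :
    ((alGamma h * conjHom N q γ * (alGamma h)⁻¹ : Gamma0 N) : SL(2, ℤ)) ∈ Gamma0 (N * q) := by
  refine mem_Gamma0_of_dvd ?_
  push_cast
  refine IsCoprime.mul_dvd ?_ (dvd_of_mem_Gamma0 (alGamma h * conjHom N q γ * (alGamma h)⁻¹).2) ?_
  · exact Int.isCoprime_iff_nat_coprime.mpr (by simpa using h.symm)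
  · obtain ⟨e1, e2⟩ := alGamma_apply_one h
    simp only [Matrix.SpecialLinearGroup.coe_mul, Matrix.SpecialLinearGroup.coe_inv,
      Matrix.mul_apply, Fin.sum_univ_two, Matrix.adjugate_fin_two, conjHom_coe, conjDiagMat]
    simp only [e1, e2, Matrix.of_apply, Matrix.cons_val', Matrix.cons_val_zero,
      Matrix.cons_val_one, Matrix.empty_val', Matrix.cons_val_fin_one]
    exact dvd_add (dvd_mul_of_dvd_right (dvd_refl _) _)
      (dvd_mul_of_dvd_left (dvd_add (dvd_mul_of_dvd_right (dvd_mul_right _ _) _)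
        (dvd_mul_right _ _)) _)

/-- The Atkin–Lehner endomorphism of `Γ₀(N q)`. -/
def alHom [NeZero q] : Gamma0 (N * q) →* Gamma0 (N * q) where
  toFun γ := ⟨_, alConj_mem h γ⟩
  map_one' := by apply Subtype.ext; simp
  map_mul' γ δ := by apply Subtype.ext; simp [mul_assoc]

theorem inclHom_alHom [NeZero q] (γ : Gamma0 (N * q)) :
    inclHom N q (alHom h γ) = alGamma h * conjHom N q γ * (alGamma h)⁻¹ :=
  Subtype.ext rfl

theorem alMat_mul [NeZero q] (γ : Gamma0 (N * q)) :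
    alMat h * QMat.ofSL (γ : SL(2, ℤ)) =
      QMat.ofSL ((alHom h γ : Gamma0 (N * q)) : SL(2, ℤ)) * alMat h := by
  rw [← inclHom_coe (alHom h γ), inclHom_alHom h]
  simp only [alMat, qmat_mul_assoc, degMat_mul_ofSL]
  simp only [← qmat_mul_assoc, ← QMat.ofSL_mul, Subgroup.coe_mul, InvMemClass.coe_inv,
    inv_mul_cancel_right]

/-- `γ₀ = (q a b; N 1)`. -/
def alGamma' : Gamma0 N :=
  ⟨⟨!![(q : ℤ) * (exists_alData h).choose.1, (exists_alData h).choose.2; (N : ℤ), 1], by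
    rw [Matrix.det_fin_two_of]; linear_combination (exists_alData h).choose_spec⟩,
    mem_Gamma0_of_dvd (by simp)⟩

theorem degMat_mul_alMat : degMat q * alMat h =
    ⟨q, 0, 0, q⟩ * QMat.ofSL ((alGamma' h : Gamma0 N) : SL(2, ℤ)) := by
  simp only [alMat, alGamma, alGamma', QMat.diag, QMat.ofSL, QMat.mul_def, QMat.mk.injEq]
  simp
  ring_nf
  simp

theorem conjHom_alHom [NeZero q] (γ : Gamma0 (N * q)) :
    conjHom N q (alHom h γ) = alGamma' h * inclHom N q γ * (alGamma' h)⁻¹ := by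
  apply Subtype.ext
  apply ofSL_injective
  refine qmat_mul_right_cancel (h := degMat q * alMat h)
    (by rw [QMat.det_mul]; exact mul_ne_zero det_degMat_ne (det_alMat_ne h)) ?_
  have e1 : QMat.ofSL ((conjHom N q (alHom h γ) : Gamma0 N) : SL(2, ℤ)) * (degMat q * alMat h) =
      degMat q * alMat h * QMat.ofSL (γ : SL(2, ℤ)) := by
    rw [← qmat_mul_assoc, ← degMat_mul_ofSL, qmat_mul_assoc, ← alMat_mul, ← qmat_mul_assoc]
  have hs : ∀ g : QMat, g * ⟨(q : ℚ), 0, 0, q⟩ = (⟨(q : ℚ), 0, 0, q⟩ : QMat) * g := fun g => by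
    simp only [QMat.mul_def, QMat.mk.injEq]; refine ⟨?_, ?_, ?_, ?_⟩ <;> ring
  rw [e1, degMat_mul_alMat]
  rw [← qmat_mul_assoc _ (⟨(q : ℚ), 0, 0, q⟩ : QMat), hs, qmat_mul_assoc, qmat_mul_assoc,
    ← QMat.ofSL_mul, ← QMat.ofSL_mul]
  simp [Subgroup.coe_mul, inv_mul_cancel_right]

/-- `W² = q γ₂` with `γ₂ ∈ Γ₀(N q)`. -/
def alGamma2 : Gamma0 (N * q) :=
  let a := (exists_alData h).choose.1
  let b := (exists_alData h).choose.2
  ⟨⟨!![(q : ℤ) * a ^ 2 + b * N, a * b + b; (N : ℤ) * q * (a + 1), b * N + q], by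
    rw [Matrix.det_fin_two_of]
    linear_combination ((q : ℤ) * a - N * b + 1) * (exists_alData h).choose_spec⟩,
    mem_Gamma0_of_dvd (by simp)⟩

theorem alMat_mul_alMat : alMat h * alMat h =
    ⟨q, 0, 0, q⟩ * QMat.ofSL ((alGamma2 h : Gamma0 (N * q)) : SL(2, ℤ)) := by
  simp only [alMat, alGamma, alGamma2, QMat.diag, QMat.ofSL, QMat.mul_def, QMat.mk.injEq]
  simp
  refine ⟨?_, ?_, ?_, ?_⟩ <;> ring

theorem alHom_alHom [NeZero q] (γ : Gamma0 (N * q)) :
    alHom h (alHom h γ) = alGamma2 h * γ * (alGamma2 h)⁻¹ := by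
  apply Subtype.ext
  apply ofSL_injective
  refine qmat_mul_right_cancel (h := alMat h * alMat h)
    (by rw [QMat.det_mul]; exact mul_ne_zero (det_alMat_ne h) (det_alMat_ne h)) ?_
  have e1 : QMat.ofSL ((alHom h (alHom h γ) : Gamma0 (N * q)) : SL(2, ℤ)) * (alMat h * alMat h) =
      alMat h * alMat h * QMat.ofSL (γ : SL(2, ℤ)) := by
    rw [← qmat_mul_assoc, ← alMat_mul, qmat_mul_assoc, ← alMat_mul, ← qmat_mul_assoc]
  have hs : ∀ g : QMat, g * ⟨(q : ℚ), 0, 0, q⟩ = (⟨(q : ℚ), 0, 0, q⟩ : QMat) * g := fun g => by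
    simp only [QMat.mul_def, QMat.mk.injEq]; refine ⟨?_, ?_, ?_, ?_⟩ <;> ring
  rw [e1, alMat_mul_alMat]
  rw [← qmat_mul_assoc _ (⟨(q : ℚ), 0, 0, q⟩ : QMat), hs, qmat_mul_assoc, qmat_mul_assoc,
    ← QMat.ofSL_mul, ← QMat.ofSL_mul]
  simp [Subgroup.coe_mul, inv_mul_cancel_right]

theorem alHom_bijective [NeZero q] : Function.Bijective (alHom h) := by
  constructor
  · intro γ δ e
    have e1 := congrArg (fun g => alHom h g) e
    simp only [alHom_alHom] at e1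
    simpa using e1
  · intro γ
    exact ⟨alHom h ((alGamma2 h)⁻¹ * γ * alGamma2 h), by rw [alHom_alHom]; group⟩

/-- The Atkin–Lehner automorphism. -/
def alEquiv [NeZero q] : Gamma0 (N * q) ≃* Gamma0 (N * q) :=
  MulEquiv.ofBijective (alHom h) (alHom_bijective h)

@[simp] theorem alEquiv_apply [NeZero q] (γ : Gamma0 (N * q)) : alEquiv h γ = alHom h γ := rfl

theorem trace_alHom [NeZero q] (γ : Gamma0 (N * q)) :
    ((alHom h γ : Gamma0 (N * q)) : SL(2, ℤ)).1.trace = (γ : SL(2, ℤ)).1.trace := by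
  have := congrArg QMat.det (alMat_mul h γ)
  have e := alMat_mul h γ
  have key : ∀ X G G' : QMat, X.det ≠ 0 → X * G = G' * X → G'.a + G'.d = G.a + G.d := by
    intro X G G' hX he
    have h1 := congrArg (fun m => X.adj * m) he
    simp only [← qmat_mul_assoc, QMat.adj_mul] at h1
    simp only [QMat.mul_def, QMat.adj, QMat.mk.injEq] at h1
    obtain ⟨ha, -, -, hd⟩ := h1
    refine mul_left_cancel₀ hX ?_
    simp only [QMat.det] at ha hd ⊢
    linear_combination -ha - hd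
  have h2 := key _ _ _ (det_alMat_ne h) e
  simp only [QMat.ofSL] at h2
  rw [Matrix.trace_fin_two, Matrix.trace_fin_two]
  exact_mod_cast h2

/-- The quadratic form `P ↦ det [P, g P]`. -/
def wedgeSelf (g : QMat) (P : ℚ × ℚ) : ℚ := P.1 * (g.app P).2 - P.2 * (g.app P).1

theorem wedgeSelf_conj {X G G' : QMat} (hX : X * G = G' * X) (P : ℚ × ℚ) :
    wedgeSelf G' (X.app P) = X.det * wedgeSelf G P := by
  unfold wedgeSelf
  rw [← QMat.app_mul, ← hX, QMat.app_mul]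
  simp only [QMat.app, QMat.det]
  ring

theorem isPosParabolic_alHom [NeZero q] (γ : Gamma0 (N * q))
    (hγ : FLTA.Gamma0.IsPosParabolic (γ : SL(2, ℤ))) :
    FLTA.Gamma0.IsPosParabolic ((alHom h γ : Gamma0 (N * q)) : SL(2, ℤ)) := by
  obtain ⟨htr, hne, hb, hc⟩ := hγ
  refine ⟨by rw [trace_alHom, htr], fun h1 => hne ?_, ?_⟩
  · have : γ = 1 := (alHom_bijective h).1 (by rw [map_one]; exact Subtype.ext h1)
    rw [this]; rfl
  have htrQ : ((γ : SL(2, ℤ)) 0 0 : ℚ) + ((γ : SL(2, ℤ)) 1 1 : ℚ) = 2 := by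
    rw [Matrix.trace_fin_two] at htr; exact_mod_cast htr
  have hdetQ : ((γ : SL(2, ℤ)) 0 0 : ℚ) * ((γ : SL(2, ℤ)) 1 1 : ℚ) -
      ((γ : SL(2, ℤ)) 0 1 : ℚ) * ((γ : SL(2, ℤ)) 1 0 : ℚ) = 1 := by
    simpa [QMat.det, QMat.ofSL] using QMat.det_ofSL (γ : SL(2, ℤ))
  have hbQ : (0 : ℚ) ≤ ((γ : SL(2, ℤ)) 0 1 : ℚ) := by exact_mod_cast hb
  have hcQ : ((γ : SL(2, ℤ)) 1 0 : ℚ) ≤ 0 := by exact_mod_cast hc
  have hQ : ∀ P : ℚ × ℚ, wedgeSelf (QMat.ofSL (γ : SL(2, ℤ))) P ≤ 0 := by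
    intro P
    simp only [wedgeSelf, QMat.app, QMat.ofSL]
    rcases eq_or_lt_of_le hcQ with hc0 | hc0
    · have had : ((γ : SL(2, ℤ)) 0 0 : ℚ) = 1 ∧ ((γ : SL(2, ℤ)) 1 1 : ℚ) = 1 := by
        rw [hc0, mul_zero, sub_zero] at hdetQ
        constructor <;> nlinarith [sq_nonneg (((γ : SL(2, ℤ)) 0 0 : ℚ) - 1)]
      rw [hc0, had.1, had.2]
      nlinarith [mul_nonneg hbQ (mul_self_nonneg P.2)]
    · generalize ((γ : SL(2, ℤ)) 0 0 : ℚ) = a, ((γ : SL(2, ℤ)) 0 1 : ℚ) = b,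
        ((γ : SL(2, ℤ)) 1 0 : ℚ) = c, ((γ : SL(2, ℤ)) 1 1 : ℚ) = d at htrQ hdetQ hbQ hc0 ⊢
      set X : ℚ := P.1 * (c * P.1 + d * P.2) - P.2 * (a * P.1 + b * P.2) with hX
      have h4 : 4 * c * X = (2 * c * P.1 + (d - a) * P.2) ^ 2 := by
        rw [hX]
        linear_combination (-(P.2 ^ 2) * (a + d + 2)) * htrQ + (4 * P.2 ^ 2) * hdetQ
      nlinarith [sq_nonneg (2 * c * P.1 + (d - a) * P.2)]
  have hdet : 0 < (alMat h).det := by
    simp only [alMat, QMat.det_mul, QMat.det_ofSL, one_mul]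
    simpa [QMat.det, QMat.diag] using Nat.pos_of_ne_zero (NeZero.ne q)
  have key : ∀ Q, wedgeSelf (QMat.ofSL ((alHom h γ : Gamma0 (N * q)) : SL(2, ℤ))) Q ≤ 0 := by
    intro Q
    obtain ⟨P, rfl⟩ : ∃ P, (alMat h).app P = Q :=
      ⟨((alMat h).det)⁻¹ • (alMat h).adj.app Q, by
        rw [QMat.app_smul, ← QMat.app_mul, QMat.mul_adj]
        simp [QMat.app, Prod.ext_iff, hdet.ne']⟩
    rw [wedgeSelf_conj (alMat_mul h γ)]
    exact mul_nonpos_of_nonneg_of_nonpos hdet.le (hQ P)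
  constructor
  · have := key (0, 1)
    simp only [wedgeSelf, QMat.app, QMat.ofSL] at this
    norm_num at this
    exact_mod_cast this
  · have := key (1, 0)
    simp only [wedgeSelf, QMat.app, QMat.ofSL] at this
    norm_num at this
    exact_mod_cast this

end al

/-! ### Classification of the cosets -/

theorem tMat_unique {ℓ : ℕ} [Fact ℓ.Prime] {η : SL(2, ℤ)} {i j : OnePoint (ZMod ℓ)}
    (e : QMat.ofSL η * tMat ℓ i = tMat ℓ j) : i = j := by
  have hℓ : ℓ.Prime := Fact.out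
  induction i using OnePoint.rec with
  | infty =>
    induction j using OnePoint.rec with
    | infty => rfl
    | coe t =>
      exfalso
      have ea := congrArg QMat.a e
      simp [QMat.mul_def, QMat.ofSL] at ea
      have : (η 0 0) * (ℓ : ℤ) = 1 := by exact_mod_cast ea
      exact hℓ.one_lt.ne' (Nat.dvd_one.mp (by exact_mod_cast Dvd.intro_left _ this))
  | coe s =>
    induction j using OnePoint.rec with
    | infty =>
      exfalso
      have ec := congrArg QMat.c e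
      have ed := congrArg QMat.d e
      simp [QMat.mul_def, QMat.ofSL, -ZMod.natCast_val] at ec ed
      rw [ec] at ed
      simp at ed
      have : (η 1 1) * (ℓ : ℤ) = 1 := by exact_mod_cast ed
      exact hℓ.one_lt.ne' (Nat.dvd_one.mp (by exact_mod_cast Dvd.intro_left _ this))
    | coe t =>
      have ea := congrArg QMat.a e
      have eb := congrArg QMat.b e
      simp [QMat.mul_def, QMat.ofSL, -ZMod.natCast_val] at ea eb
      rw [ea] at eb
      simp [-ZMod.natCast_val] at eb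
      have : (s.val : ℤ) + (η 0 1) * (ℓ : ℤ) = (t.val : ℤ) := by exact_mod_cast eb
      have := congrArg (Int.cast : ℤ → ZMod ℓ) this
      simp at this
      rw [this]

/-- Every `diag(q,1) m`, `m ∈ Γ₀(N)`, lies in the coset of one of the representatives. -/
theorem exists_rep {q : ℕ} [hq : Fact q.Prime] (hqN : ¬ q ∣ N) (m : Gamma0 N) :
    ∃ (i : OnePoint (ZMod q)) (γ' : Gamma0 N),
      degMat q * QMat.ofSL (m : SL(2, ℤ)) = QMat.ofSL (γ' : SL(2, ℤ)) * tMat q i := by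
  haveI : NeZero q := ⟨hq.out.ne_zero⟩
  by_cases hc : (((m : SL(2, ℤ)) 1 0 : ℤ) : ZMod q) = 0
  · obtain ⟨c, hc'⟩ := (ZMod.intCast_zmod_eq_zero_iff_dvd _ _).mp hc
    have hq0 : (q : ℤ) ≠ 0 := by exact_mod_cast hq.out.ne_zero
    have hdet := Matrix.SpecialLinearGroup.det_coe (m : SL(2, ℤ))
    rw [Matrix.det_fin_two] at hdet
    refine ⟨∞, ⟨⟨!![(m : SL(2, ℤ)) 0 0, (q : ℤ) * (m : SL(2, ℤ)) 0 1; c, (m : SL(2, ℤ)) 1 1], ?_⟩,
      ?_⟩, ?_⟩
    · rw [Matrix.det_fin_two_of]; rw [hc'] at hdet; linear_combination hdet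
    · refine mem_Gamma0_of_dvd ?_
      have hcop : IsCoprime (N : ℤ) (q : ℤ) := Int.isCoprime_iff_nat_coprime.mpr
        (by simpa using (hq.out.coprime_iff_not_dvd.mpr hqN).symm)
      have := dvd_of_mem_Gamma0 m.2
      rw [hc'] at this
      simpa using hcop.dvd_of_dvd_mul_left this
    · simp [tMat_infty, QMat.diag, QMat.mul_def, QMat.ofSL, hc', mul_comm]
  · set j : ZMod q := (((m : SL(2, ℤ)) 1 1 : ℤ) : ZMod q) * ((((m : SL(2, ℤ)) 1 0 : ℤ) : ZMod q))⁻¹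
      with hj
    obtain ⟨w, hw⟩ : (q : ℤ) ∣ (m : SL(2, ℤ)) 1 1 - (m : SL(2, ℤ)) 1 0 * (j.val : ℤ) := by
      rw [← ZMod.intCast_zmod_eq_zero_iff_dvd]
      push_cast
      rw [ZMod.natCast_zmod_val, hj]
      field_simp
      ring
    have hdet := Matrix.SpecialLinearGroup.det_coe (m : SL(2, ℤ))
    rw [Matrix.det_fin_two] at hdet
    refine ⟨(j : OnePoint (ZMod q)), ⟨⟨!![(q : ℤ) * (m : SL(2, ℤ)) 0 0,
        (m : SL(2, ℤ)) 0 1 - (m : SL(2, ℤ)) 0 0 * (j.val : ℤ); (m : SL(2, ℤ)) 1 0, w], ?_⟩,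
      mem_Gamma0_of_dvd (by simpa using dvd_of_mem_Gamma0 m.2)⟩, ?_⟩
    · rw [Matrix.det_fin_two_of]
      linear_combination hdet - (m : SL(2, ℤ)) 0 0 * hw
    · have hwQ : ((m : SL(2, ℤ)) 1 1 : ℚ) = ((m : SL(2, ℤ)) 1 0 : ℚ) * (j.val : ℕ) + (q : ℚ) * w := by
        have : (m : SL(2, ℤ)) 1 1 = (m : SL(2, ℤ)) 1 0 * (j.val : ℤ) + (q : ℤ) * w := by
          linear_combination hw
        exact_mod_cast this
      simp [tMat_coe, QMat.diag, QMat.mul_def, QMat.ofSL, -ZMod.natCast_val]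
      exact ⟨by ring, by linear_combination hwQ⟩

end FLTA.LevelRaising
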