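/-
Identities between restriction, corestriction, Atkin–Lehner and Hecke operators, read off from
potentials.
-/
import Fermat.Agent.LevelRaising.AssemblyAtkinLehner
import Fermat.Agent.LevelRaising.IharaOdd

set_option autoImplicit false

noncomputable section

namespace FLTA.LevelRaising

open CongruenceSubgroup ModularCurve.Period FLTA.Periods UpperHalfPlane FLTA.Gamma0
open scoped MatrixGroups OnePoint

variable {A : Type*} [AddCommGroup A] {N q : ℕ}

/-- Homomorphisms with potentials differing by a constant are equal. -/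
theorem eq_of_isPrim {M : ℕ} {x x' : Additive (Gamma0 M) →+ A} {h h' : ℚ × ℚ → A}
    (H : IsPrim x h) (H' : IsPrim x' h') (c : A) (he : ∀ P : ℚ × ℚ, P ≠ 0 → h P = h' P + c) :
    x = x' := by
  refine AddMonoidHom.ext fun z => ?_
  obtain ⟨γ, rfl⟩ := Additive.ofMul.surjective z
  have e1 := H.2 γ infPt infPt_ne_zero
  have e2 := H'.2 γ infPt infPt_ne_zero
  rw [he _ (QMat.app_ne_zero (by simp) infPt_ne_zero), he _ infPt_ne_zero, e2] at e1
  calc x (Additive.ofMul γ)
      = (h' infPt + c + x (Additive.ofMul γ)) - h' infPt - c := by abel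
    _ = x' (Additive.ofMul γ) := by rw [← e1]; abel

/-- Restriction along the inclusion. -/
def inclRes (N q : ℕ) (x : Additive (Gamma0 N) →+ A) : Additive (Gamma0 (N * q)) →+ A :=
  x.comp (MonoidHom.toAdditive (inclHom N q))

/-- Restriction along the conjugation. -/
def conjRes (N q : ℕ) [NeZero q] (x : Additive (Gamma0 N) →+ A) :
    Additive (Gamma0 (N * q)) →+ A :=
  x.comp (MonoidHom.toAdditive (conjHom N q))

/-- The Atkin–Lehner operator. -/
def alRes [NeZero q] (h : Nat.Coprime q N) (y : Additive (Gamma0 (N * q)) →+ A) :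
    Additive (Gamma0 (N * q)) →+ A :=
  y.comp (MonoidHom.toAdditive (alHom h))

@[simp] theorem inclRes_apply (x : Additive (Gamma0 N) →+ A) (γ : Gamma0 (N * q)) :
    inclRes N q x (Additive.ofMul γ) = x (Additive.ofMul (inclHom N q γ)) := rfl

@[simp] theorem conjRes_apply [NeZero q] (x : Additive (Gamma0 N) →+ A) (γ : Gamma0 (N * q)) :
    conjRes N q x (Additive.ofMul γ) = x (Additive.ofMul (conjHom N q γ)) := rfl

@[simp] theorem alRes_apply [NeZero q] (h : Nat.Coprime q N)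
    (y : Additive (Gamma0 (N * q)) →+ A) (γ : Gamma0 (N * q)) :
    alRes h y (Additive.ofMul γ) = y (Additive.ofMul (alHom h γ)) := rfl

theorem apply_conj_eq {G : Type*} [Group G] (x : Additive G →+ A) (a b : G) :
    x (Additive.ofMul (a * b * a⁻¹)) = x (Additive.ofMul b) := by
  simp only [ofMul_mul, ofMul_inv, map_add, map_neg]
  abel

theorem alRes_inclRes [NeZero q] (h : Nat.Coprime q N) (x : Additive (Gamma0 N) →+ A) :
    alRes h (inclRes N q x) = conjRes N q x :=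
  AddMonoidHom.ext fun z => by
    obtain ⟨γ, rfl⟩ := Additive.ofMul.surjective z
    simp [inclHom_alHom, apply_conj_eq]

theorem alRes_conjRes [NeZero q] (h : Nat.Coprime q N) (x : Additive (Gamma0 N) →+ A) :
    alRes h (conjRes N q x) = inclRes N q x :=
  AddMonoidHom.ext fun z => by
    obtain ⟨γ, rfl⟩ := Additive.ofMul.surjective z
    simp [conjHom_alHom, apply_conj_eq]

theorem alRes_alRes [NeZero q] (h : Nat.Coprime q N) (y : Additive (Gamma0 (N * q)) →+ A) :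
    alRes h (alRes h y) = y :=
  AddMonoidHom.ext fun z => by
    obtain ⟨γ, rfl⟩ := Additive.ofMul.surjective z
    simp [alHom_alHom, apply_conj_eq]

theorem isParHom0_inclRes {x : Additive (Gamma0 N) →+ A} (hx : IsParHom0 (Gamma0 N) x) :
    IsParHom0 (Gamma0 (N * q)) (inclRes N q x) :=
  fun γ hγ => hx (inclHom N q γ) hγ

theorem isParHom0_conjRes [NeZero q] {x : Additive (Gamma0 N) →+ A}
    (hx : IsParHom0 (Gamma0 N) x) : IsParHom0 (Gamma0 (N * q)) (conjRes N q x) := by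
  intro γ hγ
  refine hx (conjHom N q γ) ?_
  unfold IsSmallTrace at hγ ⊢
  rw [Matrix.trace_fin_two] at hγ ⊢
  simpa [conjHom_coe, conjDiagMat] using hγ

theorem isParHom0_alRes [NeZero q] (h : Nat.Coprime q N) {y : Additive (Gamma0 (N * q)) →+ A}
    (hy : IsParHom0 (Gamma0 (N * q)) y) : IsParHom0 (Gamma0 (N * q)) (alRes h y) := by
  intro γ hγ
  refine hy (alHom h γ) ?_
  unfold IsSmallTrace at hγ ⊢
  rwa [trace_alHom]

theorem IsPrim.inclRes {x : Additive (Gamma0 N) →+ A} {h : ℚ × ℚ → A} (H : IsPrim x h) :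
    IsPrim (inclRes N q x) h :=
  ⟨H.1, fun γ P hP => H.2 (inclHom N q γ) P hP⟩

theorem IsPrim.conjRes [NeZero q] {x : Additive (Gamma0 N) →+ A} {h : ℚ × ℚ → A}
    (H : IsPrim x h) : IsPrim (conjRes N q x) (fun P => h ((degMat q).app P)) := by
  refine ⟨fun t P ht hP => ?_, fun γ P hP => ?_⟩
  · simp only [QMat.app_smul, H.1 t _ ht (QMat.app_ne_zero det_degMat_ne hP)]
  · simp only [← QMat.app_mul, degMat_mul_ofSL]
    rw [QMat.app_mul]
    exact H.2 _ _ (QMat.app_ne_zero det_degMat_ne hP)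

theorem IsPrim.alRes [NeZero q] (h : Nat.Coprime q N) {y : Additive (Gamma0 (N * q)) →+ A}
    {g : ℚ × ℚ → A} (H : IsPrim y g) : IsPrim (alRes h y) (fun P => g ((alMat h).app P)) := by
  refine ⟨fun t P ht hP => ?_, fun γ P hP => ?_⟩
  · simp only [QMat.app_smul, H.1 t _ ht (QMat.app_ne_zero (det_alMat_ne h) hP)]
  · simp only [← QMat.app_mul, alMat_mul]
    rw [QMat.app_mul]
    exact H.2 _ _ (QMat.app_ne_zero (det_alMat_ne h) hP)

theorem isParabolicHom_of_isParHom0 {M : ℕ} {x : Additive (Gamma0 M) →+ A}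
    (hx : IsParHom0 (Gamma0 M) x) : IsParabolicHom (Gamma0 M) x :=
  fun γ hγ => hx γ (le_of_eq hγ)

/-! ### Hecke operators commute with the degeneracy maps -/

variable (𝕜 : Type*) [CommRing 𝕜] [Module 𝕜 A]

theorem heckeHom_inclRes [NeZero N] [NeZero q] {ℓ : ℕ} (hℓ : ℓ.Prime) (hℓM : ¬ ℓ ∣ N * q)
    {x : Additive (Gamma0 N) →+ A} (hx : IsParabolicHom (Gamma0 N) x) :
    heckeHom 𝕜 (N * q) ℓ (inclRes N q x) = inclRes N q (heckeHom 𝕜 N ℓ x) := by
  haveI : NeZero ℓ := ⟨hℓ.ne_zero⟩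
  obtain ⟨h, H⟩ := exists_isPrim hx
  exact eq_of_isPrim (isPrim_potT hℓ hℓM H.inclRes)
    (isPrim_potT hℓ (fun hd => hℓM (hd.trans (dvd_mul_right N q))) H).inclRes 0
    fun P _ => by rw [add_zero]

theorem heckeHom_conjRes [NeZero N] [NeZero q] {ℓ : ℕ} (hℓ : ℓ.Prime) (hℓM : ¬ ℓ ∣ N * q)
    {x : Additive (Gamma0 N) →+ A} (hx : IsParabolicHom (Gamma0 N) x) :
    heckeHom 𝕜 (N * q) ℓ (conjRes N q x) = conjRes N q (heckeHom 𝕜 N ℓ x) := by
  haveI := Fact.mk hℓ
  haveI : NeZero ℓ := ⟨hℓ.ne_zero⟩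
  obtain ⟨h, H⟩ := exists_isPrim hx
  exact eq_of_isPrim (isPrim_potT hℓ hℓM H.conjRes)
    (isPrim_potT hℓ (fun hd => hℓM (hd.trans (dvd_mul_right N q))) H).conjRes 0
    fun P hP => by
      rw [add_zero]
      exact potT_comp_diag H (fun hd => hℓM (hd.trans (dvd_mul_left q N))) (NeZero.ne q) hP

/-- The operator `U_q` on potentials. -/
def potU (q : ℕ) [NeZero q] (g : ℚ × ℚ → A) : ℚ × ℚ → A :=
  fun P => ∑ j : ZMod q, g ((⟨1, j.val, 0, q⟩ : QMat).app P)

theorem repsU_mul_ofSL {M q : ℕ} [NeZero q] (hqM : q ∣ M) (γ : Gamma0 M) (x : ZMod q) :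
    (⟨1, x.val, 0, q⟩ : QMat) * QMat.ofSL (γ : SL(2, ℤ)) =
      QMat.ofSL (((repsU hqM).cocyc γ x : Gamma0 M) : SL(2, ℤ)) *
        (⟨1, ((repsU hqM).perm γ x).val, 0, q⟩ : QMat) := by
  have h := congrArg (fun g : GL (Fin 2) ℝ => (g : Matrix (Fin 2) (Fin 2) ℝ))
    ((repsU hqM).rep_mul γ x)
  simp only [repsU_rep, Units.val_mul, ModularForm.val_heckeMatrix (NeZero.ne q)] at h
  have e : ∀ r s : Fin 2, _ := fun r s => congrFun (congrFun h r) s
  have e00 := e 0 0
  have e01 := e 0 1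
  have e10 := e 1 0
  have e11 := e 1 1
  simp only [Matrix.mul_apply, Fin.sum_univ_two, gamma0GL_apply, Matrix.of_apply,
    Matrix.cons_val', Matrix.cons_val_zero, Matrix.cons_val_one, Matrix.empty_val',
    Matrix.cons_val_fin_one] at e00 e01 e10 e11
  simp only [QMat.mul_def, QMat.ofSL, QMat.mk.injEq]
  refine ⟨?_, ?_, ?_, ?_⟩ <;> apply Rat.cast_injective (α := ℝ) <;>
    push_cast [-ZMod.natCast_val] <;> assumption

theorem isPrim_potU {M : ℕ} [NeZero M] [NeZero q] (hqM : q ∣ M) {y : Additive (Gamma0 M) →+ A}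
    {g : ℚ × ℚ → A} (H : IsPrim y g) : IsPrim (heckeHom 𝕜 M q y) (potU q g) := by
  have hne : ∀ (x : ZMod q) {P : ℚ × ℚ}, P ≠ 0 → (⟨1, x.val, 0, q⟩ : QMat).app P ≠ 0 :=
    fun x P hP => QMat.app_ne_zero (by simpa [QMat.det] using NeZero.ne q) hP
  refine ⟨fun t P ht hP => ?_, fun γ P hP => ?_⟩
  · simp only [potU, QMat.app_smul]
    exact Finset.sum_congr rfl fun x _ => H.1 t _ ht (hne x hP)
  have e : heckeHom 𝕜 M q y (Additive.ofMul γ) =
      ∑ x, y (Additive.ofMul ((repsU hqM).cocyc γ x)) := by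
    rw [heckeHom_of_dvd 𝕜 hqM]
    rfl
  rw [e]
  simp only [potU, ← QMat.app_mul, repsU_mul_ofSL hqM]
  simp only [QMat.app_mul, H.2 _ _ (hne _ hP), Finset.sum_add_distrib]
  congr 1
  exact Equiv.sum_comp ((repsU hqM).permEquiv γ) (fun x => g ((⟨1, x.val, 0, q⟩ : QMat).app P))

/-! ### Corestriction -/

variable [((Gamma0 (N * q)).subgroupOf (Gamma0 N)).FiniteIndex]

/-- Corestriction from `Γ₀(N q)` to `Γ₀(N)`. -/
abbrev corRes (y : Additive (Gamma0 (N * q)) →+ A) : Additive (Gamma0 N) →+ A :=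
  corHom (Γ := Gamma0 N) y

/-- The inverse representative of a coset. -/
def cosInv (y : Gamma0 N ⧸ (Gamma0 (N * q)).subgroupOf (Gamma0 N)) : QMat :=
  QMat.ofSL ((y.out⁻¹ : Gamma0 N) : SL(2, ℤ))

/-- The potential of a corestriction. -/
def corPot (N q : ℕ) [((Gamma0 (N * q)).subgroupOf (Gamma0 N)).FiniteIndex]
    (g : ℚ × ℚ → A) : ℚ × ℚ → A :=
  fun P => ∑ᶠ y : Gamma0 N ⧸ (Gamma0 (N * q)).subgroupOf (Gamma0 N), g ((cosInv y).app P)

theorem isPrim_corPot {y : Additive (Gamma0 (N * q)) →+ A} {g : ℚ × ℚ → A} (H : IsPrim y g) :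
    IsPrim (corRes y) (corPot N q g) := by
  have := Fintype.ofFinite (Gamma0 N ⧸ (Gamma0 (N * q)).subgroupOf (Gamma0 N))
  have hne : ∀ z (P : ℚ × ℚ), P ≠ 0 → (cosInv (N := N) (q := q) z).app P ≠ 0 :=
    fun z P hP => QMat.app_ne_zero (by simp [cosInv]) hP
  refine ⟨fun t P ht hP => ?_, fun γ P hP => ?_⟩
  · simp only [corPot, QMat.app_smul, finsum_eq_sum_of_fintype]
    exact Finset.sum_congr rfl fun z _ => H.1 t _ ht (hne z P hP)
  show corPot N q g _ = corPot N q g P + ∑ᶠ z, y (Additive.ofMul (corElt γ z))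
  simp only [corPot, finsum_eq_sum_of_fintype, ← Finset.sum_add_distrib]
  refine (Fintype.sum_equiv (MulAction.toPerm γ) _ _ fun z => ?_).symm
  rw [MulAction.toPerm_apply, ← H.2 (corElt γ z) _ (hne z P hP), ← QMat.app_mul, ← QMat.app_mul]
  congr 2
  simp only [cosInv, ← QMat.ofSL_mul, corElt, InvMemClass.coe_inv]
  congr 1
  simp only [Subgroup.coe_mul, InvMemClass.coe_inv]
  group

theorem degCosets_rep [hq : Fact q.Prime] (hqN : ¬ q ∣ N) :
    ∃ (σ : (Gamma0 N ⧸ (Gamma0 (N * q)).subgroupOf (Gamma0 N)) ≃ OnePoint (ZMod q))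
      (γ' : Gamma0 N ⧸ (Gamma0 (N * q)).subgroupOf (Gamma0 N) → Gamma0 N),
      ∀ y, degMat q * cosInv y = QMat.ofSL (γ' y : SL(2, ℤ)) * tMat q (σ y) := by
  haveI : NeZero q := ⟨hq.out.ne_zero⟩
  choose i g hg using fun y : Gamma0 N ⧸ (Gamma0 (N * q)).subgroupOf (Gamma0 N) =>
    exists_rep hqN (y.out⁻¹)
  have hinj : Function.Injective i := by
    intro y y' he
    have e1 := hg y
    have e2 := hg y'
    rw [he] at e1
    set η : Gamma0 N := g y * (g y')⁻¹ with hη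
    have e3 : degMat q * QMat.ofSL ((y.out⁻¹ * y'.out : Gamma0 N) : SL(2, ℤ)) =
        QMat.ofSL (η : SL(2, ℤ)) * degMat q := by
      refine qmat_mul_right_cancel
        (h := QMat.ofSL ((y'.out⁻¹ : Gamma0 N) : SL(2, ℤ))) (by simp) ?_
      rw [qmat_mul_assoc (QMat.ofSL _) (degMat q), e2, qmat_mul_assoc, ← QMat.ofSL_mul,
        ← qmat_mul_assoc, ← QMat.ofSL_mul]
      have : ((y.out⁻¹ * y'.out : Gamma0 N) : SL(2, ℤ)) * ((y'.out⁻¹ : Gamma0 N) : SL(2, ℤ)) =
          ((y.out⁻¹ : Gamma0 N) : SL(2, ℤ)) := by simp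
      rw [this, e1, hη]
      simp [inv_mul_cancel_right]
    have hc := congrArg QMat.c e3
    simp only [QMat.mul_def, QMat.diag, QMat.ofSL, zero_mul, one_mul, zero_add, mul_zero,
      add_zero] at hc
    have hd : (q : ℤ) ∣ ((y.out⁻¹ * y'.out : Gamma0 N) : SL(2, ℤ)) 1 0 := by
      have hc' : ((y.out⁻¹ * y'.out : Gamma0 N) : SL(2, ℤ)) 1 0 =
          (η : SL(2, ℤ)) 1 0 * (q : ℤ) := by exact_mod_cast hc
      exact ⟨(η : SL(2, ℤ)) 1 0, by linear_combination hc'⟩
    have hmem : ((y.out⁻¹ * y'.out : Gamma0 N) : SL(2, ℤ)) ∈ Gamma0 (N * q) := by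
      refine mem_Gamma0_of_dvd ?_
      push_cast
      exact IsCoprime.mul_dvd (Int.isCoprime_iff_nat_coprime.mpr
        (by simpa using (hq.out.coprime_iff_not_dvd.mpr hqN).symm))
        (dvd_of_mem_Gamma0 (y.out⁻¹ * y'.out).2) hd
    calc y = ((y.out : Gamma0 N) : Gamma0 N ⧸ (Gamma0 (N * q)).subgroupOf (Gamma0 N)) :=
          (QuotientGroup.out_eq' y).symm
      _ = (y'.out : Gamma0 N ⧸ (Gamma0 (N * q)).subgroupOf (Gamma0 N)) :=
          QuotientGroup.eq.2 (Subgroup.mem_subgroupOf.2 hmem)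
      _ = y' := QuotientGroup.out_eq' y'
  have hsurj : Function.Surjective i := by
    intro j
    obtain ⟨m, η₀, hm⟩ : ∃ m η₀ : Gamma0 N,
        degMat q * QMat.ofSL (m : SL(2, ℤ)) = QMat.ofSL (η₀ : SL(2, ℤ)) * tMat q j := by
      induction j using OnePoint.rec with
      | infty => exact ⟨1, 1, by simp [tMat_infty, QMat.diag, QMat.mul_def, QMat.ofSL]⟩
      | coe t =>
        have hcop : IsCoprime (N : ℤ) (q : ℤ) := Int.isCoprime_iff_nat_coprime.mpr
          (by simpa using (hq.out.coprime_iff_not_dvd.mpr hqN).symm)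
        obtain ⟨d, hd1, hd2⟩ := exists_crt hcop 1 ((N : ℤ) * (t.val : ℤ))
        obtain ⟨a, b, hab⟩ : IsCoprime d (N : ℤ) := isCoprime_of_dvd_sub isCoprime_one_left hd1
        obtain ⟨w, hw⟩ := hd2
        have hmN : (⟨!![a, -b; (N : ℤ), d], by rw [Matrix.det_fin_two_of]; linear_combination hab⟩ :
            SL(2, ℤ)) ∈ Gamma0 N := mem_Gamma0_of_dvd (by simp)
        refine ⟨⟨_, hmN⟩, ⟨⟨!![(q : ℤ) * a, -b - a * (t.val : ℤ); (N : ℤ), w], ?_⟩,
          mem_Gamma0_of_dvd (by simp)⟩, ?_⟩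
        · rw [Matrix.det_fin_two_of]; linear_combination hab - a * hw
        · have hwQ : (d : ℚ) = (N : ℚ) * (t.val : ℕ) + (q : ℚ) * w := by
            have : d = (N : ℤ) * (t.val : ℤ) + (q : ℤ) * w := by linear_combination hw
            exact_mod_cast this
          simp [tMat_coe, QMat.diag, QMat.mul_def, QMat.ofSL, -ZMod.natCast_val]
          exact ⟨by ring, by linear_combination hwQ⟩
    set y : Gamma0 N ⧸ (Gamma0 (N * q)).subgroupOf (Gamma0 N) :=
      ((m⁻¹ : Gamma0 N) : Gamma0 N ⧸ (Gamma0 (N * q)).subgroupOf (Gamma0 N)) with hy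
    refine ⟨y, ?_⟩
    obtain ⟨δ, hδ⟩ := QuotientGroup.mk_out_eq_mul ((Gamma0 (N * q)).subgroupOf (Gamma0 N)) m⁻¹
    let δ' : Gamma0 (N * q) := ⟨((δ : Gamma0 N) : SL(2, ℤ)), Subgroup.mem_subgroupOf.1 δ.2⟩
    have e1 := hg y
    rw [hδ, mul_inv_rev, inv_inv, Subgroup.coe_mul, InvMemClass.coe_inv,
      show ((δ : Gamma0 N) : SL(2, ℤ))⁻¹ = ((δ'⁻¹ : Gamma0 (N * q)) : SL(2, ℤ)) from rfl,
      QMat.ofSL_mul, ← qmat_mul_assoc, degMat_mul_ofSL, qmat_mul_assoc, hm, ← qmat_mul_assoc,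
      ← QMat.ofSL_mul] at e1
    have e2 : QMat.ofSL (((g y : SL(2, ℤ)))⁻¹ *
        (((conjHom N q δ'⁻¹ : Gamma0 N) : SL(2, ℤ)) * (η₀ : SL(2, ℤ)))) * tMat q j =
          tMat q (i y) := by
      rw [QMat.ofSL_mul, qmat_mul_assoc, e1, ← qmat_mul_assoc, ← QMat.ofSL_mul, inv_mul_cancel]
      simp [QMat.ofSL, QMat.mul_def]
    exact (tMat_unique e2).symm
  exact ⟨Equiv.ofBijective i ⟨hinj, hsurj⟩, g, fun y => hg y⟩

theorem corRes_inclRes [hq : Fact q.Prime] (hqN : ¬ q ∣ N) (x : Additive (Gamma0 N) →+ A) :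
    corRes (inclRes N q x) = (q + 1) • x := by
  have := Fintype.ofFinite (Gamma0 N ⧸ (Gamma0 (N * q)).subgroupOf (Gamma0 N))
  obtain ⟨σ, -, -⟩ := degCosets_rep (N := N) hqN
  refine AddMonoidHom.ext fun z => ?_
  obtain ⟨γ, rfl⟩ := Additive.ofMul.surjective z
  show ∑ᶠ y, x (Additive.ofMul (inclHom N q (corElt γ y))) = (q + 1) • x (Additive.ofMul γ)
  have e : ∀ y : Gamma0 N ⧸ (Gamma0 (N * q)).subgroupOf (Gamma0 N),
      inclHom N q (corElt γ y) = (γ • y).out⁻¹ * γ * y.out := fun y => Subtype.ext rfl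
  simp only [finsum_eq_sum_of_fintype, e, ofMul_mul, ofMul_inv, map_add, map_neg,
    Finset.sum_add_distrib, Finset.sum_neg_distrib]
  have hs : (∑ y : Gamma0 N ⧸ (Gamma0 (N * q)).subgroupOf (Gamma0 N),
      x (Additive.ofMul (γ • y).out)) = ∑ y : Gamma0 N ⧸ (Gamma0 (N * q)).subgroupOf (Gamma0 N),
      x (Additive.ofMul y.out) :=
    Fintype.sum_equiv (MulAction.toPerm γ) _ _ fun y => rfl
  rw [hs, Finset.sum_const, Finset.card_univ,
    Fintype.card_congr σ, show Fintype.card (OnePoint (ZMod q)) = Fintype.card (Option (ZMod q)) from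
      Fintype.card_congr (Equiv.refl _), Fintype.card_option, ZMod.card]
  abel

theorem corRes_conjRes [NeZero N] [hq : Fact q.Prime] [NeZero q] (hqN : ¬ q ∣ N)
    {x : Additive (Gamma0 N) →+ A} (hx : IsParabolicHom (Gamma0 N) x) :
    corRes (conjRes N q x) = heckeHom 𝕜 N q x := by
  have := Fintype.ofFinite (Gamma0 N ⧸ (Gamma0 (N * q)).subgroupOf (Gamma0 N))
  obtain ⟨σ, g, hg⟩ := degCosets_rep (N := N) hqN
  obtain ⟨h, H⟩ := exists_isPrim hx
  refine eq_of_isPrim (isPrim_corPot H.conjRes) (isPrim_potT hq.out hqN H)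
    (∑ y, x (Additive.ofMul (g y))) fun P hP => ?_
  simp only [corPot, potT, finsum_eq_sum_of_fintype]
  rw [← Equiv.sum_comp σ (fun i => h ((tMat q i).app P)), ← Finset.sum_add_distrib]
  refine Finset.sum_congr rfl fun y _ => ?_
  rw [← QMat.app_mul, hg, QMat.app_mul, H.2 _ _ (tMat_app_ne_zero _ hP)]

/-- `res ∘ cor ∘ w = U_q + w`. -/
theorem inclRes_corRes_alRes [NeZero N] [hq : Fact q.Prime] [NeZero q] (hqN : ¬ q ∣ N)
    (h : Nat.Coprime q N) {y : Additive (Gamma0 (N * q)) →+ A}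
    (hy : IsParabolicHom (Gamma0 (N * q)) y) :
    inclRes N q (corRes (alRes h y)) = heckeHom 𝕜 (N * q) q y + alRes h y := by
  classical
  have := Fintype.ofFinite (Gamma0 N ⧸ (Gamma0 (N * q)).subgroupOf (Gamma0 N))
  obtain ⟨σ, g, hg⟩ := degCosets_rep (N := N) hqN
  obtain ⟨p, H⟩ := exists_isPrim hy
  have hsum : IsPrim (heckeHom 𝕜 (N * q) q y + alRes h y)
      (fun P => potU q p P + p ((alMat h).app P)) := by
    obtain ⟨h1, h2⟩ := isPrim_potU 𝕜 (dvd_mul_left q N) H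
    obtain ⟨h3, h4⟩ := H.alRes h
    refine ⟨fun t P ht hP => ?_, fun γ P hP => ?_⟩
    · have h3' := h3 t P ht hP
      simp only at h3'
      simp only [h1 t P ht hP, h3']
    · have h4' := h4 γ P hP
      simp only at h4'
      simp only [h2 γ P hP, h4', AddMonoidHom.add_apply]
      abel
  -- the `Γ₀(N q)`-element attached to each coset
  have key : ∀ z, ∃ δ : Gamma0 (N * q), ∀ P : ℚ × ℚ,
      ((alMat h).app ((cosInv z).app P)) = (QMat.ofSL (δ : SL(2, ℤ))).app
        ((σ z).elim ((alMat h).app P) fun j => (⟨1, j.val, 0, q⟩ : QMat).app P) := by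
    intro z
    have e := hg z
    cases hz : σ z using OnePoint.rec with
    | infty =>
      rw [hz, tMat_infty] at e
      have hc := congrArg QMat.c e
      simp only [QMat.mul_def, QMat.diag, cosInv, QMat.ofSL, zero_mul, one_mul, zero_add,
        mul_zero, add_zero] at hc
      have hmem : ((z.out⁻¹ : Gamma0 N) : SL(2, ℤ)) ∈ Gamma0 (N * q) := by
        refine mem_Gamma0_of_dvd ?_
        push_cast
        exact IsCoprime.mul_dvd (Int.isCoprime_iff_nat_coprime.mpr (by simpa using h.symm))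
          (dvd_of_mem_Gamma0 (z.out⁻¹).2) ⟨(g z : SL(2, ℤ)) 1 0, by
            have hc' : ((z.out⁻¹ : Gamma0 N) : SL(2, ℤ)) 1 0 =
                (g z : SL(2, ℤ)) 1 0 * (q : ℤ) := by exact_mod_cast hc
            linear_combination hc'⟩
      exact ⟨alHom h ⟨_, hmem⟩, fun P => by
        show _ = (QMat.ofSL _).app ((alMat h).app P)
        rw [← QMat.app_mul, ← QMat.app_mul, cosInv, alMat_mul h ⟨_, hmem⟩]⟩
    | coe j =>
      rw [hz, tMat_coe] at e
      have ha := congrArg QMat.a e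
      have hc := congrArg QMat.c e
      simp only [QMat.mul_def, QMat.diag, cosInv, QMat.ofSL, zero_mul, one_mul, zero_add,
        mul_zero, add_zero, mul_one] at ha hc
      have ha' : (q : ℤ) * ((z.out⁻¹ : Gamma0 N) : SL(2, ℤ)) 0 0 = (g z : SL(2, ℤ)) 0 0 := by
        exact_mod_cast ha
      have hmem : ((alGamma h * g z : Gamma0 N) : SL(2, ℤ)) ∈ Gamma0 (N * q) := by
        refine mem_Gamma0_of_dvd ?_
        push_cast
        refine IsCoprime.mul_dvd (Int.isCoprime_iff_nat_coprime.mpr (by simpa using h.symm))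
          (dvd_of_mem_Gamma0 (alGamma h * g z).2) ?_
        obtain ⟨e1, e2⟩ := alGamma_apply_one h
        simp only [Matrix.SpecialLinearGroup.coe_mul, Matrix.mul_apply, Fin.sum_univ_two, e1, e2,
          ← ha']
        exact dvd_add (dvd_mul_of_dvd_right (dvd_mul_right _ _) _) (dvd_mul_right _ _)
      refine ⟨⟨_, hmem⟩, fun P => ?_⟩
      show _ = (QMat.ofSL _).app ((⟨1, j.val, 0, q⟩ : QMat).app P)
      rw [← QMat.app_mul, ← QMat.app_mul]
      congr 1
      show QMat.ofSL _ * degMat q * cosInv z = _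
      rw [qmat_mul_assoc, e, ← qmat_mul_assoc, ← QMat.ofSL_mul]
      rfl
  choose δ hδ using key
  refine eq_of_isPrim (isPrim_corPot (H.alRes h)).inclRes hsum
    (∑ z, y (Additive.ofMul (δ z))) fun P hP => ?_
  simp only [corPot, potU, finsum_eq_sum_of_fintype]
  have hne : ∀ i : OnePoint (ZMod q),
      (i.elim ((alMat h).app P) fun j => (⟨1, j.val, 0, q⟩ : QMat).app P) ≠ 0 := fun i => by
    induction i using OnePoint.rec with
    | infty => exact QMat.app_ne_zero (det_alMat_ne h) hP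
    | coe j => exact QMat.app_ne_zero (by simpa [QMat.det] using NeZero.ne q) hP
  simp only [hδ, fun z => H.2 (δ z) _ (hne (σ z)), Finset.sum_add_distrib]
  congr 1
  rw [Equiv.sum_comp σ
    (fun i => p (i.elim ((alMat h).app P) fun j => (⟨1, j.val, 0, q⟩ : QMat).app P)), add_comm]
  exact Fintype.sum_option _

end FLTA.LevelRaising
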