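import Fermat.Agent.Periods.HeckeQuot
import Fermat.Agent.Hecke.EigenChar
import Fermat.Agent.Gamma0.Complex.Basic
import Fermat.Prelude.Def_FLTPrelim_ModularRep

/-!
# The mod `p` eigenclass attached to a congruent eigenform
-/

set_option autoImplicit false

noncomputable section

namespace FLTA.LevelRaising

open CongruenceSubgroup ModularFormClass FLTA.Periods
open scoped MatrixGroups IsMulCommutative

variable {N : ℕ} [NeZero N]

/-- `parMk` is parabolic in the refined sense. -/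
theorem isParHom0_parMk : FLTA.Gamma0.IsParHom0 (Gamma0 N) (parMk (Gamma0 N)) := by
  intro γ hγ
  rcases (show ((γ : SL(2, ℤ)) : Matrix (Fin 2) (Fin 2) ℤ).trace ^ 2 ≤ 4 from hγ).eq_or_lt with
    h | h
  · exact parMk_isParabolicHom _ γ h
  · set M : Matrix (Fin 2) (Fin 2) ℤ := ((γ : SL(2, ℤ)) : Matrix (Fin 2) (Fin 2) ℤ) with hM
    have hd : M.det = 1 := (γ : SL(2, ℤ)).2
    have hCH : M * M = M.trace • M - 1 := mul_self_eq_trace_smul_sub_one M hd
    have h12 : M ^ 12 = 1 := by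
      obtain ⟨h1, h2⟩ : -2 < M.trace ∧ M.trace < 2 := ⟨by nlinarith, by nlinarith⟩
      interval_cases ht : M.trace
      · have h3 : M ^ 3 = 1 := by
          rw [pow_succ, pow_two, hCH, sub_mul, smul_mul_assoc, one_mul, hCH]
          simp [sub_eq_add_neg, smul_add, neg_smul, smul_neg] <;> abel
        rw [show (12 : ℕ) = 3 * 4 from rfl, pow_mul, h3, one_pow]
      · have h2' : M ^ 2 = -1 := by rw [pow_two, hCH]; simp
        rw [show (12 : ℕ) = 2 * 6 from rfl, pow_mul, h2']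
        exact Even.neg_one_pow ⟨3, rfl⟩
      · have h3 : M ^ 3 = -1 := by
          rw [pow_succ, pow_two, hCH, sub_mul, smul_mul_assoc, one_mul, hCH]
          simp [sub_eq_add_neg, smul_add, neg_smul, smul_neg] <;> abel
        rw [show (12 : ℕ) = 3 * 4 from rfl, pow_mul, h3]
        exact Even.neg_one_pow ⟨2, rfl⟩
    have hγ12 : γ ^ 12 = 1 := Subtype.ext (Subtype.ext (by simpa [hM] using h12))
    have h0 : (12 : ℕ) • parMk (Gamma0 N) (Additive.ofMul γ) = 0 := by
      rw [← map_nsmul, ← ofMul_pow, hγ12]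
      exact map_zero _
    exact (smul_eq_zero.mp h0).resolve_left (by norm_num)

/-- The lattice endomorphism of a Hecke generator induces the Hecke operator on homomorphisms. -/
theorem heckeQuot_comp_parMk (t : fullHecke N) {l : ℕ}
    (h : ∀ f g : CF2 N, ModularCurve.periodHomPair N
      ((t : Module.End ℂ (CF2 N)) f, (t : Module.End ℂ (CF2 N)) g) =
        heckeHom ℂ N l (ModularCurve.periodHomPair N (f, g))) :
    (heckeQuot N t).toAddMonoidHom.comp (parMk (Gamma0 N)) =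
      heckeHom ℤ N l (parMk (Gamma0 N)) := by
  obtain ⟨M, hM⟩ := exists_parQuot_factor
    (heckeHom_isParabolicHom ℤ l (parMk_isParabolicHom (Gamma0 N)))
  have hT : IsTranspose N (t : Module.End ℂ (CF2 N)) M.toIntLinearMap := by
    intro f g
    refine parQuot_hom_ext (Gamma0 N) ?_
    rw [pairQuot_comp_parMk, h, ← pairQuot_comp_parMk, heckeHom_eq_int, heckeHom_comp, ← hM]
    rfl
  rw [(heckeQuot_isTranspose N t).unique hT, ← hM]
  rfl

/-- A nonzero element of a group of exponent `p` is detected by a hom to `ZMod p`. -/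
theorem exists_hom_zmod_ne_zero {Q : Type*} [AddCommGroup Q] {p : ℕ} [Fact p.Prime]
    (h : ∀ x : Q, p • x = 0) {z : Q} (hz : z ≠ 0) : ∃ f : Q →+ ZMod p, f z ≠ 0 := by
  let inst : Module (ZMod p) Q := AddCommGroup.zmodModule h
  let b := Module.Basis.ofVectorSpace (ZMod p) Q
  by_contra! hno
  exact hz (b.ext_elem fun i => by simpa using hno (b.coord i).toAddMonoidHom)

/-- A proper ideal of a ring acting faithfully on a finite abelian group module cuts out a
nonzero mod `p` functional. -/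
theorem exists_functional_aux {R M : Type*} [CommRing R] [AddCommGroup M] [Module.Finite ℤ M]
    (φ : R →+* Module.End ℤ M) (hφ : Function.Injective φ) {p : ℕ} [Fact p.Prime] (I : Ideal R)
    (hI : I ≠ ⊤) (hp : (p : R) ∈ I) :
    ∃ u : M →+ ZMod p, u ≠ 0 ∧ ∀ t ∈ I, ∀ x, u (φ t x) = 0 := by
  let _ : Module R M := Module.compHom _ φ
  have hsmul : ∀ (t : R) (x : M), t • x = φ t x := fun _ _ => rfl
  have : IsScalarTower ℤ R M := ⟨fun n t x => by
    rw [hsmul, hsmul, map_zsmul]; rfl⟩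
  have : Module.Finite R M := Module.Finite.of_restrictScalars_finite ℤ _ _
  have hne : (I • ⊤ : Submodule R M) ≠ ⊤ := by
    intro h
    obtain ⟨r, hr, hr0⟩ := Submodule.exists_sub_one_mem_and_smul_eq_zero_of_fg_of_le_smul I
      (⊤ : Submodule R M) Module.Finite.fg_top h.ge
    have : r = 0 := hφ (by
      rw [map_zero]
      exact LinearMap.ext fun x => hr0 x trivial)
    rw [this, zero_sub, Ideal.neg_mem_iff] at hr
    exact hI ((Ideal.eq_top_iff_one _).mpr hr)
  have : Nontrivial (M ⧸ (I • ⊤ : Submodule R M)) := Submodule.Quotient.nontrivial_iff.mpr hne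
  obtain ⟨z, hz⟩ := exists_ne (0 : M ⧸ (I • ⊤ : Submodule R M))
  obtain ⟨f, hf⟩ := exists_hom_zmod_ne_zero (p := p) (fun x : M ⧸ (I • ⊤ : Submodule R M) => by
    obtain ⟨y, rfl⟩ := Submodule.mkQ_surjective _ x
    rw [← map_nsmul, Submodule.mkQ_apply, Submodule.Quotient.mk_eq_zero,
      ← Nat.cast_smul_eq_nsmul R]
    exact Submodule.smul_mem_smul hp trivial) hz
  refine ⟨f.comp (Submodule.mkQ _).toAddMonoidHom, ?_, fun t ht x => ?_⟩
  · intro h
    obtain ⟨y, rfl⟩ := Submodule.mkQ_surjective _ z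
    exact hf (DFunLike.congr_fun h y)
  · have : Submodule.mkQ (I • ⊤ : Submodule R M) (φ t x) = 0 := by
      rw [Submodule.mkQ_apply, Submodule.Quotient.mk_eq_zero, ← hsmul]
      exact Submodule.smul_mem_smul ht trivial
    show f (Submodule.mkQ _ (φ t x)) = 0
    rw [this, map_zero]

/-- The mod `p` eigenclass of a congruent eigenform satisfying the level raising condition. -/
theorem exists_eigen_mod {W : WeierstrassCurve ℤ} {p q : ℕ} [Fact p.Prime] (hq : q.Prime)
    (hqN : ¬ q ∣ N) (f : CuspForm (CongruenceSubgroup.Gamma0 N) 2)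
    (𝔪 : Ideal (integralClosure ℤ ℂ)) (hf : f.IsNormalizedEigenform) (hmax : 𝔪.IsMaximal)
    (hpm : (p : integralClosure ℤ ℂ) ∈ 𝔪)
    (hcong : ∀ ℓ : ℕ, ℓ.Prime → W.IsGoodPrimeFor ℓ → ¬ ℓ ∣ N → ℓ ≠ p →
      ∃ a : integralClosure ℤ ℂ, (a : ℂ) = ModularFormClass.qCoeff f ℓ ∧
        a - ((W.apOfModel ℓ : ℤ) : integralClosure ℤ ℂ) ∈ 𝔪)
    (hLR : ∃ a : integralClosure ℤ ℂ, (a : ℂ) = ModularFormClass.qCoeff f q ∧
      a ^ 2 - ((q : integralClosure ℤ ℂ) + 1) ^ 2 ∈ 𝔪) :
    ∃ v : Additive (Gamma0 N) →+ ZMod p, FLTA.Gamma0.IsParHom0 (Gamma0 N) v ∧ v ≠ 0 ∧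
      (∀ l : ℕ, l.Prime → W.IsGoodPrimeFor l → ¬ l ∣ N → l ≠ p →
        heckeHom (ZMod p) N l v = (W.apOfModel l : ZMod p) • v) ∧
      ∃ e : ZMod p, e ^ 2 = 1 ∧ heckeHom (ZMod p) N q v = (e * ((q : ZMod p) + 1)) • v := by
  obtain ⟨χ, -, hT, -⟩ := FLTA.Hecke.exists_char_of_normalized (S := ∅) hf
  let χ' : fullHecke N →+* integralClosure ℤ ℂ :=
    χ.codRestrict (integralClosure ℤ ℂ) fun t =>
      (Algebra.IsIntegral.isIntegral t).map χ.toIntAlgHom
  obtain ⟨e, he, heq⟩ : ∃ e : ℤ, e ^ 2 = 1 ∧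
      χ' (CuspForm.heckeAlgebra.T hq hqN (Set.notMem_empty q)) -
        ((e * ((q : ℤ) + 1) : ℤ) : integralClosure ℤ ℂ) ∈ 𝔪 := by
    obtain ⟨a, ha, hmem⟩ := hLR
    have haχ : χ' (CuspForm.heckeAlgebra.T hq hqN (Set.notMem_empty q)) = a := by
      apply Subtype.ext
      rw [ha]
      exact hT q hq hqN (Set.notMem_empty q)
    rw [sq_sub_sq] at hmem
    rcases hmax.isPrime.mem_or_mem hmem with h | h
    · exact ⟨-1, by norm_num, by rw [haχ]; push_cast; convert h using 1; ring⟩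
    · exact ⟨1, by norm_num, by rw [haχ]; push_cast; convert h using 1; ring⟩
  let G : Set (fullHecke N) :=
    {t | ∃ (l : ℕ) (hl : l.Prime) (hlN : ¬ l ∣ N), W.IsGoodPrimeFor l ∧ l ≠ p ∧
      t = CuspForm.heckeAlgebra.T hl hlN (Set.notMem_empty l) -
        ((W.apOfModel l : ℤ) : fullHecke N)} ∪
    {(p : fullHecke N), CuspForm.heckeAlgebra.T hq hqN (Set.notMem_empty q) -
      ((e * ((q : ℤ) + 1) : ℤ) : fullHecke N)}
  have hIle : Ideal.span G ≤ 𝔪.comap χ' := by
    rw [Ideal.span_le]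
    rintro t (⟨l, hl, hlN, hg, hlp, rfl⟩ | rfl | rfl)
    · obtain ⟨a, ha, hmem⟩ := hcong l hl hg hlN hlp
      have haχ : χ' (CuspForm.heckeAlgebra.T hl hlN (Set.notMem_empty l)) = a := by
        apply Subtype.ext
        rw [ha]
        exact hT l hl hlN (Set.notMem_empty l)
      simpa [SetLike.mem_coe, Ideal.mem_comap, haχ] using hmem
    · simpa [SetLike.mem_coe, Ideal.mem_comap] using hpm
    · simpa [SetLike.mem_coe, Ideal.mem_comap] using heq
  have hI : Ideal.span G ≠ ⊤ := by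
    intro h
    exact hmax.ne_top ((Ideal.eq_top_iff_one _).mpr (by simpa using hIle (h ▸ trivial : (1 : fullHecke N) ∈ Ideal.span G)))
  obtain ⟨u, hu0, hu⟩ := exists_functional_aux (heckeQuot N) (heckeQuot_injective N) (p := p)
    (Ideal.span G) hI
    (Ideal.subset_span (Or.inr (Or.inl rfl)))
  have key : ∀ (l : ℕ) (hl : l.Prime) (hlN : ¬ l ∣ N) (c : ℤ),
      CuspForm.heckeAlgebra.T hl hlN (Set.notMem_empty l) - (c : fullHecke N) ∈ Ideal.span G →
      heckeHom (ZMod p) N l (u.comp (parMk (Gamma0 N))) =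
        (c : ZMod p) • u.comp (parMk (Gamma0 N)) := by
    intro l hl hlN c hc
    rw [heckeHom_eq_int, heckeHom_comp,
      ← heckeQuot_comp_parMk (CuspForm.heckeAlgebra.T hl hlN (Set.notMem_empty l))
        (periodHomPair_heckeTLin hl hlN)]
    ext x
    have h := hu _ hc (parMk (Gamma0 N) (Additive.ofMul x))
    rw [map_sub, map_intCast, LinearMap.sub_apply, map_sub, sub_eq_zero,
      Module.End.intCast_apply, map_zsmul] at h
    simpa [AddMonoidHom.smul_apply, zsmul_eq_mul] using h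
  refine ⟨u.comp (parMk (Gamma0 N)), fun γ hγ => ?_, ?_, fun l hl hg hlN hlp => ?_, e, ?_, ?_⟩
  · rw [AddMonoidHom.comp_apply, isParHom0_parMk γ hγ, map_zero]
  · intro h
    exact hu0 (parQuot_hom_ext _ (h.trans (AddMonoidHom.zero_comp _).symm))
  · exact key l hl hlN _ (Ideal.subset_span (Or.inl ⟨l, hl, hlN, hg, hlp, rfl⟩))
  · exact_mod_cast congrArg (Int.cast : ℤ → ZMod p) he
  · have h := key q hq hqN _ (Ideal.subset_span (Or.inr (Or.inr rfl)))
    push_cast at h
    exact h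

end FLTA.LevelRaising
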