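import Fermat.Agent.LevelRaising.NonEisensteinLinear
import Fermat.Agent.EllTorsion.GaloisDet
import Fermat.Agent.EllTorsion.WeilDet
import Fermat.Agent.EllTorsion.Card
import Fermat.Agent.EllIsogeny.VarChange
import Fermat.Agent.Galois.Cyclotomic
import Fermat.Agent.Density.Frobenius
import Fermat.Prelude.Def_FreyPackage_LevelRaising
import Fermat.Prelude.Def_GaloisRep_ComplexConjugation

/-!
# Irreducibility excludes the Eisenstein congruence at primes `ℓ ≡ 1 mod M`

If `E[p]` is irreducible then for every `M` some good prime `ℓ ≡ 1 mod M` has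
`a_ℓ ≢ ℓ + 1 mod p`.
-/

set_option autoImplicit false

open WeierstrassCurve WeierstrassCurve.Affine WeierstrassCurve.Affine.Point
open scoped WeierstrassCurve.Affine

noncomputable section

namespace FLTA.LevelRaising

local notation "Qbar" => AlgebraicClosure ℚ
local notation "GQ" => AlgebraicClosure ℚ ≃ₐ[ℚ] AlgebraicClosure ℚ

/-- An integral model of an elliptic curve has nonzero discriminant. -/
theorem intModel_Δ_ne_zero {E : WeierstrassCurve ℚ} [E.IsElliptic] {W : WeierstrassCurve ℤ}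
    (hW : W.IsIntegralModelOf E) : W.Δ ≠ 0 := by
  obtain ⟨C, hC⟩ := hW
  intro h
  have h1 : (W.map (Int.castRingHom ℚ)).Δ = 0 := by rw [WeierstrassCurve.map_Δ, h, _root_.map_zero]
  rw [← hC, variableChange_Δ] at h1
  rcases mul_eq_zero.mp h1 with h2 | h2
  · exact pow_ne_zero _ (Units.ne_zero C.u⁻¹) h2
  · exact E.isUnit_Δ.ne_zero h2

/-- Irreducibility passes to an integral model. -/
theorem irreducible_intModel {E : WeierstrassCurve ℚ} {W : WeierstrassCurve ℤ}
    (hW : W.IsIntegralModelOf E) {p : ℕ}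
    (hirr : GaloisRepIsIrreducible (K := Qbar) ℚ E p) :
    GaloisRepIsIrreducible (K := Qbar) ℚ (W.map (Int.castRingHom ℚ)) p := by
  obtain ⟨C, hC⟩ := hW
  rw [← hC]
  let e := EllIsogeny.vcBaseEquiv E C Qbar
  have hmem : ∀ P, P ∈ Submodule.torsionBy ℤ ((C • E)⁄Qbar).Point p ↔
      e P ∈ Submodule.torsionBy ℤ (E⁄Qbar).Point p := fun P => by
    rw [Submodule.mem_torsionBy_iff, Submodule.mem_torsionBy_iff, ← map_zsmul,
      map_eq_zero_iff e e.injective]
  let f : Submodule.torsionBy ℤ ((C • E)⁄Qbar).Point p →+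
      Submodule.torsionBy ℤ (E⁄Qbar).Point p :=
    { toFun := fun P => ⟨e P.1, (hmem P.1).mp P.2⟩
      map_zero' := Subtype.ext (_root_.map_zero e)
      map_add' := fun P Q => Subtype.ext (map_add e P.1 Q.1) }
  have hfb : Function.Bijective f := by
    refine ⟨fun P Q h => Subtype.ext (e.injective (congrArg Subtype.val h)), fun Q => ?_⟩
    exact ⟨⟨e.symm Q.1, (hmem _).mpr (by rw [e.apply_symm_apply]; exact Q.2)⟩,
      Subtype.ext (e.apply_symm_apply Q.1)⟩
  let φ := f.toZModLinearMap p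
  have hφσ : ∀ (σ : GQ) P, φ (σ • P) = σ • φ P := fun σ P =>
    Subtype.ext (EllIsogeny.vcBaseEquiv_map E C σ.toAlgHom P.1).symm
  refine ⟨?_, fun N hN => ?_⟩
  · haveI := hirr.1
    exact (Equiv.ofBijective f hfb).nontrivial
  · have hst : IsGaloisStable ℚ (N.map φ) := by
      rintro σ _ ⟨P, hP, rfl⟩
      exact ⟨σ • P, hN σ P hP, hφσ σ P⟩
    have hback : (N.map φ).comap φ = N := Submodule.comap_map_eq_of_injective hfb.1 N
    rcases hirr.2 _ hst with h | h
    · left
      rw [← hback, h]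
      exact LinearMap.ker_eq_bot.mpr hfb.1
    · right
      rw [← hback, h, Submodule.comap_top]

/-- Complex conjugation inverts roots of unity. -/
theorem complexConjugation_rootOfUnity {n : ℕ} (hn : n ≠ 0) {ζ : Qbar} (hζ : ζ ^ n = 1) :
    complexConjugation ζ = ζ⁻¹ := by
  apply complexEmbedding.toRingHom.injective
  show complexEmbedding (complexConjugation ζ) = complexEmbedding ζ⁻¹
  rw [complexEmbedding_complexConjugation, map_inv₀]
  have h1 : ‖complexEmbedding ζ‖ = 1 :=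
    Complex.norm_eq_one_of_pow_eq_one (by rw [← map_pow, hζ, map_one]) hn
  exact (Complex.inv_eq_conj h1).symm

/-- For an irreducible mod `p` representation some good prime `ℓ ≡ 1 mod M` outside `S` has
`a_ℓ ≢ ℓ + 1` modulo `p`. -/
theorem exists_good_prime_one_mod_ne (E : WeierstrassCurve ℚ) [E.IsElliptic]
    {W : WeierstrassCurve ℤ} (hW : W.IsIntegralModelOf E) {p : ℕ} (hp : p.Prime) (hp2 : p ≠ 2)
    (hirr : GaloisRepIsIrreducible (K := AlgebraicClosure ℚ) ℚ E p) {M : ℕ} (hM : M ≠ 0)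
    (S : Finset ℕ) :
    ∃ l : ℕ, l.Prime ∧ l ∉ S ∧ W.IsGoodPrimeFor l ∧ l ≠ p ∧ (l : ZMod M) = 1 ∧
      (W.apOfModel l : ZMod p) ≠ (l : ZMod p) + 1 := by
  haveI := Fact.mk hp
  haveI : NeZero M := ⟨hM⟩
  have hΔ := intModel_Δ_ne_zero hW
  obtain ⟨hnt, hirr'⟩ := irreducible_intModel hW hirr
  set ρ := galoisRepModuleEnd (K := Qbar) ℚ (W.map (Int.castRingHom ℚ)) p with hρ
  have hcard : Nat.card (Submodule.torsionBy ℤ
      ((W.map (Int.castRingHom ℚ))⁄Qbar).Point p) = p ^ 2 :=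
    EllTorsion.natCard_torsionBy_intModel W hΔ hp.ne_zero
  haveI : Finite (Submodule.torsionBy ℤ ((W.map (Int.castRingHom ℚ))⁄Qbar).Point p) :=
    Nat.finite_of_card_ne_zero (by rw [hcard]; exact pow_ne_zero 2 hp.ne_zero)
  have hrank : Module.finrank (ZMod p)
      (Submodule.torsionBy ℤ ((W.map (Int.castRingHom ℚ))⁄Qbar).Point p) = 2 := by
    have h := Module.natCard_eq_pow_finrank (K := ZMod p)
      (V := Submodule.torsionBy ℤ ((W.map (Int.castRingHom ℚ))⁄Qbar).Point p)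
    rw [hcard, Nat.card_zmod] at h
    exact (Nat.pow_right_injective hp.two_le h).symm
  obtain ⟨ζ, hζ⟩ := HasEnoughRootsOfUnity.exists_primitiveRoot Qbar M
  have hpow : ∀ σ : GQ, ∃ i : ℕ, σ ζ = ζ ^ i := fun σ => by
    obtain ⟨i, -, hi⟩ := hζ.eq_pow_of_pow_eq_one
      (show σ ζ ^ M = 1 by rw [← map_pow, hζ.pow_eq_one, map_one])
    exact ⟨i, hi.symm⟩
  let H : Subgroup GQ := MulAction.stabilizer GQ ζ
  have hH : ∀ σ : GQ, σ ∈ H ↔ σ ζ = ζ := fun σ => MulAction.mem_stabilizer_iff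
  haveI : H.Normal := ⟨fun h hh g => by
    rw [hH] at hh ⊢
    obtain ⟨i, hi⟩ := hpow g⁻¹
    show g (h (g⁻¹ ζ)) = ζ
    rw [hi, map_pow, hh, ← hi]
    exact g.apply_symm_apply ζ⟩
  by_contra hcon
  push Not at hcon
  -- every element fixing `ζ` fixes a nonzero torsion point
  have hfix : ∀ σ ∈ H, ∃ v, v ≠ 0 ∧ ρ σ v = v := by
    intro σ hσ
    obtain ⟨L, hL, hker⟩ := EllTorsion.galoisFactorsThroughFiniteLevel_intModel W hΔ hp.ne_zero
    haveI := hL
    haveI : FiniteDimensional ℚ (IntermediateField.adjoin ℚ ({ζ} : Set Qbar)) :=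
      IntermediateField.adjoin.finiteDimensional
        ((AlgebraicClosure.isAlgebraic ℚ).isAlgebraic ζ).isIntegral
    obtain ⟨l, hl, hlS, A, hA, τ, hτ, i, j, hj, hi⟩ := Density.exists_frobenius_generator
      (L ⊔ IntermediateField.adjoin ℚ ({ζ} : Set Qbar))
      (S ∪ {2, p} ∪ M.primeFactors ∪ W.Δ.natAbs.primeFactors) σ
    simp only [Finset.mem_union, Finset.mem_insert, Finset.mem_singleton, Nat.mem_primeFactors,
      not_or, not_and] at hlS
    obtain ⟨⟨⟨hlS, hl2, hlp⟩, hlM⟩, hlΔ⟩ := hlS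
    have hlM' : ¬ l ∣ M := fun h => hlM hl h hM
    have hgood : W.IsGoodPrimeFor l := fun h =>
      hlΔ hl (Int.natCast_dvd.mp h) (Int.natAbs_ne_zero.mpr hΔ)
    have hτζ : τ ζ = ζ := by
      rw [← hi ζ (le_sup_right (a := L) (IntermediateField.mem_adjoin_simple_self ℚ ζ))]
      exact (hH _).mp (pow_mem hσ i)
    have hl1 : (l : ZMod M) = 1 := by
      rw [Galois.frobenius_apply_rootOfUnity hl hA hτ hlM' hζ.pow_eq_one] at hτζ
      have h1 : ζ ^ (l - 1) = 1 := by
        apply mul_right_cancel₀ (hζ.ne_zero hM)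
        rw [← pow_succ, Nat.sub_add_cancel hl.one_le, hτζ, one_mul]
      have h2 := (ZMod.natCast_eq_zero_iff _ _).mpr (hζ.dvd_of_pow_eq_one _ h1)
      rwa [Nat.cast_sub hl.one_le, Nat.cast_one, sub_eq_zero] at h2
    have hal : (W.apOfModel l : ZMod p) = (l : ZMod p) + 1 := hcon l hl hlS hgood hlp hl1
    have htr : LinearMap.trace (ZMod p) _ (ρ τ) = (l : ZMod p) + 1 := by
      rw [← hal]
      exact EllTorsion.galoisTrace_frobenius W hΔ p hp2 l hl hl2 hgood hlp A hA τ hτ
    have hdet : LinearMap.det (ρ τ) = (l : ZMod p) :=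
      EllTorsion.det_galoisRepModuleEnd_frobenius W hΔ p l hl hgood hlp A hA τ hτ
    have h1 : LinearMap.det (ρ τ - 1) = 0 := by
      let b := Module.finBasisOfFinrankEq (ZMod p)
        (Submodule.torsionBy ℤ ((W.map (Int.castRingHom ℚ))⁄Qbar).Point p) hrank
      rw [← LinearMap.det_toMatrix b, Matrix.det_fin_two] at hdet
      rw [LinearMap.trace_eq_matrix_trace (ZMod p) b, Matrix.trace_fin_two] at htr
      rw [← LinearMap.det_toMatrix b, map_sub, LinearMap.toMatrix_one, Matrix.det_fin_two]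
      simp only [Matrix.sub_apply, Matrix.one_apply_eq, ne_eq, zero_ne_one, not_false_eq_true,
        Matrix.one_apply_ne, one_ne_zero, sub_zero]
      linear_combination hdet - htr
    have hbot : LinearMap.ker (ρ τ - 1) ≠ ⊥ := (LinearMap.bot_lt_ker_of_det_eq_zero h1).ne'
    obtain ⟨v, hv, hv0⟩ := (Submodule.ne_bot_iff _).mp hbot
    refine ⟨v, hv0, ?_⟩
    have hv1 : ρ τ v = v := by simpa [LinearMap.mem_ker, sub_eq_zero] using hv
    have hσ' : ρ (σ⁻¹ * τ ^ j) = 1 := hker _ fun x hx => by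
      show σ⁻¹ ((τ ^ j) x) = x
      rw [hj x (le_sup_left (b := IntermediateField.adjoin ℚ ({ζ} : Set Qbar)) hx)]
      exact σ.symm_apply_apply x
    have heq : ρ σ = ρ τ ^ j := by
      rw [← map_pow, ← mul_inv_cancel_left σ (τ ^ j), map_mul, hσ', mul_one]
    rw [heq, Module.End.pow_apply]
    exact Function.IsFixedPt.iterate hv1 j
  -- complex conjugation
  haveI : NeZero p := ⟨hp.ne_zero⟩
  have hn : Nat.card (rootsOfUnity p Qbar) = p := IsAlgClosed.card_rootsOfUnity_eq Qbar p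
  have hcdet : LinearMap.det (ρ complexConjugation) = -1 := by
    haveI : (W.map (Int.castRingHom ℚ)).IsElliptic :=
      ⟨by rw [WeierstrassCurve.map_Δ]; exact (Int.cast_ne_zero.mpr hΔ).isUnit⟩
    haveI : WeierstrassCurve.IsElliptic ((W.map (Int.castRingHom ℚ))⁄Qbar) :=
      inferInstanceAs ((W.map (Int.castRingHom ℚ)).map (algebraMap ℚ Qbar)).IsElliptic
    rw [hρ, Elliptic.Weil.det_galoisRepModuleEnd_of_card _ p hn hcard]
    obtain ⟨η, hη⟩ := HasEnoughRootsOfUnity.exists_primitiveRoot Qbar p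
    let t : Qbarˣ := Units.mk0 η (hη.ne_zero hp.ne_zero)
    have ht : t ∈ rootsOfUnity p Qbar := by
      rw [mem_rootsOfUnity]; exact Units.ext (by simpa [t] using hη.pow_eq_one)
    have hs := modularCyclotomicCharacter.spec Qbar hn (complexConjugation : Qbar ≃+* Qbar) ht
    set u := ((modularCyclotomicCharacter Qbar hn (complexConjugation : Qbar ≃+* Qbar) :
      (ZMod p)ˣ) : ZMod p)
    have hs' : η ^ (u.val + 1) = 1 := by
      have e : η⁻¹ = η ^ u.val := by
        rw [← complexConjugation_rootOfUnity hp.ne_zero hη.pow_eq_one]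
        exact hs
      rw [pow_succ, ← e, inv_mul_cancel₀ (hη.ne_zero hp.ne_zero)]
    have hdvd : p ∣ u.val + 1 := hη.dvd_of_pow_eq_one _ hs'
    rw [← ZMod.natCast_eq_zero_iff] at hdvd
    push_cast [ZMod.natCast_zmod_val] at hdvd
    exact eq_neg_of_add_eq_zero_left hdvd
  haveI : Fact (2 < p) := ⟨by have := hp.two_le; omega⟩
  have hc : ∃ c : GQ, ρ c * ρ c = 1 ∧ ρ c ≠ 1 ∧ ρ c ≠ -1 := by
    refine ⟨complexConjugation, by rw [← map_mul, complexConjugation_mul_self, map_one], ?_, ?_⟩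
    · intro h
      rw [h, map_one] at hcdet
      exact ZMod.neg_one_ne_one (n := p) hcdet.symm
    · intro h
      rw [h, ← neg_one_smul (ZMod p) (1 : Module.End (ZMod p) _), LinearMap.det_smul, map_one,
        hrank] at hcdet
      norm_num at hcdet
      exact ZMod.neg_one_ne_one (n := p) hcdet.symm
  have hcomm : ∀ a b : GQ, a * b * a⁻¹ * b⁻¹ ∈ H := by
    intro a b
    rw [hH]
    obtain ⟨i, hi⟩ := hpow a
    obtain ⟨j, hj⟩ := hpow b
    have hab : a (b ζ) = b (a ζ) := by rw [hj, hi, map_pow, map_pow, hi, hj, pow_right_comm]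
    have key : ∀ x : Qbar, x ^ M = 1 → a (b x) = b (a x) := fun x hx => by
      obtain ⟨m, -, rfl⟩ := hζ.eq_pow_of_pow_eq_one hx
      rw [map_pow, map_pow, hab, map_pow, map_pow]
    show a (b (a⁻¹ (b⁻¹ ζ))) = ζ
    rw [key _ (by rw [← map_pow, ← map_pow, hζ.pow_eq_one, map_one, map_one])]
    exact (congrArg b (a.apply_symm_apply _)).trans (b.apply_symm_apply ζ)
  obtain ⟨N, hN0, hN1, hNst⟩ := exists_invariant_line hrank ρ H hcomm hfix hc
  exact (hirr' N fun σ x hx => hNst σ x hx).elim hN0 hN1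

end FLTA.LevelRaising
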