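/-
`heckeHom` restricted to refined parabolic homomorphisms.
-/
import Fermat.Agent.LevelRaising.Degeneracy

set_option autoImplicit false

noncomputable section

namespace FLTA.LevelRaising

open CongruenceSubgroup FLTA.Periods

/-- The Hecke operator at `ℓ` on refined parabolic homomorphisms. -/
def parOp (R : Type*) [CommRing R] (M : ℕ) [NeZero M] (ℓ : ℕ) :
    FLTA.Gamma0.homPar0 R (Gamma0 M) R →ₗ[R] FLTA.Gamma0.homPar0 R (Gamma0 M) R :=
  (heckeHom R M ℓ).restrict fun _ h => heckeHom_mem_homPar0 R ℓ h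

@[simp] theorem coe_parOp (R : Type*) [CommRing R] (M : ℕ) [NeZero M] (ℓ : ℕ)
    (φ : FLTA.Gamma0.homPar0 R (Gamma0 M) R) :
    ((parOp R M ℓ φ : FLTA.Gamma0.homPar0 R (Gamma0 M) R) : Additive (Gamma0 M) →+ R) =
      heckeHom R M ℓ φ.1 := rfl

end FLTA.LevelRaising
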