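/-
Adjointness of the degeneracy maps and of `T_ℓ` for the cup product pairing, and commutation of
the corestrictions with `T_ℓ`.
-/
import Fermat.Agent.LevelRaising.AssemblyIdentities
import Fermat.Agent.LevelRaising.AssemblyOps

set_option autoImplicit false

noncomputable section

namespace FLTA.LevelRaising

open CongruenceSubgroup ModularCurve.Period FLTA.Periods FLTA.Gamma0
open scoped MatrixGroups

variable {R : Type*} [CommRing R] {N q : ℕ} [NeZero N] [NeZero q]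

instance finiteIndex_subgroupOf_gamma0 :
    ((Gamma0 (N * q)).subgroupOf (Gamma0 N)).FiniteIndex := by infer_instance

/-- The pairing on level `M`. -/
abbrev cupB (R : Type*) [CommRing R] (M : ℕ) [NeZero M] :
    homPar0 R (Gamma0 M) R →ₗ[R] homPar0 R (Gamma0 M) R →ₗ[R] R :=
  cupPairing R (Gamma0 M) (neg_one_mem_gamma0 M)

/-- `inclRes` on refined parabolic homomorphisms. -/
def incl0 (N q : ℕ) : homPar0 R (Gamma0 N) R →ₗ[R] homPar0 R (Gamma0 (N * q)) R where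
  toFun φ := ⟨inclRes N q φ.1, isParHom0_inclRes φ.2⟩
  map_add' _ _ := rfl
  map_smul' _ _ := rfl

/-- `conjRes` on refined parabolic homomorphisms. -/
def conj0 (N q : ℕ) [NeZero q] : homPar0 R (Gamma0 N) R →ₗ[R] homPar0 R (Gamma0 (N * q)) R where
  toFun φ := ⟨conjRes N q φ.1, isParHom0_conjRes φ.2⟩
  map_add' _ _ := rfl
  map_smul' _ _ := rfl

/-- The Atkin–Lehner operator on refined parabolic homomorphisms. -/
def al0 (h : Nat.Coprime q N) :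
    homPar0 R (Gamma0 (N * q)) R →ₗ[R] homPar0 R (Gamma0 (N * q)) R where
  toFun φ := ⟨alRes h φ.1, isParHom0_alRes h φ.2⟩
  map_add' _ _ := rfl
  map_smul' _ _ := rfl

/-- Corestriction on refined parabolic homomorphisms. -/
def cor0 (N q : ℕ) [((Gamma0 (N * q)).subgroupOf (Gamma0 N)).FiniteIndex] :
    homPar0 R (Gamma0 (N * q)) R →ₗ[R] homPar0 R (Gamma0 N) R where
  toFun φ := ⟨corRes φ.1, corHom_isParHom0 φ.2⟩
  map_add' φ ψ := by
    have := Fintype.ofFinite (Gamma0 N ⧸ (Gamma0 (N * q)).subgroupOf (Gamma0 N))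
    refine Subtype.ext (AddMonoidHom.ext fun z => ?_)
    show ∑ᶠ y, (φ.1 + ψ.1) _ = (∑ᶠ y, φ.1 _) + ∑ᶠ y, ψ.1 _
    simp only [finsum_eq_sum_of_fintype, AddMonoidHom.add_apply, Finset.sum_add_distrib]
  map_smul' c φ := by
    have := Fintype.ofFinite (Gamma0 N ⧸ (Gamma0 (N * q)).subgroupOf (Gamma0 N))
    refine Subtype.ext (AddMonoidHom.ext fun z => ?_)
    show ∑ᶠ y, (c • φ.1) _ = c • ∑ᶠ y, φ.1 _
    simp only [finsum_eq_sum_of_fintype, AddMonoidHom.smul_apply, Finset.smul_sum]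

@[simp] theorem coe_incl0 (φ : homPar0 R (Gamma0 N) R) :
    ((incl0 N q φ : homPar0 R (Gamma0 (N * q)) R) : Additive (Gamma0 (N * q)) →+ R) =
      inclRes N q φ.1 := rfl

@[simp] theorem coe_conj0 (φ : homPar0 R (Gamma0 N) R) :
    ((conj0 N q φ : homPar0 R (Gamma0 (N * q)) R) : Additive (Gamma0 (N * q)) →+ R) =
      conjRes N q φ.1 := rfl

@[simp] theorem coe_al0 (h : Nat.Coprime q N) (φ : homPar0 R (Gamma0 (N * q)) R) :
    ((al0 h φ : homPar0 R (Gamma0 (N * q)) R) : Additive (Gamma0 (N * q)) →+ R) =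
      alRes h φ.1 := rfl

@[simp] theorem coe_cor0 (φ : homPar0 R (Gamma0 (N * q)) R) :
    ((cor0 N q φ : homPar0 R (Gamma0 N) R) : Additive (Gamma0 N) →+ R) = corRes φ.1 := rfl

theorem al0_incl0 (h : Nat.Coprime q N) (φ : homPar0 R (Gamma0 N) R) :
    al0 h (incl0 N q φ) = conj0 N q φ :=
  Subtype.ext (alRes_inclRes h φ.1)

theorem al0_conj0 (h : Nat.Coprime q N) (φ : homPar0 R (Gamma0 N) R) :
    al0 h (conj0 N q φ) = incl0 N q φ :=
  Subtype.ext (alRes_conjRes h φ.1)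

theorem al0_al0 (h : Nat.Coprime q N) (φ : homPar0 R (Gamma0 (N * q)) R) :
    al0 h (al0 h φ) = φ :=
  Subtype.ext (alRes_alRes h φ.1)

/-- Corestriction is the adjoint of restriction. -/
theorem cupB_incl0 (φ : homPar0 R (Gamma0 N) R) (ψ : homPar0 R (Gamma0 (N * q)) R) :
    cupB R (N * q) (incl0 N q φ) ψ = cupB R N φ (cor0 N q ψ) :=
  cupPairing_res_left (gamma0_mul_le N q) (neg_one_mem_gamma0 N) (neg_one_mem_gamma0 (N * q)) φ ψ

theorem cupB_al0_al0 (h : Nat.Coprime q N) (φ ψ : homPar0 R (Gamma0 (N * q)) R) :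
    cupB R (N * q) (al0 h φ) (al0 h ψ) = cupB R (N * q) φ ψ :=
  cupPairing_congr (alEquiv h) (fun g => trace_alHom h g) (fun g hg => isPosParabolic_alHom h g hg)
    _ _ φ ψ _ _ rfl rfl

/-- The Atkin–Lehner operator is self-adjoint. -/
theorem cupB_al0 (h : Nat.Coprime q N) (φ ψ : homPar0 R (Gamma0 (N * q)) R) :
    cupB R (N * q) (al0 h φ) ψ = cupB R (N * q) φ (al0 h ψ) := by
  conv_lhs => rw [← al0_al0 h ψ]
  exact cupB_al0_al0 h φ (al0 h ψ)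

theorem cupB_conj0 (h : Nat.Coprime q N) (φ : homPar0 R (Gamma0 N) R)
    (ψ : homPar0 R (Gamma0 (N * q)) R) :
    cupB R (N * q) (conj0 N q φ) ψ = cupB R N φ (cor0 N q (al0 h ψ)) := by
  rw [← al0_incl0 h, cupB_al0, cupB_incl0]

omit [NeZero q] in
theorem cor0_incl0 [NeZero q] [Fact q.Prime] (hqN : ¬ q ∣ N) (φ : homPar0 R (Gamma0 N) R) :
    cor0 N q (incl0 N q φ) = ((q : R) + 1) • φ := by
  refine Subtype.ext ?_
  rw [coe_cor0, coe_incl0, corRes_inclRes hqN, Submodule.coe_smul,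
    show ((q : R) + 1) = ((q + 1 : ℕ) : R) by push_cast; rfl, Nat.cast_smul_eq_nsmul]

theorem cor0_conj0 [Fact q.Prime] (hqN : ¬ q ∣ N) (φ : homPar0 R (Gamma0 N) R) :
    cor0 N q (conj0 N q φ) = parOp R N q φ :=
  Subtype.ext (corRes_conjRes R hqN (isParabolicHom_of_isParHom0 φ.2))

/-- `T_ℓ` is self-adjoint. -/
theorem cupB_parOp {ℓ : ℕ} (hℓ : ℓ.Prime) (hℓN : ¬ ℓ ∣ N) (φ ψ : homPar0 R (Gamma0 N) R) :
    cupB R N (parOp R N ℓ φ) ψ = cupB R N φ (parOp R N ℓ ψ) := by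
  haveI := Fact.mk hℓ
  haveI : NeZero ℓ := ⟨hℓ.ne_zero⟩
  have h : Nat.Coprime ℓ N := hℓ.coprime_iff_not_dvd.mpr hℓN
  rw [← cor0_conj0 hℓN φ, ← cor0_conj0 hℓN ψ, ← cupB_incl0,
    cupB, cupPairing_swap (neg_one_mem_gamma0 N) ψ, ← cupB, ← cupB_incl0,
    ← cupPairing_swap (neg_one_mem_gamma0 (N * ℓ)), ← al0_incl0 h φ, ← al0_incl0 h ψ]
  exact cupB_al0 h (incl0 N ℓ φ) (incl0 N ℓ ψ)

theorem parOp_incl0 {ℓ : ℕ} (hℓ : ℓ.Prime) (hℓM : ¬ ℓ ∣ N * q) (φ : homPar0 R (Gamma0 N) R) :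
    parOp R (N * q) ℓ (incl0 N q φ) = incl0 N q (parOp R N ℓ φ) :=
  Subtype.ext (heckeHom_inclRes R hℓ hℓM (isParabolicHom_of_isParHom0 φ.2))

theorem parOp_conj0 {ℓ : ℕ} (hℓ : ℓ.Prime) (hℓM : ¬ ℓ ∣ N * q) (φ : homPar0 R (Gamma0 N) R) :
    parOp R (N * q) ℓ (conj0 N q φ) = conj0 N q (parOp R N ℓ φ) :=
  Subtype.ext (heckeHom_conjRes R hℓ hℓM (isParabolicHom_of_isParHom0 φ.2))

section commute

variable (hnd : ∀ φ : homPar0 R (Gamma0 N) R, (∀ ψ, cupB R N ψ φ = 0) → φ = 0)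
include hnd

theorem cor0_parOp_of_nondeg {ℓ : ℕ} (hℓ : ℓ.Prime) (hℓM : ¬ ℓ ∣ N * q)
    (y : homPar0 R (Gamma0 (N * q)) R) :
    cor0 N q (parOp R (N * q) ℓ y) = parOp R N ℓ (cor0 N q y) := by
  refine sub_eq_zero.mp (hnd _ fun ψ => ?_)
  have hℓN : ¬ ℓ ∣ N := fun hd => hℓM (hd.trans (dvd_mul_right N q))
  rw [map_sub, ← cupB_incl0, ← cupB_parOp hℓ hℓN, ← cupB_incl0,
    ← cupB_parOp hℓ hℓM, parOp_incl0 hℓ hℓM, sub_self]

theorem cor0_al0_parOp_of_nondeg (h : Nat.Coprime q N) {ℓ : ℕ} (hℓ : ℓ.Prime) (hℓM : ¬ ℓ ∣ N * q)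
    (y : homPar0 R (Gamma0 (N * q)) R) :
    cor0 N q (al0 h (parOp R (N * q) ℓ y)) = parOp R N ℓ (cor0 N q (al0 h y)) := by
  refine sub_eq_zero.mp (hnd _ fun ψ => ?_)
  have hℓN : ¬ ℓ ∣ N := fun hd => hℓM (hd.trans (dvd_mul_right N q))
  rw [map_sub, ← cupB_conj0 h, ← cupB_parOp hℓ hℓN, ← cupB_conj0 h,
    ← cupB_parOp hℓ hℓM, parOp_conj0 hℓ hℓM, sub_self]

end commute

section field

variable {F : Type*} [Field F]

theorem cupB_nondeg (φ : homPar0 F (Gamma0 N) F) (hφ : ∀ ψ, cupB F N ψ φ = 0) : φ = 0 :=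
  cupPairing_eq_zero_left (neg_one_mem_gamma0 N) φ fun ψ => by
    rw [cupPairing_swap (neg_one_mem_gamma0 N) ψ φ]
    exact neg_eq_zero.mpr (hφ ψ)

end field

/-! ### Change of coefficients -/

variable {S : Type*} [CommRing S]

/-- Change of coefficients. -/
def mapCoeff (f : R →+* S) {M : ℕ} (φ : homPar0 R (Gamma0 M) R) : homPar0 S (Gamma0 M) S :=
  ⟨f.toAddMonoidHom.comp φ.1, φ.2.comp f.toAddMonoidHom⟩

theorem mapCoeff_injective {f : R →+* S} (hf : Function.Injective f) {M : ℕ} :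
    Function.Injective (mapCoeff f (M := M)) := fun _ _ e =>
  Subtype.ext (AddMonoidHom.ext fun z => hf (DFunLike.congr_fun (congrArg Subtype.val e) z))

theorem mapCoeff_parOp (f : R →+* S) {M : ℕ} [NeZero M] (ℓ : ℕ) (φ : homPar0 R (Gamma0 M) R) :
    mapCoeff f (parOp R M ℓ φ) = parOp S M ℓ (mapCoeff f φ) := by
  refine Subtype.ext ?_
  show f.toAddMonoidHom.comp (heckeHom R M ℓ φ.1) = heckeHom S M ℓ (f.toAddMonoidHom.comp φ.1)
  rw [heckeHom_eq_int R, heckeHom_eq_int S, heckeHom_comp ℤ]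

theorem mapCoeff_cor0 (f : R →+* S) (φ : homPar0 R (Gamma0 (N * q)) R) :
    mapCoeff f (cor0 N q φ) = cor0 N q (mapCoeff f φ) := by
  have := Fintype.ofFinite (Gamma0 N ⧸ (Gamma0 (N * q)).subgroupOf (Gamma0 N))
  refine Subtype.ext (AddMonoidHom.ext fun z => ?_)
  show f (∑ᶠ y, φ.1 _) = ∑ᶠ y, f (φ.1 _)
  simp only [finsum_eq_sum_of_fintype, map_sum]

theorem mapCoeff_al0 (f : R →+* S) (h : Nat.Coprime q N) (φ : homPar0 R (Gamma0 (N * q)) R) :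
    mapCoeff f (al0 h φ) = al0 h (mapCoeff f φ) := rfl

theorem cor0_parOp_int {ℓ : ℕ} (hℓ : ℓ.Prime) (hℓM : ¬ ℓ ∣ N * q)
    (y : homPar0 ℤ (Gamma0 (N * q)) ℤ) :
    cor0 N q (parOp ℤ (N * q) ℓ y) = parOp ℤ N ℓ (cor0 N q y) := by
  apply mapCoeff_injective (f := Int.castRingHom ℚ) Int.cast_injective
  rw [mapCoeff_cor0, mapCoeff_parOp, mapCoeff_parOp, mapCoeff_cor0,
    cor0_parOp_of_nondeg cupB_nondeg hℓ hℓM]

theorem cor0_al0_parOp_int (h : Nat.Coprime q N) {ℓ : ℕ} (hℓ : ℓ.Prime) (hℓM : ¬ ℓ ∣ N * q)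
    (y : homPar0 ℤ (Gamma0 (N * q)) ℤ) :
    cor0 N q (al0 h (parOp ℤ (N * q) ℓ y)) = parOp ℤ N ℓ (cor0 N q (al0 h y)) := by
  apply mapCoeff_injective (f := Int.castRingHom ℚ) Int.cast_injective
  rw [mapCoeff_cor0, mapCoeff_al0, mapCoeff_parOp, mapCoeff_parOp, mapCoeff_cor0, mapCoeff_al0,
    cor0_al0_parOp_of_nondeg cupB_nondeg h hℓ hℓM]

end FLTA.LevelRaising
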