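import Fermat.Agent.LevelRaising.AssemblyEigen

/-!
# The Hecke algebra acting on refined parabolic homomorphisms with integer values

The transpose of `Periods.heckeQuot` through `parQuot →+ ℤ ≃ homPar0 ℤ (Γ₀(M)) ℤ`; on generators
it is `Periods.heckeHom`.
-/

set_option autoImplicit false

noncomputable section

namespace FLTA.LevelRaising

open CongruenceSubgroup FLTA.Periods
open scoped MatrixGroups IsMulCommutative

variable (M : ℕ) [NeZero M]

theorem parabolicHoms_int_eq_homPar0 :
    ModularCurve.Period.parabolicHoms ℤ (Gamma0 M) ℤ = FLTA.Gamma0.homPar0 ℤ (Gamma0 M) ℤ :=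
  FLTA.Gamma0.parabolicHoms_eq_homPar0 ℤ (Gamma0 M) ℤ fun a h => by
    rw [nsmul_eq_mul] at h; simpa using h

/-- Integer functionals on the parabolic lattice are the refined parabolic homomorphisms. -/
def parFunctionalEquiv :
    (parQuot (Gamma0 M) →+ ℤ) ≃ₗ[ℤ] FLTA.Gamma0.homPar0 ℤ (Gamma0 M) ℤ :=
  (parEquiv (Gamma0 M) ℤ ℤ).trans (LinearEquiv.ofEq _ _ (parabolicHoms_int_eq_homPar0 M))

@[simp] theorem parFunctionalEquiv_coe (u : parQuot (Gamma0 M) →+ ℤ) :
    ((parFunctionalEquiv M u : FLTA.Gamma0.homPar0 ℤ (Gamma0 M) ℤ) : Additive (Gamma0 M) →+ ℤ) =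
      u.comp (parMk (Gamma0 M)) := rfl

theorem parFunctionalEquiv_symm_comp (φ : FLTA.Gamma0.homPar0 ℤ (Gamma0 M) ℤ) :
    ((parFunctionalEquiv M).symm φ).comp (parMk (Gamma0 M)) = φ.1 := by
  conv_rhs => rw [← (parFunctionalEquiv M).apply_symm_apply φ]
  rfl

/-- The transpose of a lattice endomorphism. -/
def transposeAction (Q : Module.End ℤ (parQuot (Gamma0 M))) :
    Module.End ℤ (FLTA.Gamma0.homPar0 ℤ (Gamma0 M) ℤ) where
  toFun φ := parFunctionalEquiv M (((parFunctionalEquiv M).symm φ).comp Q.toAddMonoidHom)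
  map_add' φ ψ := by
    rw [map_add, ← map_add (parFunctionalEquiv M)]
    rfl
  map_smul' c φ := by
    rw [map_smul, RingHom.id_apply, ← map_smul (parFunctionalEquiv M)]
    rfl

theorem transposeAction_apply (Q : Module.End ℤ (parQuot (Gamma0 M)))
    (φ : FLTA.Gamma0.homPar0 ℤ (Gamma0 M) ℤ) :
    transposeAction M Q φ =
      parFunctionalEquiv M (((parFunctionalEquiv M).symm φ).comp Q.toAddMonoidHom) := rfl

theorem transposeAction_one : transposeAction M 1 = 1 :=
  LinearMap.ext fun φ => (parFunctionalEquiv M).apply_symm_apply φ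

theorem transposeAction_mul (P Q : Module.End ℤ (parQuot (Gamma0 M))) :
    transposeAction M (P * Q) = transposeAction M Q * transposeAction M P := by
  refine LinearMap.ext fun φ => ?_
  rw [Module.End.mul_apply, transposeAction_apply, transposeAction_apply M Q,
    transposeAction_apply M P, LinearEquiv.symm_apply_apply]
  rfl

theorem transposeAction_add (P Q : Module.End ℤ (parQuot (Gamma0 M))) :
    transposeAction M (P + Q) = transposeAction M P + transposeAction M Q := by
  refine LinearMap.ext fun φ => ?_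
  rw [LinearMap.add_apply, transposeAction_apply, transposeAction_apply, transposeAction_apply,
    ← map_add (parFunctionalEquiv M)]
  refine congrArg _ (AddMonoidHom.ext fun x => ?_)
  exact map_add ((parFunctionalEquiv M).symm φ) (P x) (Q x)

theorem transposeAction_zero : transposeAction M 0 = 0 := by
  refine LinearMap.ext fun φ => ?_
  rw [transposeAction_apply, LinearMap.zero_apply, LinearEquiv.map_eq_zero_iff]
  exact AddMonoidHom.ext fun x => map_zero ((parFunctionalEquiv M).symm φ)

/-- The full Hecke algebra acting on refined parabolic homomorphisms. -/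
def heckeAction : fullHecke M →+* Module.End ℤ (FLTA.Gamma0.homPar0 ℤ (Gamma0 M) ℤ) where
  toFun t := transposeAction M (heckeQuot M t)
  map_one' := by rw [map_one, transposeAction_one]
  map_mul' s t := by rw [mul_comm s t, map_mul, transposeAction_mul]
  map_zero' := by rw [map_zero, transposeAction_zero]
  map_add' s t := by rw [map_add, transposeAction_add]

theorem heckeAction_coe (t : fullHecke M) (φ : FLTA.Gamma0.homPar0 ℤ (Gamma0 M) ℤ) :
    ((heckeAction M t φ : FLTA.Gamma0.homPar0 ℤ (Gamma0 M) ℤ) : Additive (Gamma0 M) →+ ℤ) =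
      (((parFunctionalEquiv M).symm φ).comp (heckeQuot M t).toAddMonoidHom).comp
        (parMk (Gamma0 M)) := rfl

/-- A Hecke generator acts by the Hecke operator on homomorphisms. -/
theorem heckeAction_eq_heckeHom {t : fullHecke M} {l : ℕ}
    (h : ∀ f g : CF2 M, ModularCurve.periodHomPair M
      ((t : Module.End ℂ (CF2 M)) f, (t : Module.End ℂ (CF2 M)) g) =
        heckeHom ℂ M l (ModularCurve.periodHomPair M (f, g)))
    (φ : FLTA.Gamma0.homPar0 ℤ (Gamma0 M) ℤ) :
    ((heckeAction M t φ : FLTA.Gamma0.homPar0 ℤ (Gamma0 M) ℤ) : Additive (Gamma0 M) →+ ℤ) =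
      heckeHom ℤ M l φ.1 := by
  rw [heckeAction_coe, AddMonoidHom.comp_assoc, heckeQuot_comp_parMk t h, ← heckeHom_comp,
    parFunctionalEquiv_symm_comp]

theorem heckeAction_T {l : ℕ} (hl : l.Prime) (hlM : ¬ l ∣ M)
    (φ : FLTA.Gamma0.homPar0 ℤ (Gamma0 M) ℤ) :
    ((heckeAction M (CuspForm.heckeAlgebra.T hl hlM (Set.notMem_empty l)) φ :
      FLTA.Gamma0.homPar0 ℤ (Gamma0 M) ℤ) : Additive (Gamma0 M) →+ ℤ) =
      heckeHom ℤ M l φ.1 :=
  heckeAction_eq_heckeHom M (periodHomPair_heckeTLin hl hlM) φ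

theorem heckeAction_U {l : ℕ} (hl : l.Prime) (hlM : l ∣ M)
    (φ : FLTA.Gamma0.homPar0 ℤ (Gamma0 M) ℤ) :
    ((heckeAction M (CuspForm.heckeAlgebra.U hl hlM (Set.notMem_empty l)) φ :
      FLTA.Gamma0.homPar0 ℤ (Gamma0 M) ℤ) : Additive (Gamma0 M) →+ ℤ) =
      heckeHom ℤ M l φ.1 :=
  heckeAction_eq_heckeHom M (periodHomPair_heckeULin hlM) φ

/-- The action is faithful. -/
theorem heckeAction_injective : Function.Injective (heckeAction M) := by
  rw [injective_iff_map_eq_zero]
  intro t ht
  apply heckeQuot_injective M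
  rw [map_zero]
  refine LinearMap.ext fun x => ?_
  let b := Module.Free.chooseBasis ℤ (parQuot (Gamma0 M))
  refine b.ext_elem fun i => ?_
  have h := LinearMap.congr_fun ht (parFunctionalEquiv M (b.coord i).toAddMonoidHom)
  change transposeAction M (heckeQuot M t) _ = 0 at h
  rw [transposeAction_apply, LinearEquiv.symm_apply_apply, LinearEquiv.map_eq_zero_iff] at h
  simpa using DFunLike.congr_fun h x

end FLTA.LevelRaising
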