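import Mathlib
import Fermat.Agent.Periods.CharExtend

/-!
# Lifting an eigen-system modulo `p` of a commutative ring acting on a lattice
-/

set_option autoImplicit false

noncomputable section

namespace FLTA.LevelRaising

theorem eigen_mod_mul {V : Type*} [AddCommGroup V] (A B : Module.End ℤ V) {z ψ χ : V} {n c d : ℤ}
    (hA : A z - c • z = n • ψ) (hB : B z - d • z = n • χ) :
    (A * B) z - (c * d) • z = n • (d • ψ + A χ) := by
  have hB' : B z = d • z + n • χ := by rw [← hB]; abel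
  rw [Module.End.mul_apply, hB', map_add, map_zsmul, map_zsmul, smul_add, smul_comm n d ψ, ← hA,
    smul_sub, smul_smul, mul_comm c d]
  abel

theorem eigen_mod_add {V : Type*} [AddCommGroup V] (A B : Module.End ℤ V) {z ψ χ : V} {n c d : ℤ}
    (hA : A z - c • z = n • ψ) (hB : B z - d • z = n • χ) :
    (A + B) z - (c + d) • z = n • (ψ + χ) := by
  rw [LinearMap.add_apply, add_smul, smul_add, ← hA, ← hB]
  abel

/-- A finite torsion-free ring with a character to `ZMod p` has a complex character whose kernel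
is contained in the kernel of that character. -/
theorem exists_complex_char {B : Type*} [CommRing B] [Module.Finite ℤ B] [IsAddTorsionFree B]
    {p : ℕ} [Fact p.Prime] (θ : B →+* ZMod p) :
    ∃ χ : B →+* ℂ, RingHom.ker χ ≤ RingHom.ker θ := by
  have : (RingHom.ker θ).IsPrime := RingHom.ker_isPrime θ
  obtain ⟨P, hPmin, hP⟩ :=
    Ideal.exists_minimalPrimes_le (I := (⊥ : Ideal B)) (J := RingHom.ker θ) bot_le
  have : P.IsPrime := hPmin.1.1
  have hint : ∀ n : ℤ, (n : B) ∈ P → n = 0 := by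
    intro n hn
    by_contra hn0
    refine Set.disjoint_left.mp (Ideal.disjoint_nonZeroDivisors_of_mem_minimalPrimes hPmin) hn ?_
    refine mem_nonZeroDivisors_iff_right.mpr fun x hx => ?_
    have h : n • x = 0 := by rw [zsmul_eq_mul, mul_comm]; exact hx
    exact (smul_eq_zero.mp h).resolve_left hn0
  have : Algebra.IsIntegral ℤ (B ⧸ P) := Algebra.IsIntegral.of_finite ℤ _
  have hinj : Function.Injective (algebraMap ℤ (B ⧸ P)) := by
    rw [injective_iff_map_eq_zero]
    intro n hn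
    rw [eq_intCast, ← map_intCast (Ideal.Quotient.mk P), Ideal.Quotient.eq_zero_iff_mem] at hn
    exact hint n hn
  have : FaithfulSMul ℤ (B ⧸ P) := (faithfulSMul_iff_algebraMap_injective _ _).mpr hinj
  obtain ⟨ψ, hψ⟩ :=
    Periods.exists_ringHom_extension_of_isIntegral (A := ℤ) (B := B ⧸ P) (Int.castRingHom ℂ)
  have hker : RingHom.ker ψ = ⊥ := by
    have := RingHom.ker_isPrime ψ
    refine Ideal.eq_bot_of_comap_eq_bot (R := ℤ) (eq_bot_iff.mpr fun n hn => ?_)
    have h1 : ψ (algebraMap ℤ (B ⧸ P) n) = 0 := Ideal.mem_comap.mp hn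
    have h2 := RingHom.congr_fun hψ n
    rw [RingHom.comp_apply, h1, eq_intCast, eq_comm, Int.cast_eq_zero] at h2
    exact h2
  refine ⟨ψ.comp (Ideal.Quotient.mk P), fun x hx => hP ?_⟩
  rw [RingHom.mem_ker, RingHom.comp_apply] at hx
  have : Ideal.Quotient.mk P x ∈ RingHom.ker ψ := hx
  rwa [hker, Ideal.mem_bot, Ideal.Quotient.eq_zero_iff_mem] at this

/-- A maximal ideal of the algebraic integers compatible with a congruence of characters. -/
theorem exists_maximal_of_char {A : Type*} [CommRing A] (χ : A →+* integralClosure ℤ ℂ) {p : ℕ}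
    [Fact p.Prime] (θ : A →+* ZMod p) (h : RingHom.ker χ ≤ RingHom.ker θ) :
    ∃ 𝔪 : Ideal (integralClosure ℤ ℂ), 𝔪.IsMaximal ∧
      ∀ x, θ x = 0 → χ x ∈ 𝔪 := by
  let R : Subring (integralClosure ℤ ℂ) := χ.range
  let P : Ideal R := (RingHom.ker θ).map χ.rangeRestrict
  have hmax : (RingHom.ker θ).IsMaximal :=
    RingHom.ker_isMaximal_of_surjective θ (ZMod.ringHom_surjective θ)
  have hP : P.IsMaximal := by
    refine Ideal.IsMaximal.map_of_surjective_of_ker_le χ.rangeRestrict_surjective ?_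
    rwa [RingHom.ker_rangeRestrict]
  have : Algebra.IsIntegral R (integralClosure ℤ ℂ) :=
    ⟨fun x => IsIntegral.tower_top (R := ℤ) (Algebra.IsIntegral.isIntegral x)⟩
  obtain ⟨Q, hQmax, hQ⟩ := Ideal.exists_ideal_over_maximal_of_isIntegral
    (S := integralClosure ℤ ℂ) P (by
      rw [(RingHom.injective_iff_ker_eq_bot _).mp Subtype.val_injective]
      exact bot_le)
  refine ⟨Q, hQmax, fun x hx => ?_⟩
  have : χ.rangeRestrict x ∈ P := Ideal.mem_map_of_mem _ hx
  rw [← hQ] at this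
  exact this

/-- Lifting a mod `p` eigenvector in a stable sublattice to an integral character. -/
theorem exists_char_of_eigen_mod {R : Type*} [CommRing R] [Module.Finite ℤ R] {V : Type*}
    [AddCommGroup V] [IsAddTorsionFree V] (act : R →+* Module.End ℤ V) (gens : Set R)
    (K : Submodule ℤ V) (hstab : ∀ g ∈ gens, ∀ φ ∈ K, act g φ ∈ K) {p : ℕ} [Fact p.Prime]
    {z : V} (hz : z ∈ K) (hz0 : ∀ ψ, z ≠ (p : ℤ) • ψ)
    (heig : ∀ g ∈ gens, ∃ (c : ℤ) (ψ : V), act g z - c • z = (p : ℤ) • ψ) :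
    ∃ (χ : R →+* integralClosure ℤ ℂ) (𝔪 : Ideal (integralClosure ℤ ℂ)),
      𝔪.IsMaximal ∧ (p : integralClosure ℤ ℂ) ∈ 𝔪 ∧
      (∀ g ∈ gens, ∀ (c : ℤ) (ψ : V), act g z - c • z = (p : ℤ) • ψ →
        χ g - (c : integralClosure ℤ ℂ) ∈ 𝔪) ∧
      ∀ g ∈ gens, (∀ φ ∈ K, act g (act g φ) = φ) → χ g ^ 2 = 1 := by
  let A0 : Subalgebra ℤ R := Algebra.adjoin ℤ gens
  have hmain : ∀ t ∈ A0, (∀ φ ∈ K, act t φ ∈ K) ∧
      ∃ (c : ℤ) (ψ : V), act t z - c • z = (p : ℤ) • ψ := by
    intro t ht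
    induction ht using Algebra.adjoin_induction with
    | mem x hx => exact ⟨hstab x hx, heig x hx⟩
    | algebraMap n =>
      refine ⟨fun φ hφ => ?_, n, 0, ?_⟩
      · rw [eq_intCast, map_intCast, Module.End.intCast_apply]; exact K.smul_mem n hφ
      · rw [eq_intCast, map_intCast, Module.End.intCast_apply, sub_self, smul_zero]
    | add x y _ _ hx hy =>
      obtain ⟨hx1, c, ψ, hc⟩ := hx
      obtain ⟨hy1, d, χ, hd⟩ := hy
      refine ⟨fun φ hφ => ?_, c + d, ψ + χ, ?_⟩
      · rw [map_add, LinearMap.add_apply]; exact K.add_mem (hx1 φ hφ) (hy1 φ hφ)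
      · rw [map_add]; exact eigen_mod_add _ _ hc hd
    | mul x y _ _ hx hy =>
      obtain ⟨hx1, c, ψ, hc⟩ := hx
      obtain ⟨hy1, d, χ, hd⟩ := hy
      refine ⟨fun φ hφ => ?_, c * d, d • ψ + act x χ, ?_⟩
      · rw [map_mul, Module.End.mul_apply]; exact hx1 _ (hy1 φ hφ)
      · rw [map_mul]; exact eigen_mod_mul _ _ hc hd
  have huniq : ∀ {c : ℤ} {ψ : V}, c • z = (p : ℤ) • ψ → (c : ZMod p) = 0 := by
    intro c ψ h
    rw [ZMod.intCast_zmod_eq_zero_iff_dvd]
    by_contra hdvd
    obtain ⟨u, v, huv⟩ :=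
      ((Nat.prime_iff_prime_int.mp Fact.out).coprime_iff_not_dvd.mpr hdvd)
    apply hz0 (u • z + v • ψ)
    calc z = (u * (p : ℤ) + v * c) • z := by rw [huv, one_smul]
      _ = (p : ℤ) • (u • z + v • ψ) := by rw [add_smul, mul_smul v, h]; module
  choose hstab' cf ψf hcf using hmain
  have hval : ∀ (t : R) (ht : t ∈ A0) (c : ℤ) (ψ : V),
      act t z - c • z = (p : ℤ) • ψ → (cf t ht : ZMod p) = (c : ZMod p) := by
    intro t ht c ψ h
    rw [← sub_eq_zero, ← Int.cast_sub]
    refine huniq (ψ := ψ - ψf t ht) ?_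
    rw [smul_sub, ← h, ← hcf t ht]; module
  let θ : A0 →+* ZMod p :=
    { toFun := fun t => (cf t.1 t.2 : ZMod p)
      map_one' := by rw [hval _ _ 1 0 (by simp)]; simp
      map_zero' := by rw [hval _ _ 0 0 (by simp)]; simp
      map_add' := fun x y => by
        rw [← Int.cast_add]
        refine hval _ _ _ (ψf x.1 x.2 + ψf y.1 y.2) ?_
        rw [Subalgebra.coe_add, map_add]
        exact eigen_mod_add _ _ (hcf _ _) (hcf _ _)
      map_mul' := fun x y => by
        rw [← Int.cast_mul]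
        refine hval _ _ _ (cf y.1 y.2 • ψf x.1 x.2 + act x.1 (ψf y.1 y.2)) ?_
        rw [Subalgebra.coe_mul, map_mul]
        exact eigen_mod_mul _ _ (hcf _ _) (hcf _ _) }
  let π : A0 →+* Module.End ℤ K :=
    { toFun := fun t => (act t.1).restrict (hstab' t.1 t.2)
      map_one' := LinearMap.ext fun φ => Subtype.ext (by simp)
      map_zero' := LinearMap.ext fun φ => Subtype.ext (by simp)
      map_add' := fun x y => LinearMap.ext fun φ => Subtype.ext (by simp)
      map_mul' := fun x y => LinearMap.ext fun φ => Subtype.ext (by simp) }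
  have : Module.Finite ℤ A0 :=
    Module.Finite.of_injective A0.val.toLinearMap Subtype.val_injective
  have : Module.Finite ℤ (A0 ⧸ RingHom.ker π) :=
    Module.Finite.of_surjective (Ideal.Quotient.mk (RingHom.ker π)).toIntAlgHom.toLinearMap
      Ideal.Quotient.mk_surjective
  have : IsAddTorsionFree (A0 ⧸ RingHom.ker π) := ⟨fun n hn x y hxy =>
    RingHom.kerLift_injective π (LinearMap.ext fun φ => Subtype.ext (nsmul_right_injective hn (by
      have h := congrArg (fun t => ((RingHom.kerLift π t φ : K) : V)) hxy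
      simpa only [map_nsmul, LinearMap.smul_apply, Submodule.coe_smul_of_tower] using h)))⟩
  have hθπ : RingHom.ker π ≤ RingHom.ker θ := by
    intro t ht
    rw [RingHom.mem_ker] at ht ⊢
    have h0 : act t.1 z = 0 := congrArg Subtype.val (LinearMap.congr_fun ht ⟨z, hz⟩)
    refine huniq (ψ := -ψf t.1 t.2) ?_
    rw [smul_neg, ← hcf t.1 t.2, h0, zero_sub, neg_neg]
  let θB : A0 ⧸ RingHom.ker π →+* ZMod p := Ideal.Quotient.lift _ θ fun t ht => hθπ ht
  obtain ⟨χB, hχB⟩ := exists_complex_char θB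
  have : Algebra.IsIntegral A0 R :=
    ⟨fun x => IsIntegral.tower_top (R := ℤ) (Algebra.IsIntegral.isIntegral x)⟩
  obtain ⟨χ, hχ⟩ := Periods.exists_ringHom_extension_of_isIntegral (A := A0) (B := R)
    (χB.comp (Ideal.Quotient.mk (RingHom.ker π)))
  have hint : ∀ t, IsIntegral ℤ (χ t) := fun t =>
    (Algebra.IsIntegral.isIntegral t).map χ.toIntAlgHom
  let χ' : R →+* integralClosure ℤ ℂ := χ.codRestrict _ hint
  have hle : RingHom.ker (χ'.comp (algebraMap A0 R)) ≤ RingHom.ker θ := by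
    intro t ht
    rw [RingHom.mem_ker] at ht
    have h : χB (Ideal.Quotient.mk (RingHom.ker π) t) = 0 :=
      (RingHom.congr_fun hχ t).symm.trans (congrArg Subtype.val ht)
    exact hχB (x := Ideal.Quotient.mk _ t) (RingHom.mem_ker.mpr h)
  obtain ⟨𝔪, hmax, hm⟩ := exists_maximal_of_char _ θ hle
  refine ⟨χ', 𝔪, hmax, ?_, fun g hg c ψ h => ?_, fun g hg hinv => ?_⟩
  · simpa using hm (p : A0) (by simp)
  · have hgA : g ∈ A0 := Algebra.subset_adjoin hg
    have h0 : θ ((⟨g, hgA⟩ : A0) - (c : A0)) = 0 := by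
      rw [map_sub, map_intCast, sub_eq_zero]
      exact hval g hgA c ψ h
    have := hm _ h0
    rw [RingHom.comp_apply, map_sub, map_intCast, map_sub, map_intCast] at this
    exact this
  · have hgA : g ∈ A0 := Algebra.subset_adjoin hg
    apply Subtype.ext
    show χ g ^ 2 = 1
    rw [← map_pow]
    refine (RingHom.congr_fun hχ ((⟨g, hgA⟩ : A0) ^ 2)).trans ?_
    have hπ : π ((⟨g, hgA⟩ : A0) ^ 2) = 1 := LinearMap.ext fun φ => Subtype.ext (by
      show act (g ^ 2) φ.1 = φ.1
      rw [pow_two, map_mul, Module.End.mul_apply, hinv φ.1 φ.2])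
    have : Ideal.Quotient.mk (RingHom.ker π) ((⟨g, hgA⟩ : A0) ^ 2) = 1 :=
      RingHom.kerLift_injective π (by rw [RingHom.kerLift_mk, hπ, map_one])
    rw [RingHom.comp_apply, this, map_one]

end FLTA.LevelRaising
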