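/-
From a mod `p` eigenvector in a Hecke stable saturated lattice with `U_q² = 1` to an eigenform new
at `q`.
-/
import Fermat.Agent.LevelRaising.AssemblyOps
import Fermat.Agent.LevelRaising.AssemblyAction
import Fermat.Agent.LevelRaising.AssemblyLift
import Fermat.Agent.Periods.HomForm
import Fermat.Prelude.Def_FreyPackage_LevelRaising

set_option autoImplicit false

noncomputable section

namespace FLTA.LevelRaising

open CongruenceSubgroup FLTA.Periods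
open scoped MatrixGroups IsMulCommutative

/-- Lifting a mod `p` eigen-system of a lattice on which `U_q² = 1`. -/
theorem exists_newAt_of_lattice {M q p : ℕ} [NeZero M] (hp : p.Prime) (hq : q.Prime) (hqM : q ∣ M)
    (G : ℕ → Prop) (hG : ∀ ℓ, G ℓ → ℓ.Prime ∧ ¬ ℓ ∣ M) (a : ℕ → ℤ)
    (K : Submodule ℤ (FLTA.Gamma0.homPar0 ℤ (Gamma0 M) ℤ))
    (hKT : ∀ ℓ, G ℓ → ∀ φ ∈ K, parOp ℤ M ℓ φ ∈ K)
    (hKU : ∀ φ ∈ K, parOp ℤ M q φ ∈ K ∧ parOp ℤ M q (parOp ℤ M q φ) = φ)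
    (hsat : ∀ φ, (p : ℤ) • φ ∈ K → φ ∈ K)
    {z : FLTA.Gamma0.homPar0 ℤ (Gamma0 M) ℤ} (hz : z ∈ K) (hz0 : ∀ ψ, z ≠ (p : ℤ) • ψ)
    (hzT : ∀ ℓ, G ℓ → ∃ ψ, parOp ℤ M ℓ z - a ℓ • z = (p : ℤ) • ψ)
    (hzU : ∃ (e : ℤ) (ψ : FLTA.Gamma0.homPar0 ℤ (Gamma0 M) ℤ),
      parOp ℤ M q z - e • z = (p : ℤ) • ψ) :
    ∃ (g : CuspForm (Gamma0 M) 2) (𝔪' : Ideal (integralClosure ℤ ℂ)),
      g.IsNormalizedEigenform ∧ 𝔪'.IsMaximal ∧ (p : integralClosure ℤ ℂ) ∈ 𝔪' ∧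
      (∀ ℓ, G ℓ → ∃ b : integralClosure ℤ ℂ, (b : ℂ) = ModularFormClass.qCoeff g ℓ ∧
        b - ((a ℓ : ℤ) : integralClosure ℤ ℂ) ∈ 𝔪') ∧
      g.IsNewAt q := by
  have := Fact.mk hp
  have : IsAddTorsionFree (FLTA.Gamma0.homPar0 ℤ (Gamma0 M) ℤ) :=
    ⟨fun n hn x y h => Subtype.ext (AddMonoidHom.ext fun γ => by
      have h' := DFunLike.congr_fun (congrArg Subtype.val h) γ
      simpa [hn] using h')⟩
  let gens : Set (fullHecke M) :=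
    {t | ∃ (ℓ : ℕ) (h : G ℓ),
      t = CuspForm.heckeAlgebra.T (hG ℓ h).1 (hG ℓ h).2 (Set.notMem_empty ℓ)} ∪
      {CuspForm.heckeAlgebra.U hq hqM (Set.notMem_empty q)}
  have hU : ∀ φ : FLTA.Gamma0.homPar0 ℤ (Gamma0 M) ℤ,
      heckeAction M (CuspForm.heckeAlgebra.U hq hqM (Set.notMem_empty q)) φ = parOp ℤ M q φ :=
    fun φ => Subtype.ext (heckeAction_U M hq hqM φ)
  have hT : ∀ (ℓ : ℕ) (h : G ℓ) (φ : FLTA.Gamma0.homPar0 ℤ (Gamma0 M) ℤ),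
      heckeAction M (CuspForm.heckeAlgebra.T (hG ℓ h).1 (hG ℓ h).2 (Set.notMem_empty ℓ)) φ =
        parOp ℤ M ℓ φ := fun ℓ h φ => Subtype.ext (heckeAction_T M (hG ℓ h).1 (hG ℓ h).2 φ)
  have hstab : ∀ g ∈ gens, ∀ φ ∈ K, heckeAction M g φ ∈ K := by
    rintro g (⟨ℓ, h, rfl⟩ | rfl) φ hφ
    · rw [hT ℓ h φ]; exact hKT ℓ h φ hφ
    · rw [hU φ]; exact (hKU φ hφ).1
  have heig : ∀ g ∈ gens, ∃ (c : ℤ) (ψ : FLTA.Gamma0.homPar0 ℤ (Gamma0 M) ℤ),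
      heckeAction M g z - c • z = (p : ℤ) • ψ := by
    rintro g (⟨ℓ, h, rfl⟩ | rfl)
    · exact ⟨a ℓ, by rw [hT ℓ h z]; exact hzT ℓ h⟩
    · rw [hU z]; exact hzU
  obtain ⟨χ, 𝔪, hmax, hpm, hcong, hinv⟩ :=
    exists_char_of_eigen_mod (heckeAction M) gens K hstab hz hz0 heig
  let χc : fullHecke M →+* ℂ := (integralClosure ℤ ℂ).val.toRingHom.comp χ
  have hqc : ∀ (ℓ : ℕ) (t : fullHecke M),
      (∀ f : CF2 M, ModularFormClass.qCoeff ((t : Module.End ℂ (CF2 M)) f) 1 =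
        ModularFormClass.qCoeff f ℓ) →
      ModularFormClass.qCoeff (formOfHom M χc) ℓ = (χ t : ℂ) := fun ℓ t ht =>
    (ht _).symm.trans (qCoeff_one_hecke_formOfHom M χc t)
  refine ⟨formOfHom M χc, 𝔪, isNormalizedEigenform_formOfHom M χc, hmax, hpm, fun ℓ h => ?_, ?_⟩
  · obtain ⟨ψ, hψ⟩ := hzT ℓ h
    refine ⟨χ (CuspForm.heckeAlgebra.T (hG ℓ h).1 (hG ℓ h).2 (Set.notMem_empty ℓ)),
      (hqc ℓ _ fun f => ?_).symm, hcong _ (Or.inl ⟨ℓ, h, rfl⟩) (a ℓ) ψ (by rw [hT ℓ h]; exact hψ)⟩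
    rw [CuspForm.heckeAlgebra.coe_T, qCoeff_heckeTLin, if_neg (hG ℓ h).1.not_dvd_one, one_mul,
      add_zero]
  · have hsq := hinv (CuspForm.heckeAlgebra.U hq hqM (Set.notMem_empty q)) (Or.inr rfl)
      fun φ hφ => by rw [hU, hU, (hKU φ hφ).2]
    show ModularFormClass.qCoeff (formOfHom M χc) q ^ 2 = 1
    rw [hqc q (CuspForm.heckeAlgebra.U hq hqM (Set.notMem_empty q)) fun f => ?_]
    · exact_mod_cast congrArg Subtype.val hsq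
    · rw [CuspForm.heckeAlgebra.coe_U, qCoeff_heckeULin hq, one_mul]

end FLTA.LevelRaising
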