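/-
Level raising: the assembly.
-/
import Fermat.Agent.LevelRaising.AssemblyLattice
import Fermat.Agent.LevelRaising.AssemblyEigen
import Fermat.Agent.LevelRaising.AssemblyEigenform
import Fermat.Agent.LevelRaising.Irreducible

set_option autoImplicit false

noncomputable section

namespace FLTA.LevelRaising

open CongruenceSubgroup FLTA.Periods FLTA.Gamma0 WeierstrassCurve
open WeierstrassCurve.Affine WeierstrassCurve.Affine.Point

section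

variable {p : ℕ} [Fact p.Prime] {N q : ℕ} [NeZero N] [NeZero q]

theorem saturated_ker_degPush (h : Nat.Coprime q N) {φ : ParH ℤ (N * q)}
    (hφ : degPush ℤ N q h ((p : ℤ) • φ) = 0) : degPush ℤ N q h φ = 0 := by
  have hp : (p : ℤ) ≠ 0 := Int.natCast_ne_zero.mpr (Fact.out : p.Prime).ne_zero
  rw [map_smul] at hφ
  refine Prod.ext (Subtype.ext (AddMonoidHom.ext fun γ => ?_))
    (Subtype.ext (AddMonoidHom.ext fun γ => ?_))
  · have e := DFunLike.congr_fun (congrArg (fun z : ParH ℤ N × ParH ℤ N => z.1.1) hφ) γ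
    exact (mul_eq_zero.mp e).resolve_left hp
  · have e := DFunLike.congr_fun (congrArg (fun z : ParH ℤ N × ParH ℤ N => z.2.1) hφ) γ
    exact (mul_eq_zero.mp e).resolve_left hp

theorem redP_al0 (h : Nat.Coprime q N) (φ : ParH ℤ (N * q)) :
    redP p (N * q) (al0 h φ) = al0 h (redP p (N * q) φ) := rfl

theorem al0_kernelVector (h : Nat.Coprime q N) {e : ℤ} (he : e = 1 ∨ e = -1)
    (v : ParH (ZMod p) N) :
    al0 h (incl0 N q v - (e : ZMod p) • conj0 N q v) =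
      -((e : ZMod p) • (incl0 N q v - (e : ZMod p) • conj0 N q v)) := by
  rw [map_sub, map_smul, al0_incl0, al0_conj0]
  refine Subtype.ext (AddMonoidHom.ext fun γ => ?_)
  simp only [Submodule.coe_sub, Submodule.coe_smul, Submodule.coe_neg, AddMonoidHom.sub_apply,
    AddMonoidHom.smul_apply, AddMonoidHom.neg_apply, smul_eq_mul]
  rcases he with rfl | rfl <;> push_cast <;> ring

end

/-- **Level raising.** -/
theorem exists_newAt_congruent (E : WeierstrassCurve ℚ) [E.IsElliptic] {W : WeierstrassCurve ℤ}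
    (hW : W.IsIntegralModelOf E) {p N q : ℕ} (hp : p.Prime) (hp2 : p ≠ 2) [NeZero N]
    (hq : q.Prime) (hqN : ¬ q ∣ N)
    (hirr : GaloisRepIsIrreducible (K := AlgebraicClosure ℚ) ℚ E p)
    (f : CuspForm (CongruenceSubgroup.Gamma0 N) 2) (𝔪 : Ideal (integralClosure ℤ ℂ))
    (hf : f.IsNormalizedEigenform) (hmax : 𝔪.IsMaximal) (hpm : (p : integralClosure ℤ ℂ) ∈ 𝔪)
    (hcong : ∀ ℓ : ℕ, ℓ.Prime → W.IsGoodPrimeFor ℓ → ¬ ℓ ∣ N → ℓ ≠ p →
      ∃ a : integralClosure ℤ ℂ, (a : ℂ) = ModularFormClass.qCoeff f ℓ ∧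
        a - ((W.apOfModel ℓ : ℤ) : integralClosure ℤ ℂ) ∈ 𝔪)
    (hLR : ∃ a : integralClosure ℤ ℂ, (a : ℂ) = ModularFormClass.qCoeff f q ∧
      a ^ 2 - ((q : integralClosure ℤ ℂ) + 1) ^ 2 ∈ 𝔪) :
    ∃ (g : CuspForm (CongruenceSubgroup.Gamma0 (N * q)) 2) (𝔪' : Ideal (integralClosure ℤ ℂ)),
      g.IsNormalizedEigenform ∧ 𝔪'.IsMaximal ∧ (p : integralClosure ℤ ℂ) ∈ 𝔪' ∧
      (∀ ℓ : ℕ, ℓ.Prime → W.IsGoodPrimeFor ℓ → ¬ ℓ ∣ N * q → ℓ ≠ p →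
        ∃ a : integralClosure ℤ ℂ, (a : ℂ) = ModularFormClass.qCoeff g ℓ ∧
          a - ((W.apOfModel ℓ : ℤ) : integralClosure ℤ ℂ) ∈ 𝔪') ∧
      g.IsNewAt q := by
  haveI := Fact.mk hp
  haveI : NeZero q := ⟨hq.ne_zero⟩
  have h : Nat.Coprime q N := hq.coprime_iff_not_dvd.mpr hqN
  obtain ⟨v₀, hv₀par, hv₀, hT, e₀, he₀, hTq₀⟩ :=
    exists_eigen_mod hq hqN f 𝔪 hf hmax hpm hcong hLR
  obtain ⟨ℓ₀, hℓ₀, hℓ₀S, hℓ₀g, hℓ₀p, hℓ₀1, hℓ₀a⟩ :=
    exists_good_prime_one_mod_ne E hW hp hp2 hirr (M := N * q) (NeZero.ne _)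
      (N * q).primeFactors
  have hℓ₀M : ¬ ℓ₀ ∣ N * q := fun hd =>
    hℓ₀S (Nat.mem_primeFactors.mpr ⟨hℓ₀, hd, NeZero.ne _⟩)
  have hℓ₀N : ¬ ℓ₀ ∣ N := fun hd => hℓ₀M (hd.trans (dvd_mul_right N q))
  set v : ParH (ZMod p) N := ⟨v₀, hv₀par⟩ with hv
  have hvne : v ≠ 0 := fun e => hv₀ (congrArg Subtype.val e)
  obtain ⟨e, he, hee₀⟩ : ∃ e : ℤ, (e = 1 ∨ e = -1) ∧ (e : ZMod p) = e₀ := by
    rcases sq_eq_one_iff.mp he₀ with h1 | h1
    · exact ⟨1, Or.inl rfl, by simp [h1]⟩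
    · exact ⟨-1, Or.inr rfl, by simp [h1]⟩
  have hTq : parOp (ZMod p) N q v = ((e : ZMod p) * ((q : ZMod p) + 1)) • v :=
    Subtype.ext (by rw [hee₀]; exact hTq₀)
  have hTv : ∀ ℓ, ℓ.Prime → W.IsGoodPrimeFor ℓ → ¬ ℓ ∣ N → ℓ ≠ p →
      parOp (ZMod p) N ℓ v = (W.apOfModel ℓ : ZMod p) • v :=
    fun ℓ h1 h2 h3 h4 => Subtype.ext (hT ℓ h1 h2 h3 h4)
  obtain ⟨z, s, hz, hs, hrz, hx₀⟩ := exists_kernel_vector hp2 hq hqN h hℓ₀ hℓ₀1 hℓ₀M hvne
    (hTv ℓ₀ hℓ₀ hℓ₀g hℓ₀N hℓ₀p) hℓ₀a he hTq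
  set x₀ := incl0 N q v - (e : ZMod p) • conj0 N q v with hx₀def
  let G : ℕ → Prop := fun ℓ => ℓ.Prime ∧ W.IsGoodPrimeFor ℓ ∧ ¬ ℓ ∣ N * q ∧ ℓ ≠ p
  obtain ⟨g, 𝔪', hg1, hg2, hg3, hg4, hg5⟩ :=
    exists_newAt_of_lattice (M := N * q) hp hq (dvd_mul_left q N) G (fun ℓ hℓ => ⟨hℓ.1, hℓ.2.2.1⟩)
      (fun ℓ => W.apOfModel ℓ) (LinearMap.ker (degPush ℤ N q h))
      (fun ℓ hℓ φ hφ => by
        rw [LinearMap.mem_ker] at hφ ⊢
        rw [degPush_parOp h hℓ.1 hℓ.2.2.1, hφ]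
        simp)
      (fun φ hφ => by
        rw [LinearMap.mem_ker] at hφ ⊢
        have h1 := parOp_q_of_ker hq hqN h hφ
        have h2 : degPush ℤ N q h (-al0 h φ) = 0 := by rw [map_neg, degPush_al0 h hφ, _root_.neg_zero]
        refine ⟨by rw [h1, h2], ?_⟩
        rw [h1, parOp_q_of_ker hq hqN h h2, map_neg, neg_neg, al0_al0])
      (fun φ hφ => by
        rw [LinearMap.mem_ker] at hφ ⊢
        exact saturated_ker_degPush h hφ)
      (z := z) (by rw [LinearMap.mem_ker]; exact hz)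
      (fun ψ hψ => by
        rw [hψ, redP_smul_p] at hrz
        exact hx₀ ((smul_eq_zero.mp hrz.symm).resolve_left hs))
      (fun ℓ hℓ => by
        refine exists_eq_smul_of_redP ?_
        have hℓN : ¬ ℓ ∣ N := fun hd => hℓ.2.2.1 (hd.trans (dvd_mul_right N q))
        have hT0 : parOp (ZMod p) (N * q) ℓ x₀ = (W.apOfModel ℓ : ZMod p) • x₀ := by
          rw [hx₀def, map_sub, map_smul, parOp_incl0 hℓ.1 hℓ.2.2.1, parOp_conj0 hℓ.1 hℓ.2.2.1,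
            hTv ℓ hℓ.1 hℓ.2.1 hℓN hℓ.2.2.2, map_smul, map_smul]
          refine Subtype.ext (AddMonoidHom.ext fun γ => ?_)
          simp only [Submodule.coe_sub, Submodule.coe_smul, AddMonoidHom.sub_apply,
            AddMonoidHom.smul_apply, smul_eq_mul]
          ring
        rw [map_sub, redP_smul, redP_parOp, hrz, map_smul, hT0, smul_comm, sub_self])
      (by
        refine ⟨e, exists_eq_smul_of_redP ?_⟩
        rw [parOp_q_of_ker hq hqN h hz, map_sub, map_neg, redP_smul, redP_al0, hrz, map_smul,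
          al0_kernelVector h he, smul_neg, neg_neg, smul_comm, sub_self])
  exact ⟨g, 𝔪', hg1, hg2, hg3, fun ℓ h1 h2 h3 h4 => hg4 ℓ ⟨h1, h2, h3, h4⟩, hg5⟩

end FLTA.LevelRaising
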