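import Mathlib

/-!
# Representations in which a normal subgroup fixes a vector elementwise
-/

set_option autoImplicit false

namespace FLTA.LevelRaising

variable {k V : Type*} [Field k] [AddCommGroup V] [Module k V] {G : Type*} [Group G]

/-- Two operators of a group of operators with eigenvalue `1`, neither trivial, have the same
fixed space or the same image of `h - 1`. -/
theorem ker_eq_or_range_eq (hV : Module.finrank k V = 2) {g h : Module.End k V} (hg1 : g ≠ 1)
    (hh1 : h ≠ 1) (hgf : ∃ v, v ≠ 0 ∧ g v = v) (hhf : ∃ v, v ≠ 0 ∧ h v = v)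
    (hhg : ∃ v, v ≠ 0 ∧ (h * g) v = v) :
    LinearMap.ker (h - 1) = LinearMap.ker (g - 1) ∨
      LinearMap.range (h - 1) = LinearMap.range (g - 1) := by
  haveI : Module.Finite k V := Module.finite_of_finrank_eq_succ hV
  have key : ∀ f : Module.End k V, f ≠ 1 → (∃ v, v ≠ 0 ∧ f v = v) →
      Module.finrank k (LinearMap.ker (f - 1)) = 1 ∧
        Module.finrank k (LinearMap.range (f - 1)) = 1 := by
    intro f hf1 hff
    obtain ⟨v, hv, hfv⟩ := hff
    have h1 : 1 ≤ Module.finrank k (LinearMap.ker (f - 1)) :=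
      Submodule.one_le_finrank_iff.mpr
        ((Submodule.ne_bot_iff _).mpr ⟨v, by simp [LinearMap.mem_ker, hfv], hv⟩)
    have h2 : 1 ≤ Module.finrank k (LinearMap.range (f - 1)) :=
      Submodule.one_le_finrank_iff.mpr (by simpa [LinearMap.range_eq_bot, sub_eq_zero] using hf1)
    have h3 := LinearMap.finrank_range_add_finrank_ker (f - 1)
    omega
  have line : ∀ P Q : Submodule k V, Module.finrank k P = 1 → Module.finrank k Q = 1 →
      P ≠ Q → P ⊓ Q = ⊥ := by
    intro P Q hP hQ hne
    by_contra hb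
    have h1 : 1 ≤ Module.finrank k (P ⊓ Q : Submodule k V) := Submodule.one_le_finrank_iff.mpr hb
    exact hne ((Submodule.eq_of_le_of_finrank_le inf_le_left (by omega)).symm.trans
      (Submodule.eq_of_le_of_finrank_le inf_le_right (by omega)))
  by_contra hne
  rw [not_or] at hne
  obtain ⟨v, hv, hfix⟩ := hhg
  rw [Module.End.mul_apply] at hfix
  have hr : (g - 1) v ∈ LinearMap.range (h - 1) ⊓ LinearMap.range (g - 1) := by
    refine ⟨⟨-(g v), ?_⟩, LinearMap.mem_range_self _ v⟩
    simp only [map_neg, LinearMap.sub_apply, Module.End.one_apply, hfix]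
    abel
  rw [line _ _ (key h hh1 hhf).2 (key g hg1 hgf).2 hne.2, Submodule.mem_bot] at hr
  have hgv : g v = v := by simpa [sub_eq_zero] using hr
  have hhv : h v = v := by rwa [hgv] at hfix
  have hmem : v ∈ LinearMap.ker (h - 1) ⊓ LinearMap.ker (g - 1) :=
    ⟨by simp [LinearMap.mem_ker, hhv], by simp [LinearMap.mem_ker, hgv]⟩
  rw [line _ _ (key h hh1 hhf).1 (key g hg1 hgf).1 hne.1, Submodule.mem_bot] at hmem
  exact hv hmem

/-- If a normal subgroup `H` of `G` containing all commutators fixes a nonzero vector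
elementwise, and some element has square `1` and is not scalar `±1`, then `G` has an invariant
line. -/
theorem exists_invariant_line (hV : Module.finrank k V = 2) (ρ : G →* Module.End k V)
    (H : Subgroup G) [H.Normal] (hcomm : ∀ a b : G, a * b * a⁻¹ * b⁻¹ ∈ H)
    (hfix : ∀ h ∈ H, ∃ v : V, v ≠ 0 ∧ ρ h v = v)
    (hc : ∃ c : G, ρ c * ρ c = 1 ∧ ρ c ≠ 1 ∧ ρ c ≠ -1) :
    ∃ W : Submodule k V, W ≠ ⊥ ∧ W ≠ ⊤ ∧ ∀ g : G, ∀ w ∈ W, ρ g w ∈ W := by
  haveI : Module.Finite k V := Module.finite_of_finrank_eq_succ hV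
  have hinv : ∀ (g : G) (v : V), ρ g (ρ g⁻¹ v) = v := fun g v => by
    rw [← Module.End.mul_apply, ← map_mul, mul_inv_cancel, map_one, Module.End.one_apply]
  by_cases hH : ∀ h ∈ H, ρ h = 1
  · -- abelian image
    obtain ⟨c, hc2, hc1, hcm⟩ := hc
    have hcomm' : ∀ g : G, ρ g * ρ c = ρ c * ρ g := fun g => by
      have h := hH _ (hcomm g c)
      have e : g * c = (g * c * g⁻¹ * c⁻¹) * (c * g) := by group
      rw [← map_mul, e, map_mul, h, one_mul, map_mul]
    refine ⟨LinearMap.ker (ρ c - 1), ?_, ?_, fun g w hw => ?_⟩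
    · intro hbot
      refine hcm (LinearMap.ext fun v => ?_)
      have hmem : ρ c v + v ∈ LinearMap.ker (ρ c - 1) := by
        rw [LinearMap.mem_ker, LinearMap.sub_apply, Module.End.one_apply, map_add,
          ← Module.End.mul_apply, hc2, Module.End.one_apply]
        abel
      rw [hbot, Submodule.mem_bot] at hmem
      simpa using eq_neg_of_add_eq_zero_left hmem
    · intro htop
      exact hc1 (sub_eq_zero.mp (LinearMap.ker_eq_top.mp htop))
    · simp only [LinearMap.mem_ker, LinearMap.sub_apply, Module.End.one_apply, sub_eq_zero] at hw ⊢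
      rw [← Module.End.mul_apply, ← hcomm', Module.End.mul_apply, hw]
  · push Not at hH
    obtain ⟨h0, hh0, hne0⟩ := hH
    set S : Set G := {h | h ∈ H ∧ ρ h ≠ 1} with hS
    have pair : ∀ a ∈ S, ∀ b ∈ S, LinearMap.ker (ρ a - 1) = LinearMap.ker (ρ b - 1) ∨
        LinearMap.range (ρ a - 1) = LinearMap.range (ρ b - 1) := fun a ha b hb =>
      ker_eq_or_range_eq hV hb.2 ha.2 (hfix b hb.1) (hfix a ha.1)
        (by rw [← map_mul]; exact hfix _ (mul_mem ha.1 hb.1))
    have conj : ∀ (g : G), ∀ a ∈ S, g * a * g⁻¹ ∈ S := fun g a ha =>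
      ⟨Subgroup.Normal.conj_mem inferInstance a ha.1 g, fun h => ha.2 (by
        have e : a = g⁻¹ * (g * a * g⁻¹) * g := by group
        rw [e, map_mul, map_mul, h, mul_one, ← map_mul, inv_mul_cancel, map_one])⟩
    have h0S : h0 ∈ S := ⟨hh0, hne0⟩
    have hker1 : LinearMap.ker (ρ h0 - 1) ≠ ⊥ := by
      obtain ⟨v, hv, hfv⟩ := hfix h0 hh0
      exact (Submodule.ne_bot_iff _).mpr ⟨v, by simp [LinearMap.mem_ker, hfv], hv⟩
    have hker2 : LinearMap.ker (ρ h0 - 1) ≠ ⊤ := fun h =>
      hne0 (sub_eq_zero.mp (LinearMap.ker_eq_top.mp h))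
    by_cases hall : ∀ a ∈ S, LinearMap.ker (ρ a - 1) = LinearMap.ker (ρ h0 - 1)
    · refine ⟨_, hker1, hker2, fun g w hw => ?_⟩
      have hb := conj g⁻¹ h0 h0S
      rw [inv_inv] at hb
      have hw' := hall _ hb ▸ hw
      simp only [LinearMap.mem_ker, LinearMap.sub_apply, Module.End.one_apply, sub_eq_zero,
        map_mul, Module.End.mul_apply] at hw' ⊢
      have h2 := congrArg (ρ g) hw'
      rwa [hinv] at h2
    · push Not at hall
      obtain ⟨b, hb, hbne⟩ := hall
      have hR : ∀ a ∈ S, LinearMap.range (ρ a - 1) = LinearMap.range (ρ h0 - 1) := by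
        intro a ha
        have hb0 := (pair b hb h0 h0S).resolve_left hbne
        rcases pair a ha h0 h0S with h | h
        · rcases pair a ha b hb with h' | h'
          · exact absurd (h'.symm.trans h) hbne
          · exact h'.trans hb0
        · exact h
      refine ⟨LinearMap.range (ρ h0 - 1), ?_, ?_, fun g w hw => ?_⟩
      · simpa [LinearMap.range_eq_bot, sub_eq_zero] using hne0
      · intro htop
        have h3 := LinearMap.finrank_range_add_finrank_ker (ρ h0 - 1)
        rw [htop, finrank_top] at h3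
        have := Submodule.one_le_finrank_iff.mpr hker1
        omega
      · obtain ⟨v, rfl⟩ := hw
        rw [← hR _ (conj g h0 h0S)]
        refine ⟨ρ g v, ?_⟩
        simp only [LinearMap.sub_apply, Module.End.one_apply, map_mul, Module.End.mul_apply,
          map_sub]
        rw [show ρ g⁻¹ (ρ g v) = v by
          rw [← Module.End.mul_apply, ← map_mul, inv_mul_cancel, map_one, Module.End.one_apply]]

end FLTA.LevelRaising
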